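/-
S56lib / Lift / JacAlg (helper6).
From Kaehler differentials to gradients.  `A = W[X_1..X_m] / J` (via `aeval X'`, surjective).
If `n` kills the module of differentials of `A` over `W`, then for every `j` there is `f ∈ J` whose
gradient, evaluated in `A`, is `n e_j`.
-/
import Mathlib

set_option autoImplicit false
set_option linter.unusedSectionVars false

noncomputable section

namespace Fermat.Agent.S56lib.Lift

open MvPolynomial

variable {W : Type*} [CommRing W] {m : ℕ} {A : Type*} [CommRing A] [Algebra W A]
  (X' : Fin m → A)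

/-- the gradient of a polynomial, evaluated in `A` -/
def gradA (f : MvPolynomial (Fin m) W) : Fin m → A := fun l => aeval X' (pderiv l f)

theorem gradA_mul (f g : MvPolynomial (Fin m) W) :
    gradA X' (f * g) = aeval X' f • gradA X' g + aeval X' g • gradA X' f := by
  funext l
  simp only [gradA, Pi.add_apply, Pi.smul_apply, smul_eq_mul, pderiv_mul, map_add, map_mul]
  ring

/-- the gradient as a linear map -/
def gradL : MvPolynomial (Fin m) W →ₗ[W] (Fin m → A) where
  toFun := gradA X'
  map_add' f g := by
    funext l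
    simp [gradA]
  map_smul' c f := by
    funext l
    simp [gradA]

theorem gradL_apply (f : MvPolynomial (Fin m) W) : gradL X' f = gradA X' f := rfl

variable (W) in
/-- the module generated by the gradients of the relations -/
def gradKer : Submodule A (Fin m → A) :=
  Submodule.span A {v | ∃ f : MvPolynomial (Fin m) W, aeval X' f = 0 ∧ gradA X' f = v}

theorem mem_gradKer_iff
    (hsurj : Function.Surjective (aeval X' : MvPolynomial (Fin m) W →ₐ[W] A))
    (v : Fin m → A) :
    v ∈ gradKer W X' ↔ ∃ f : MvPolynomial (Fin m) W, aeval X' f = 0 ∧ gradA X' f = v := by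
  constructor
  · intro hv
    induction hv using Submodule.span_induction with
    | mem v hv => exact hv
    | zero => exact ⟨0, map_zero _, (gradL (W := W) X').map_zero⟩
    | add v w _ _ hv hw =>
      obtain ⟨f, hf, rfl⟩ := hv
      obtain ⟨g, hg, rfl⟩ := hw
      exact ⟨f + g, by rw [map_add, hf, hg, add_zero], (gradL X').map_add f g⟩
    | smul a v _ hv =>
      obtain ⟨f, hf, rfl⟩ := hv
      obtain ⟨g, rfl⟩ := hsurj a
      refine ⟨g * f, by rw [map_mul, hf, mul_zero], ?_⟩
      rw [gradA_mul, hf, zero_smul, add_zero]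
  · intro h
    exact Submodule.subset_span h

/-- the class of the gradient -/
def gradQ : MvPolynomial (Fin m) W →ₗ[W] ((Fin m → A) ⧸ gradKer W X') :=
  ((gradKer W X').mkQ.restrictScalars W) ∘ₗ gradL X'

theorem gradQ_apply (f : MvPolynomial (Fin m) W) :
    gradQ X' f = Submodule.Quotient.mk (gradA X' f) := rfl

theorem gradQ_eq_zero (f : MvPolynomial (Fin m) W) (hf : aeval X' f = 0) : gradQ X' f = 0 :=
  (Submodule.Quotient.mk_eq_zero _).2 (Submodule.subset_span ⟨f, hf, rfl⟩)

variable (hsurj : Function.Surjective (aeval X' : MvPolynomial (Fin m) W →ₐ[W] A))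

/-- the universal derivation, as a linear map -/
def derivL : A →ₗ[W] ((Fin m → A) ⧸ gradKer W X') :=
  ((LinearMap.ker (aeval X' : MvPolynomial (Fin m) W →ₐ[W] A).toLinearMap).liftQ (gradQ X')
    (fun f hf => gradQ_eq_zero X' f hf)) ∘ₗ
    ((aeval X' : MvPolynomial (Fin m) W →ₐ[W] A).toLinearMap.quotKerEquivOfSurjective
      hsurj).symm.toLinearMap

theorem derivL_apply (f : MvPolynomial (Fin m) W) :
    derivL X' hsurj (aeval X' f) = gradQ X' f := by
  have h1 : ((aeval X' : MvPolynomial (Fin m) W →ₐ[W] A).toLinearMap.quotKerEquivOfSurjective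
      hsurj).symm (aeval X' f) = Submodule.Quotient.mk f := by
    rw [LinearEquiv.symm_apply_eq, LinearMap.quotKerEquivOfSurjective_apply_mk]
    rfl
  rw [derivL, LinearMap.comp_apply]
  change (Submodule.liftQ _ (gradQ X') _) (((aeval X' : MvPolynomial (Fin m) W →ₐ[W]
    A).toLinearMap.quotKerEquivOfSurjective hsurj).symm (aeval X' f)) = _
  rw [h1, Submodule.liftQ_apply]

/-- the universal derivation -/
def derivA : Derivation W A ((Fin m → A) ⧸ gradKer W X') :=
  Derivation.mk' (derivL X' hsurj) (by
    intro a b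
    obtain ⟨f, rfl⟩ := hsurj a
    obtain ⟨g, rfl⟩ := hsurj b
    rw [← map_mul, derivL_apply, derivL_apply, derivL_apply, gradQ_apply, gradQ_apply,
      gradQ_apply, gradA_mul]
    rfl)

theorem derivA_apply (f : MvPolynomial (Fin m) W) :
    derivA X' hsurj (aeval X' f) = gradQ X' f := derivL_apply X' hsurj f

include hsurj in
/-- if `n` kills the differentials, `n e_j` is the gradient of a relation -/
theorem exists_ker_grad (n : ℕ) (hΩ : ∀ w : KaehlerDifferential W A, n • w = 0) (j : Fin m) :
    ∃ f : MvPolynomial (Fin m) W, aeval X' f = 0 ∧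
      ∀ l, aeval X' (pderiv l f) = if l = j then (n : A) else 0 := by
  classical
  have h1 : n • derivA X' hsurj (X' j) = 0 := by
    rw [← (derivA X' hsurj).liftKaehlerDifferential_comp_D, ← map_nsmul, hΩ, map_zero]
  have h2 : derivA X' hsurj (X' j) = gradQ X' (X j) := by
    rw [← derivA_apply, aeval_X]
  rw [h2, gradQ_apply, ← Submodule.Quotient.mk_smul, Submodule.Quotient.mk_eq_zero,
    mem_gradKer_iff X' hsurj] at h1
  obtain ⟨f, hf, hfg⟩ := h1
  refine ⟨f, hf, fun l => ?_⟩
  have h3 := congrFun hfg l
  change aeval X' (pderiv l f) = _ at h3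
  rw [h3, Pi.smul_apply, gradA, pderiv_X, Pi.single_apply]
  split_ifs with h4 h5 h5
  · simp
  · exact absurd h4.symm h5
  · exact absurd h5.symm h4
  · simp

end Fermat.Agent.S56lib.Lift
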