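/-
S56lib / Lift / Points (helper6).
**Fontaine's Theorem A, local form.**  `K` complete, absolutely unramified (uniformizer `p`),
`W → K` onto the unit ball.  For a system `X_i ^ (p^{e_i}) = p h_i(X)` (`h_i ∈ W[X]`,
unit Jacobian at `0`) with finitely many solutions in the open unit polydisc of `Ω`, the field
generated by the coordinates of all solutions has Fontaine's property `Fprop p r` for all
`r` with `r ^ (p-1) < ‖p‖ ^ p`.
-/
import Fermat.Agent.S56lib.Lift.Subfield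

set_option autoImplicit false
set_option linter.unusedSectionVars false

noncomputable section

namespace Fermat.Agent.S56lib.Lift

open MvPolynomial IntermediateField Fermat.Agent.S56lib.Ram

variable {K Ω : Type*} [NormedField K] [NormedField Ω] [NormedAlgebra K Ω] [IsUltrametricDist Ω]
  {W : Type*} [CommRing W] (φ : W →+* K) {m : ℕ}

/-- the equations, as polynomials -/
def FlatSys.Fpoly (S : FlatSys W m) (p : ℕ) (i : Fin m) : MvPolynomial (Fin m) W :=
  X i ^ (p ^ S.e i) - C ((p : ℕ) : W) * S.h i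

theorem FlatSys.ev_Fpoly {E : Type*} [NormedField E] (S : FlatSys W m) (p : ℕ) (ψ : W →+* E)
    (z : Fin m → E) (i : Fin m) : ev ψ (S.Fpoly p i) z = S.F p ψ z i := by
  simp [FlatSys.Fpoly, FlatSys.F, ev]

/-- the polynomial `∑_{j<n} c_j T^j` -/
def cpoly (c : ℕ → W) (n : ℕ) : Polynomial W :=
  ∑ j ∈ Finset.range n, Polynomial.C (c j) * Polynomial.X ^ j

theorem eval₂_cpoly (c : ℕ → W) (n : ℕ) (z : Ω) :
    (cpoly c n).eval₂ (cmap (Ω := Ω) φ) z = ∑ j ∈ Finset.range n, φ (c j) • z ^ j := by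
  rw [cpoly, Polynomial.eval₂_finsetSum]
  apply Finset.sum_congr rfl
  intro j _
  rw [Polynomial.eval₂_mul, Polynomial.eval₂_C, Polynomial.eval₂_X_pow, Algebra.smul_def]
  rfl

/-- **Fontaine's Theorem A (local form)** -/
theorem fprop_points [CompleteSpace K] {p : ℕ} (hp : p.Prime) (hunif : IsUnif ((p : ℕ) : K))
    (hφ : ∀ w, ‖φ w‖ ≤ 1) (hφ' : ∀ x : K, ‖x‖ ≤ 1 → ∃ w, φ w = x) (S : FlatSys W m)
    (hdet : ‖ev (cmap (Ω := Ω) φ) S.detPoly (0 : Fin m → Ω)‖ = 1)
    (Sol : Set (Fin m → Ω))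
    (hSol : ∀ x, x ∈ Sol ↔ (∀ i, ‖x i‖ < 1) ∧ S.IsSol p (cmap (Ω := Ω) φ) x)
    (hfin : Sol.Finite) (r : ℝ) (hr : r ^ (p - 1) < ‖((p : ℕ) : K)‖ ^ p) :
    Fprop ((p : ℕ) : K) r (IntermediateField.adjoin K {a | ∃ x ∈ Sol, ∃ i, a = x i}) := by
  intro L _ _ π hL hML β hint hβ1 hPβ
  set n := Module.finrank K L with hn
  set ψ := cmap (Ω := Ω) φ with hψdef
  have hψ : ∀ w, ‖ψ w‖ ≤ 1 := norm_cmap_le φ hφ
  have hp0 := hunif.pos
  have hp1 := hunif.lt_one
  have hpΩ : ‖((p : ℕ) : Ω)‖ = ‖((p : ℕ) : K)‖ := norm_natCast_Ω (K := K) p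
  have hr0 : 0 ≤ r := (norm_nonneg _).trans hPβ
  have hpp : p = (p - 1) + 1 := (Nat.sub_add_cancel hp.one_le).symm
  have hrp : r < ‖((p : ℕ) : K)‖ := by
    by_contra hcon
    rw [not_lt] at hcon
    have h1 : ‖((p : ℕ) : K)‖ ^ (p - 1) ≤ r ^ (p - 1) := pow_le_pow_left₀ hp0.le hcon _
    have h2 : ‖((p : ℕ) : K)‖ ^ p ≤ ‖((p : ℕ) : K)‖ ^ (p - 1) :=
      pow_le_pow_of_le_one hp0.le hp1.le (Nat.sub_le _ _)
    linarith
  have hβπ : ‖β‖ = ‖(π : Ω)‖ := norm_eq_of_norm_aeval_lt hL (lt_of_le_of_lt hPβ hrp)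
  set E := K⟮β⟯ with hE
  have hfinE : FiniteDimensional K E := IntermediateField.adjoin.finiteDimensional hint
  have hβE : β ∈ E := IntermediateField.mem_adjoin_simple_self K β
  set ρ := r / ‖((p : ℕ) : K)‖ with hρ
  have hρ0 : 0 ≤ ρ := div_nonneg hr0 hp0.le
  have hρ1 : ρ < 1 := (div_lt_one hp0).2 hrp
  have hρp : ρ ^ (p - 1) < ‖((p : ℕ) : K)‖ := by
    rw [hρ, div_pow, div_lt_iff₀ (pow_pos hp0 _), ← pow_succ', ← hpp]
    exact hr
  have hpρ : ‖((p : ℕ) : K)‖ * ρ = r := by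
    rw [hρ]
    field_simp
  -- the points lie in `L`
  have hmemL : ∀ x ∈ Sol, ∀ i, x i ∈ L := fun x hx i =>
    hML (IntermediateField.subset_adjoin K _ ⟨x, hx, i, rfl⟩)
  -- coefficients in `W`
  have hcoef : ∀ x ∈ Sol, ∀ i, ∃ c : ℕ → W,
      x i = ∑ j ∈ Finset.range n, φ (c j) • (π : Ω) ^ j := by
    intro x hx i
    obtain ⟨a, ha1, ha⟩ := hL.exists_coeffs_of_norm_le_one ⟨x i, hmemL x hx i⟩
      (((hSol x).1 hx).1 i).le
    have hex : ∀ j, ∃ w : W, φ w = if j < n then a j else 0 := by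
      intro j
      apply hφ'
      split_ifs with hj
      · exact ha1 j hj
      · simp
    choose c hc using hex
    refine ⟨c, ?_⟩
    change x i = _ at ha
    rw [ha]
    apply Finset.sum_congr rfl
    intro j hj
    rw [hc j, if_pos (Finset.mem_range.1 hj)]
  choose! c hc using hcoef
  -- the approximate solutions
  set y0 : (Fin m → Ω) → Fin m → Ω :=
    fun x i => ∑ j ∈ Finset.range n, φ (c x i j) • β ^ j with hy0
  have hy0E : ∀ x i, y0 x i ∈ E := by
    intro x i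
    apply sum_mem
    intro j _
    exact IntermediateField.smul_mem _ (pow_mem hβE j)
  have hy0norm : ∀ x ∈ Sol, ∀ i, ‖y0 x i‖ = ‖x i‖ := by
    intro x hx i
    rw [hc x hx i]
    exact norm_sum_eq_norm_sum_of_norm_eq hL.unif hL.finrank_pos hL.npow hβπ _
  have hy0F : ∀ x ∈ Sol, ∀ i, ‖S.F p ψ (y0 x) i‖ ≤ r := by
    intro x hx i
    have h1 := eta_le_mv hL φ hφ (S.Fpoly p i) (fun i' => cpoly (c x i') n) ?_ hβ1
    · have h2 : (fun i' => (cpoly (c x i') n).eval₂ (cmap (Ω := Ω) φ) β) = y0 x := by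
        funext i'
        rw [eval₂_cpoly]
      rw [h2] at h1
      have h3 := S.ev_Fpoly p ψ (y0 x) i
      rw [ev] at h3
      rw [← h3]
      exact h1.trans hPβ
    · have h2 : (fun i' => (cpoly (c x i') n).eval₂ (cmap (Ω := Ω) φ) (π : Ω)) = x := by
        funext i'
        rw [eval₂_cpoly, ← hc x hx i']
      rw [h2]
      have h3 := S.ev_Fpoly p ψ x i
      rw [ev] at h3
      rw [h3]
      exact ((hSol x).1 hx).2 i
  -- Newton
  have hnewton : ∀ x ∈ Sol, ∃ z : Fin m → Ω, (∀ i, z i ∈ E) ∧ (∀ i, ‖z i - y0 x i‖ ≤ ρ) ∧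
      S.IsSol p ψ z := by
    intro x hx
    have hxlt : ‖x‖ < 1 := (pi_norm_lt_iff zero_lt_one).2 ((hSol x).1 hx).1
    apply exists_sol_subfield φ hp hunif hφ E S hdet (hy0E x) hxlt
      (fun i => by rw [hy0norm x hx i]; exact norm_le_pi_norm x i) hρ0 hρp
    intro i
    rw [hpρ]
    exact hy0F x hx i
  choose! z hzE hzy hzsol using hnewton
  have hzSol : ∀ x ∈ Sol, z x ∈ Sol := by
    intro x hx
    rw [hSol]
    refine ⟨fun i => ?_, hzsol x hx⟩
    have h1 : z x i = (z x i - y0 x i) + y0 x i := by ring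
    rw [h1]
    apply lt_of_le_of_lt (IsUltrametricDist.norm_add_le_max _ _)
    apply max_lt (lt_of_le_of_lt (hzy x hx i) hρ1)
    rw [hy0norm x hx i]
    exact ((hSol x).1 hx).1 i
  -- injectivity
  have hinj : ∀ x ∈ Sol, ∀ x' ∈ Sol, z x = z x' → x' = x := by
    intro x hx x' hx' hzz
    have hxlt : ‖x‖ < 1 := (pi_norm_lt_iff zero_lt_one).2 ((hSol x).1 hx).1
    apply S.sol_unique p ψ hψ hp (by rw [hpΩ]; exact hp0) (by rw [hpΩ]; exact hp1) hdet hxlt
      (fun i => norm_le_pi_norm x i) hρ0 (by rw [hpΩ]; exact hρp) _ ((hSol x).1 hx).2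
      ((hSol x').1 hx').2
    intro i
    have h1 : x' i - x i = ∑ j ∈ Finset.range n,
        (φ (c x' i j) - φ (c x i j)) • (π : Ω) ^ j := by
      rw [hc x hx i, hc x' hx' i, ← Finset.sum_sub_distrib]
      apply Finset.sum_congr rfl
      intro j _
      rw [sub_smul]
    have h2 : y0 x' i - y0 x i = ∑ j ∈ Finset.range n,
        (φ (c x' i j) - φ (c x i j)) • β ^ j := by
      rw [hy0]
      simp only
      rw [← Finset.sum_sub_distrib]
      apply Finset.sum_congr rfl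
      intro j _
      rw [sub_smul]
    rw [h1, ← norm_sum_eq_norm_sum_of_norm_eq hL.unif hL.finrank_pos hL.npow hβπ, ← h2]
    have h3 : y0 x' i - y0 x i = (z x i - y0 x i) + -(z x' i - y0 x' i) := by
      rw [hzz]
      ring
    rw [h3]
    apply (IsUltrametricDist.norm_add_le_max _ _).trans
    rw [norm_neg]
    exact max_le (hzy x hx i) (hzy x' hx' i)
  -- counting
  have hfinS : Finite Sol := hfin.to_subtype
  let Θ : Sol → Sol := fun x => ⟨z x.1, hzSol x.1 x.2⟩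
  have hΘinj : Function.Injective Θ := by
    intro x x' hxx'
    have h1 : z x.1 = z x'.1 := congrArg Subtype.val hxx'
    exact Subtype.ext (hinj x.1 x.2 x'.1 x'.2 h1).symm
  have hΘsurj : Function.Surjective Θ := Finite.injective_iff_surjective.1 hΘinj
  rw [IntermediateField.adjoin_le_iff]
  rintro a ⟨x, hx, i, rfl⟩
  obtain ⟨x', hx'⟩ := hΘsurj ⟨x, hx⟩
  have h1 : z x'.1 = x := congrArg Subtype.val hx'
  rw [← h1]
  exact hzE x'.1 x'.2 i

end Fermat.Agent.S56lib.Lift
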