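/-
S56lib / Lift / PresAlg (helper6).
Pure algebra for the bridge from a presentation by reduced monomials to the system of equations.
`A` a `W`-algebra with elements `X_i` such that the reduced monomials (`γ_i < q_i`) form a
`W`-basis and `X_i ^ q_i = ϖ h_i(X)`.  Then the kernel of `W[X] → A` is contained in
`(X_i^{q_i} - ϖ h_i) + ϖ^k W[X]` for every `k`.
-/
import Mathlib

set_option autoImplicit false
set_option linter.unusedSectionVars false

noncomputable section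

namespace Fermat.Agent.S56lib.Lift

open MvPolynomial

variable {W : Type*} [CommRing W] {m : ℕ}

/-- reduced exponent vectors -/
def redS (q : Fin m → ℕ) : Set (Fin m →₀ ℕ) := {γ | ∀ i, γ i < q i}

/-- the equations `X_i ^ q_i - ϖ h_i` -/
def eqPoly (q : Fin m → ℕ) (ϖ : W) (h : Fin m → MvPolynomial (Fin m) W) (i : Fin m) :
    MvPolynomial (Fin m) W := X i ^ q i - C ϖ * h i

/-- the ideal of the equations -/
def eqIdeal (q : Fin m → ℕ) (ϖ : W) (h : Fin m → MvPolynomial (Fin m) W) :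
    Ideal (MvPolynomial (Fin m) W) := Ideal.span (Set.range (eqPoly q ϖ h))

theorem eqPoly_mem (q : Fin m → ℕ) (ϖ : W) (h : Fin m → MvPolynomial (Fin m) W) (i : Fin m) :
    eqPoly q ϖ h i ∈ eqIdeal q ϖ h := Ideal.subset_span ⟨i, rfl⟩

theorem monomial_decomp (q : Fin m → ℕ) (ϖ : W) (h : Fin m → MvPolynomial (Fin m) W)
    (u : Fin m →₀ ℕ) (c : W) :
    ∃ ρ ∈ restrictSupport W (redS q), ∃ ι ∈ eqIdeal q ϖ h, ∃ t' : MvPolynomial (Fin m) W,
      monomial u c = ρ + ι + C ϖ * t' := by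
  classical
  by_cases hu : ∀ i, u i < q i
  · refine ⟨monomial u c, ?_, 0, zero_mem _, 0, by simp⟩
    rw [mem_restrictSupport_iff]
    intro γ hγ
    have h1 := support_monomial_subset (Finset.mem_coe.1 hγ)
    rw [Finset.mem_singleton] at h1
    rw [h1]
    exact hu
  · push Not at hu
    obtain ⟨i, hi⟩ := hu
    have hle : Finsupp.single i (q i) ≤ u := by
      intro j
      by_cases hj : j = i
      · subst hj
        simpa using hi
      · rw [Finsupp.single_apply, if_neg (Ne.symm hj)]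
        exact Nat.zero_le _
    have h1 : monomial u c = monomial (u - Finsupp.single i (q i)) c * X i ^ q i := by
      rw [X_pow_eq_monomial, monomial_mul, mul_one, tsub_add_cancel_of_le hle]
    refine ⟨0, zero_mem _, monomial (u - Finsupp.single i (q i)) c * eqPoly q ϖ h i,
      Ideal.mul_mem_left _ _ (eqPoly_mem q ϖ h i),
      monomial (u - Finsupp.single i (q i)) c * h i, ?_⟩
    rw [h1, eqPoly]
    ring

theorem decomp_one (q : Fin m → ℕ) (ϖ : W) (h : Fin m → MvPolynomial (Fin m) W)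
    (t : MvPolynomial (Fin m) W) :
    ∃ ρ ∈ restrictSupport W (redS q), ∃ ι ∈ eqIdeal q ϖ h, ∃ t' : MvPolynomial (Fin m) W,
      t = ρ + ι + C ϖ * t' := by
  induction t using MvPolynomial.induction_on' with
  | monomial u c => exact monomial_decomp q ϖ h u c
  | add f g hf hg =>
    obtain ⟨ρ₁, hρ₁, ι₁, hι₁, t₁, h₁⟩ := hf
    obtain ⟨ρ₂, hρ₂, ι₂, hι₂, t₂, h₂⟩ := hg
    refine ⟨ρ₁ + ρ₂, add_mem hρ₁ hρ₂, ι₁ + ι₂, add_mem hι₁ hι₂, t₁ + t₂, ?_⟩
    rw [h₁, h₂]
    ring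

theorem decomp_pow (q : Fin m → ℕ) (ϖ : W) (h : Fin m → MvPolynomial (Fin m) W) (k : ℕ)
    (t : MvPolynomial (Fin m) W) :
    ∃ ρ ∈ restrictSupport W (redS q), ∃ ι ∈ eqIdeal q ϖ h, ∃ t' : MvPolynomial (Fin m) W,
      t = ρ + ι + C ϖ ^ k * t' := by
  induction k with
  | zero => exact ⟨0, zero_mem _, 0, zero_mem _, t, by simp⟩
  | succ k ih =>
    obtain ⟨ρ₁, hρ₁, ι₁, hι₁, t₁, h₁⟩ := ih
    obtain ⟨ρ₂, hρ₂, ι₂, hι₂, t₂, h₂⟩ := decomp_one q ϖ h t₁
    refine ⟨ρ₁ + ϖ ^ k • ρ₂, add_mem hρ₁ (Submodule.smul_mem _ _ hρ₂),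
      ι₁ + C ϖ ^ k * ι₂, add_mem hι₁ (Ideal.mul_mem_left _ _ hι₂), t₂, ?_⟩
    rw [h₁, h₂, smul_eq_C_mul, map_pow]
    ring

variable {A : Type*} [CommRing A] [Algebra W A]

/-- the kernel of the presentation is contained in `(equations) + ϖ^k` -/
theorem ker_le (q : Fin m → ℕ) (ϖ : W) (h : Fin m → MvPolynomial (Fin m) W) (X' : Fin m → A)
    (hX : ∀ i, X' i ^ q i = ϖ • aeval X' (h i))
    (hbij : Function.Bijective (fun P : restrictSupport W (redS q) =>
      aeval X' (P : MvPolynomial (Fin m) W)))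
    (f : MvPolynomial (Fin m) W) (hf : aeval X' f = 0) (k : ℕ) :
    ∃ ι ∈ eqIdeal q ϖ h, ∃ t' : MvPolynomial (Fin m) W, f = ι + C ϖ ^ k * t' := by
  have hI : ∀ ι ∈ eqIdeal q ϖ h, aeval X' ι = 0 := by
    intro ι hι
    have h1 : eqIdeal q ϖ h ≤ RingHom.ker (aeval X' : MvPolynomial (Fin m) W →ₐ[W] A) := by
      rw [eqIdeal, Ideal.span_le]
      rintro _ ⟨i, rfl⟩
      rw [SetLike.mem_coe, RingHom.mem_ker, eqPoly, map_sub, map_pow, aeval_X, map_mul,
        aeval_C, hX i, Algebra.smul_def, sub_self]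
    exact h1 hι
  obtain ⟨ρ, hρ, ι, hι, t', ht⟩ := decomp_pow q ϖ h k f
  obtain ⟨ρ', hρ'⟩ := hbij.2 (aeval X' t')
  replace hρ' : aeval X' (ρ' : MvPolynomial (Fin m) W) = aeval X' t' := hρ'
  have h2 : aeval X' (ρ + ϖ ^ k • (ρ' : MvPolynomial (Fin m) W)) = 0 := by
    have h3 := hf
    rw [ht, map_add, map_add, hI ι hι, add_zero, map_mul, map_pow, aeval_C] at h3
    rw [map_add, map_smul, hρ', Algebra.smul_def, map_pow]
    exact h3
  have h4 : (⟨ρ, hρ⟩ + ϖ ^ k • ρ' : restrictSupport W (redS q)) = 0 := by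
    apply hbij.1
    change aeval X' (ρ + ϖ ^ k • (ρ' : MvPolynomial (Fin m) W)) = aeval X' (0 : MvPolynomial (Fin m) W)
    rw [h2, map_zero]
  have h5 : ρ + ϖ ^ k • (ρ' : MvPolynomial (Fin m) W) = 0 := congrArg Subtype.val h4
  refine ⟨ι, hι, t' - ρ', ?_⟩
  rw [ht]
  have h6 : ρ = -(ϖ ^ k • (ρ' : MvPolynomial (Fin m) W)) := eq_neg_of_add_eq_zero_left h5
  rw [h6, smul_eq_C_mul, map_pow]
  ring

end Fermat.Agent.S56lib.Lift
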