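/-
S56lib / Lift / Pres (helper6).
Bridge from a presentation by reduced monomials to the system of equations of `Points`.
`A` a `W`-algebra, `X_i ∈ A` such that the reduced monomials (`γ_i < p^{e_i}`) are a `W`-basis and
`X_i ^ (p^{e_i}) ∈ p A`.  Then `x ↦ (x (X_i))_i` is a bijection from `A →ₐ[W] Ω` onto the set of
solutions of `z_i ^ (p^{e_i}) = p h_i(z)` in the open unit polydisc; this set is finite, and the
field generated by all values `x a` is the field generated by the coordinates of the solutions.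
-/
import Fermat.Agent.S56lib.Lift.Points
import Fermat.Agent.S56lib.Lift.PresAlg

set_option autoImplicit false
set_option linter.unusedSectionVars false

noncomputable section

namespace Fermat.Agent.S56lib.Lift

open MvPolynomial IntermediateField Fermat.Agent.S56lib.Ram

section integral

variable {Ω : Type*} [NormedField Ω] [IsUltrametricDist Ω] {W : Type*} [CommRing W]

/-- a root of a monic polynomial with integral coefficients is integral -/
theorem norm_le_one_of_eval₂_monic (ψ : W →+* Ω) (hψ : ∀ w, ‖ψ w‖ ≤ 1) (P : Polynomial W)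
    (hP : P.Monic) (z : Ω) (hz : P.eval₂ ψ z = 0) : ‖z‖ ≤ 1 := by
  by_contra hcon
  rw [not_le] at hcon
  have h1 := hP.as_sum
  rw [h1, Polynomial.eval₂_add, Polynomial.eval₂_pow, Polynomial.eval₂_X,
    Polynomial.eval₂_finsetSum] at hz
  have h2 : z ^ P.natDegree = -∑ i ∈ Finset.range P.natDegree,
      Polynomial.eval₂ ψ z (Polynomial.C (P.coeff i) * Polynomial.X ^ i) :=
    eq_neg_of_add_eq_zero_left hz
  rcases Nat.eq_zero_or_pos P.natDegree with h0 | h0
  · rw [h0] at h2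
    simp at h2
  · have h3 : ‖∑ i ∈ Finset.range P.natDegree,
        Polynomial.eval₂ ψ z (Polynomial.C (P.coeff i) * Polynomial.X ^ i)‖ ≤
        ‖z‖ ^ (P.natDegree - 1) := by
      apply IsUltrametricDist.norm_sum_le_of_forall_le_of_nonneg (pow_nonneg (norm_nonneg _) _)
      intro i hi
      rw [Polynomial.eval₂_mul, Polynomial.eval₂_C, Polynomial.eval₂_pow, Polynomial.eval₂_X,
        norm_mul, norm_pow]
      have hi' : i ≤ P.natDegree - 1 := Nat.le_sub_one_of_lt (Finset.mem_range.1 hi)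
      calc ‖ψ (P.coeff i)‖ * ‖z‖ ^ i ≤ 1 * ‖z‖ ^ (P.natDegree - 1) :=
            mul_le_mul (hψ _) (pow_le_pow_right₀ hcon.le hi') (pow_nonneg (norm_nonneg _) _)
              zero_le_one
        _ = ‖z‖ ^ (P.natDegree - 1) := one_mul _
    have h4 : ‖z‖ ^ P.natDegree ≤ ‖z‖ ^ (P.natDegree - 1) := by
      rw [← norm_pow, h2, norm_neg]
      exact h3
    have h5 : ‖z‖ ^ P.natDegree = ‖z‖ ^ (P.natDegree - 1) * ‖z‖ := by
      rw [← pow_succ, Nat.sub_add_cancel h0]
    have h6 : 0 < ‖z‖ ^ (P.natDegree - 1) := pow_pos (lt_trans zero_lt_one hcon) _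
    nlinarith

theorem norm_le_one_of_isIntegral [Algebra W Ω] (hψ : ∀ w : W, ‖algebraMap W Ω w‖ ≤ 1) (z : Ω)
    (hz : IsIntegral W z) : ‖z‖ ≤ 1 := by
  obtain ⟨P, hP, hPz⟩ := hz
  exact norm_le_one_of_eval₂_monic (algebraMap W Ω) hψ P hP z hPz

end integral

section pres

variable {K Ω : Type*} [NormedField K] [NormedField Ω] [NormedAlgebra K Ω] [IsUltrametricDist Ω]
  {W : Type*} [CommRing W] [Algebra W K] [Algebra W Ω] [IsScalarTower W K Ω] {m : ℕ}
  {A : Type*} [CommRing A] [Algebra W A]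

theorem cmap_algebraMap : cmap (Ω := Ω) (algebraMap W K) = algebraMap W Ω :=
  (IsScalarTower.algebraMap_eq W K Ω).symm

theorem finite_redS (q : Fin m → ℕ) : (redS q).Finite := by
  apply (Set.finite_Iic (Finsupp.equivFunOnFinite.symm q)).subset
  intro γ hγ
  rw [Set.mem_Iic]
  intro i
  simpa using (hγ i).le

theorem moduleFinite_of_bij (q : Fin m → ℕ) (X' : Fin m → A)
    (hbij : Function.Bijective (fun P : restrictSupport W (redS q) =>
      aeval X' (P : MvPolynomial (Fin m) W))) : Module.Finite W A := by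
  have : Finite (redS q) := (finite_redS q).to_subtype
  have : Module.Finite W (restrictSupport W (redS q)) :=
    Module.Finite.of_basis (basisRestrictSupport W (redS q))
  exact Module.Finite.of_surjective
    ((aeval X').toLinearMap ∘ₗ (restrictSupport W (redS q)).subtype) hbij.2

/-- data of a presentation: the polynomials `h_i` -/
theorem exists_h {p : ℕ} (e : Fin m → ℕ) (X' : Fin m → A)
    (hXp : ∀ i, X' i ^ p ^ e i ∈ Ideal.span {((p : ℕ) : A)})
    (hbij : Function.Bijective (fun P : restrictSupport W (redS (fun i => p ^ e i)) =>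
      aeval X' (P : MvPolynomial (Fin m) W))) :
    ∃ h : Fin m → MvPolynomial (Fin m) W,
      ∀ i, X' i ^ p ^ e i = ((p : ℕ) : W) • aeval X' (h i) := by
  have h1 : ∀ i, ∃ hi : MvPolynomial (Fin m) W,
      X' i ^ p ^ e i = ((p : ℕ) : W) • aeval X' hi := by
    intro i
    obtain ⟨a, ha⟩ := Ideal.mem_span_singleton'.1 (hXp i)
    obtain ⟨P, hP⟩ := hbij.2 a
    refine ⟨P, ?_⟩
    change aeval X' (P : MvPolynomial (Fin m) W) = a at hP
    rw [hP, ← ha, Algebra.smul_def, map_natCast, mul_comm]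
  choose h hh using h1
  exact ⟨h, hh⟩

variable {p : ℕ} (S : FlatSys W m) (X' : Fin m → A)

theorem fpoly_eq_eqPoly (i : Fin m) :
    S.Fpoly p i = eqPoly (fun i => p ^ S.e i) ((p : ℕ) : W) S.h i := rfl

/-- a point of `A` gives a solution in the open polydisc -/
theorem isSol_of_algHom (hpΩ : ‖((p : ℕ) : Ω)‖ < 1)
    (hψ : ∀ w : W, ‖algebraMap W Ω w‖ ≤ 1) [Module.Finite W A]
    (hX : ∀ i, X' i ^ p ^ S.e i = ((p : ℕ) : W) • aeval X' (S.h i)) (x : A →ₐ[W] Ω) :
    (∀ i, ‖x (X' i)‖ < 1) ∧ S.IsSol p (algebraMap W Ω) (fun i => x (X' i)) := by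
  have hint : ∀ a : A, ‖x a‖ ≤ 1 := fun a =>
    norm_le_one_of_isIntegral hψ _ ((IsIntegral.of_finite W a).map x)
  have hsol : S.IsSol p (algebraMap W Ω) (fun i => x (X' i)) := by
    intro i
    rw [FlatSys.F, ev, ← aeval_def]
    have h1 := congrArg x (hX i)
    rw [map_pow, map_smul, Algebra.smul_def, map_natCast] at h1
    have h2 : x (aeval X' (S.h i)) = aeval (fun j => x (X' j)) (S.h i) := by
      rw [← AlgHom.comp_apply, comp_aeval]
    rw [h2] at h1
    rw [h1, sub_self]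
  refine ⟨fun i => ?_, hsol⟩
  have h1 := hsol i
  rw [FlatSys.F, sub_eq_zero] at h1
  have h2 : ‖x (X' i)‖ ^ (p ^ S.e i) < 1 := by
    rw [← norm_pow, h1, norm_mul]
    have h3 : ‖ev (algebraMap W Ω) (S.h i) (fun j => x (X' j))‖ ≤ 1 :=
      norm_ev_le_one _ hψ _ (fun j => hint _)
    calc ‖((p : ℕ) : Ω)‖ * ‖ev (algebraMap W Ω) (S.h i) (fun j => x (X' j))‖
        ≤ ‖((p : ℕ) : Ω)‖ * 1 := mul_le_mul_of_nonneg_left h3 (norm_nonneg _)
      _ < 1 := by rw [mul_one]; exact hpΩ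
  by_contra hcon
  rw [not_lt] at hcon
  exact absurd h2 (not_lt.2 (one_le_pow₀ hcon))

/-- a solution in the closed polydisc gives a point of `A` -/
theorem exists_algHom_of_isSol (hpΩ : ‖((p : ℕ) : Ω)‖ < 1)
    (hψ : ∀ w : W, ‖algebraMap W Ω w‖ ≤ 1)
    (hX : ∀ i, X' i ^ p ^ S.e i = ((p : ℕ) : W) • aeval X' (S.h i))
    (hbij : Function.Bijective (fun P : restrictSupport W (redS (fun i => p ^ S.e i)) =>
      aeval X' (P : MvPolynomial (Fin m) W)))
    (z : Fin m → Ω) (hz : ∀ i, ‖z i‖ ≤ 1) (hsol : S.IsSol p (algebraMap W Ω) z) :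
    ∃ x : A →ₐ[W] Ω, ∀ i, x (X' i) = z i := by
  have hsurj : Function.Surjective (aeval X' : MvPolynomial (Fin m) W →ₐ[W] A) := by
    intro a
    obtain ⟨P, hP⟩ := hbij.2 a
    exact ⟨P, hP⟩
  have hI : ∀ ι ∈ eqIdeal (fun i => p ^ S.e i) ((p : ℕ) : W) S.h, aeval z ι = 0 := by
    intro ι hι
    have h1 : eqIdeal (fun i => p ^ S.e i) ((p : ℕ) : W) S.h ≤
        RingHom.ker (aeval z : MvPolynomial (Fin m) W →ₐ[W] Ω) := by
      rw [eqIdeal, Ideal.span_le]
      rintro _ ⟨i, rfl⟩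
      rw [SetLike.mem_coe, RingHom.mem_ker, ← fpoly_eq_eqPoly, aeval_def]
      have := S.ev_Fpoly p (algebraMap W Ω) z i
      rw [ev] at this
      rw [this]
      exact hsol i
    exact h1 hι
  have hker : RingHom.ker (aeval X' : MvPolynomial (Fin m) W →ₐ[W] A).toRingHom ≤
      RingHom.ker (aeval z : MvPolynomial (Fin m) W →ₐ[W] Ω).toRingHom := by
    intro f hf
    rw [RingHom.mem_ker] at hf ⊢
    change aeval X' f = 0 at hf
    change aeval z f = 0
    have hbound : ∀ k : ℕ, ‖aeval z f‖ ≤ ‖((p : ℕ) : Ω)‖ ^ k := by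
      intro k
      obtain ⟨ι, hι, t', ht⟩ := ker_le (fun i => p ^ S.e i) ((p : ℕ) : W) S.h X' hX hbij f hf k
      rw [ht, map_add, hI ι hι, zero_add, map_mul, map_pow, aeval_C, map_natCast, norm_mul,
        norm_pow]
      have h3 : ‖aeval z t'‖ ≤ 1 := by
        rw [aeval_def]
        exact norm_ev_le_one _ hψ t' hz
      calc ‖((p : ℕ) : Ω)‖ ^ k * ‖aeval z t'‖ ≤ ‖((p : ℕ) : Ω)‖ ^ k * 1 :=
            mul_le_mul_of_nonneg_left h3 (pow_nonneg (norm_nonneg _) _)
        _ = ‖((p : ℕ) : Ω)‖ ^ k := mul_one _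
    have hlim : Filter.Tendsto (fun k : ℕ => ‖((p : ℕ) : Ω)‖ ^ k) Filter.atTop (nhds 0) :=
      tendsto_pow_atTop_nhds_zero_of_lt_one (norm_nonneg _) hpΩ
    have h0 : ‖aeval z f‖ ≤ 0 := ge_of_tendsto' hlim hbound
    exact norm_le_zero_iff.1 h0
  refine ⟨AlgHom.liftOfSurjective _ hsurj (aeval z) hker, fun i => ?_⟩
  have h1 := AlgHom.liftOfSurjective_apply (aeval X' : MvPolynomial (Fin m) W →ₐ[W] A) hsurj
    (aeval z) hker (X i)
  rw [aeval_X, aeval_X] at h1
  exact h1

/-- the set of solutions in the open polydisc is finite -/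
theorem finite_sol [Module.Finite W A] (hpΩ : ‖((p : ℕ) : Ω)‖ < 1)
    (hψ : ∀ w : W, ‖algebraMap W Ω w‖ ≤ 1)
    (hX : ∀ i, X' i ^ p ^ S.e i = ((p : ℕ) : W) • aeval X' (S.h i))
    (hbij : Function.Bijective (fun P : restrictSupport W (redS (fun i => p ^ S.e i)) =>
      aeval X' (P : MvPolynomial (Fin m) W))) :
    {z : Fin m → Ω | (∀ i, ‖z i‖ < 1) ∧ S.IsSol p (algebraMap W Ω) z}.Finite := by
  have hint : ∀ i, IsIntegral W (X' i) := fun i => IsIntegral.of_finite W _
  choose P hP hPX using hint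
  have hne : ∀ i, (P i).map (algebraMap W Ω) ≠ 0 := fun i =>
    ((hP i).map (algebraMap W Ω)).ne_zero
  have hfin : ∀ i, {a : Ω | ((P i).map (algebraMap W Ω)).IsRoot a}.Finite := fun i =>
    Polynomial.finite_setOfPred_isRoot (hne i)
  apply (Set.Finite.pi' hfin).subset
  rintro z ⟨hz1, hz2⟩ i
  obtain ⟨x, hx⟩ := exists_algHom_of_isSol S X' hpΩ hψ hX hbij z (fun i => (hz1 i).le) hz2
  rw [Set.mem_ofPred_eq, Polynomial.IsRoot, Polynomial.eval_map, ← hx i]
  have h1 := congrArg x (hPX i)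
  rw [map_zero, ← Polynomial.aeval_def, ← Polynomial.aeval_algHom_apply] at h1
  rw [← Polynomial.aeval_def]
  exact h1

/-- the values of the points generate the same field as the coordinates of the solutions -/
theorem adjoin_values_eq [Module.Finite W A] (hpΩ : ‖((p : ℕ) : Ω)‖ < 1)
    (hψ : ∀ w : W, ‖algebraMap W Ω w‖ ≤ 1)
    (hX : ∀ i, X' i ^ p ^ S.e i = ((p : ℕ) : W) • aeval X' (S.h i))
    (hbij : Function.Bijective (fun P : restrictSupport W (redS (fun i => p ^ S.e i)) =>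
      aeval X' (P : MvPolynomial (Fin m) W))) :
    IntermediateField.adjoin K {a' : Ω | ∃ (x : A →ₐ[W] Ω) (a : A), a' = x a} =
      IntermediateField.adjoin K {a' : Ω | ∃ z ∈ {z : Fin m → Ω | (∀ i, ‖z i‖ < 1) ∧
        S.IsSol p (algebraMap W Ω) z}, ∃ i, a' = z i} := by
  apply le_antisymm
  · rw [IntermediateField.adjoin_le_iff]
    rintro _ ⟨x, a, rfl⟩
    obtain ⟨P, hP⟩ := hbij.2 a
    change aeval X' (P : MvPolynomial (Fin m) W) = a at hP
    have h1 : x a = aeval (fun i => x (X' i)) (P : MvPolynomial (Fin m) W) := by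
      rw [← hP, ← AlgHom.comp_apply, comp_aeval]
    set E := IntermediateField.adjoin K {a' : Ω | ∃ z ∈ {z : Fin m → Ω | (∀ i, ‖z i‖ < 1) ∧
        S.IsSol p (algebraMap W Ω) z}, ∃ i, a' = z i} with hE
    have h2 : Algebra.adjoin W (Set.range fun i => x (X' i)) ≤
        E.toSubalgebra.restrictScalars W := by
      apply Algebra.adjoin_le
      rintro _ ⟨i, rfl⟩
      apply IntermediateField.subset_adjoin
      exact ⟨fun i => x (X' i), isSol_of_algHom S X' hpΩ hψ hX x, i, rfl⟩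
    have h3 : x a ∈ Algebra.adjoin W (Set.range fun i => x (X' i)) := by
      rw [Algebra.adjoin_range_eq_range_aeval, h1]
      exact ⟨_, rfl⟩
    exact h2 h3
  · rw [IntermediateField.adjoin_le_iff]
    rintro _ ⟨z, ⟨hz1, hz2⟩, i, rfl⟩
    obtain ⟨x, hx⟩ := exists_algHom_of_isSol S X' hpΩ hψ hX hbij z (fun i => (hz1 i).le) hz2
    apply IntermediateField.subset_adjoin
    exact ⟨x, X' i, (hx i).symm⟩

/-- **Fontaine's Theorem A for a presented algebra**, with the Jacobian condition as a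
hypothesis -/
theorem fprop_of_pres_of_det [CompleteSpace K] (hp : p.Prime) (hunif : IsUnif ((p : ℕ) : K))
    (hφ : ∀ w : W, ‖algebraMap W K w‖ ≤ 1)
    (hφ' : ∀ x : K, ‖x‖ ≤ 1 → ∃ w : W, algebraMap W K w = x)
    (hX : ∀ i, X' i ^ p ^ S.e i = ((p : ℕ) : W) • aeval X' (S.h i))
    (hbij : Function.Bijective (fun P : restrictSupport W (redS (fun i => p ^ S.e i)) =>
      aeval X' (P : MvPolynomial (Fin m) W)))
    (hdet : ‖ev (algebraMap W Ω) S.detPoly (0 : Fin m → Ω)‖ = 1)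
    (r : ℝ) (hr : r ^ (p - 1) < ‖((p : ℕ) : K)‖ ^ p) :
    Fprop ((p : ℕ) : K) r
      (IntermediateField.adjoin K {a' : Ω | ∃ (x : A →ₐ[W] Ω) (a : A), a' = x a}) := by
  have hfinA : Module.Finite W A := moduleFinite_of_bij _ X' hbij
  have hpΩ : ‖((p : ℕ) : Ω)‖ < 1 := by
    rw [norm_natCast_Ω (K := K)]
    exact hunif.lt_one
  have hψ : ∀ w : W, ‖algebraMap W Ω w‖ ≤ 1 := by
    intro w
    rw [← cmap_algebraMap (K := K)]
    exact norm_cmap_le _ hφ w
  rw [adjoin_values_eq S X' hpΩ hψ hX hbij]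
  have hcm := cmap_algebraMap (K := K) (Ω := Ω) (W := W)
  apply fprop_points (algebraMap W K) hp hunif hφ hφ' S (by rw [hcm]; exact hdet) _
    (fun x => by rw [hcm]; exact Iff.rfl) _ r hr
  exact finite_sol S X' hpΩ hψ hX hbij

end pres

end Fermat.Agent.S56lib.Lift
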