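/-
S56lib / Lift / Jac (helper6).
The Jacobian condition from Kaehler differentials: in the situation of `Pres`, if `p` kills the
module of differentials of `A` over `W` and `A` has a point with values in `Ω`, then
`det (∂h_i/∂X_j)(0)` is a unit.  Consequently **Fontaine's Theorem A** for `A`
(`fprop_of_pres`).
-/
import Fermat.Agent.S56lib.Lift.Pres
import Fermat.Agent.S56lib.Lift.JacAlg

set_option autoImplicit false
set_option linter.unusedSectionVars false

noncomputable section

namespace Fermat.Agent.S56lib.Lift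

open MvPolynomial IntermediateField Fermat.Agent.S56lib.Ram

section matrix

variable {E : Type*} [NormedField E] [IsUltrametricDist E] {m : ℕ}

theorem norm_sub_le_max_norm (a b : E) : ‖a - b‖ ≤ max ‖a‖ ‖b‖ := by
  rw [sub_eq_add_neg]
  have h := IsUltrametricDist.norm_add_le_max a (-b)
  rwa [norm_neg] at h

/-- an integral matrix which does not decrease norms has unit determinant -/
theorem norm_det_eq_one_of_expanding (M : Matrix (Fin m) (Fin m) E) (hM : ∀ i j, ‖M i j‖ ≤ 1)
    (hexp : ∀ (v : Fin m → E) (r : ℝ), 0 ≤ r → (∀ i, ‖(M.mulVec v) i‖ ≤ r) → ∀ i, ‖v i‖ ≤ r) :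
    ‖M.det‖ = 1 := by
  have hinj : Function.Injective M.mulVec := by
    intro v v' hvv'
    have h1 : M.mulVec (v - v') = 0 := by rw [Matrix.mulVec_sub, hvv', sub_self]
    have h2 := hexp (v - v') 0 le_rfl (fun i => by rw [h1]; simp)
    funext i
    have h3 := h2 i
    rw [norm_le_zero_iff, Pi.sub_apply, sub_eq_zero] at h3
    exact h3
  have hunit : IsUnit M.det :=
    (Matrix.isUnit_iff_isUnit_det M).1 (Matrix.mulVec_injective_iff_isUnit.1 hinj)
  have hinv : ∀ i j, ‖M⁻¹ i j‖ ≤ 1 := by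
    intro i j
    have h1 : M.mulVec (M⁻¹.mulVec (Pi.single j 1)) = Pi.single j 1 := by
      rw [Matrix.mulVec_mulVec, Matrix.mul_nonsing_inv M hunit, Matrix.one_mulVec]
    have h2 := hexp (M⁻¹.mulVec (Pi.single j 1)) 1 zero_le_one (fun i => by
      rw [h1, Pi.single_apply]
      split_ifs <;> simp) i
    rw [Matrix.mulVec_single_one] at h2
    exact h2
  have h1 : M.det * M⁻¹.det = 1 := by
    rw [← Matrix.det_mul, Matrix.mul_nonsing_inv M hunit, Matrix.det_one]
  have h2 : ‖M.det‖ * ‖M⁻¹.det‖ = 1 := by rw [← norm_mul, h1, norm_one]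
  have h3 := norm_det_le_one M hM
  have h4 := norm_det_le_one M⁻¹ hinv
  apply le_antisymm h3
  nlinarith [norm_nonneg M.det, norm_nonneg M⁻¹.det]

end matrix

section jac

variable {Ω : Type*} [NormedField Ω] [IsUltrametricDist Ω]
  {W : Type*} [CommRing W] [Algebra W Ω] {m : ℕ}
  {A : Type*} [CommRing A] [Algebra W A] {p : ℕ} (S : FlatSys W m) (X' : Fin m → A)

/-- **the Jacobian condition** from `p Ω_{A/W} = 0` and a point of `A` -/
theorem norm_detPoly_zero_of_kaehler (hp : p.Prime) (hp0 : 0 < ‖((p : ℕ) : Ω)‖)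
    (hpΩ : ‖((p : ℕ) : Ω)‖ < 1) (hψ : ∀ w : W, ‖algebraMap W Ω w‖ ≤ 1)
    (hX : ∀ i, X' i ^ p ^ S.e i = ((p : ℕ) : W) • aeval X' (S.h i))
    (hbij : Function.Bijective (fun P : restrictSupport W (redS (fun i => p ^ S.e i)) =>
      aeval X' (P : MvPolynomial (Fin m) W)))
    (hΩ : ∀ w : KaehlerDifferential W A, p • w = 0) (x : A →ₐ[W] Ω) :
    ‖ev (algebraMap W Ω) S.detPoly (0 : Fin m → Ω)‖ = 1 := by
  classical
  have hfinA : Module.Finite W A := moduleFinite_of_bij _ X' hbij
  set ψ := algebraMap W Ω with hψdef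
  set z : Fin m → Ω := fun i => x (X' i) with hzdef
  obtain ⟨hz1, hsol⟩ := isSol_of_algHom S X' hpΩ hψ hX x
  have hpne : ((p : ℕ) : Ω) ≠ 0 := norm_pos_iff.1 hp0
  have hsurj : Function.Surjective (aeval X' : MvPolynomial (Fin m) W →ₐ[W] A) := by
    intro a
    obtain ⟨P, hP⟩ := hbij.2 a
    exact ⟨P, hP⟩
  have hxz : ∀ f : MvPolynomial (Fin m) W, x (aeval X' f) = aeval z f := by
    intro f
    rw [← AlgHom.comp_apply, comp_aeval]
  have hzle : ∀ i, ‖z i‖ ≤ 1 := fun i => (hz1 i).le
  have hint : ∀ f : MvPolynomial (Fin m) W, ‖aeval z f‖ ≤ 1 := by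
    intro f
    rw [aeval_def]
    exact norm_ev_le_one ψ hψ f hzle
  -- the equations vanish at `z`
  have hE : ∀ i, aeval z (eqPoly (fun i => p ^ S.e i) ((p : ℕ) : W) S.h i) = 0 := by
    intro i
    rw [← fpoly_eq_eqPoly, aeval_def]
    have := S.ev_Fpoly p ψ z i
    rw [ev] at this
    rw [this]
    exact hsol i
  -- derivative of the equations at `z`
  have hdE : ∀ i l, aeval z (pderiv l (eqPoly (fun i => p ^ S.e i) ((p : ℕ) : W) S.h i)) =
      ((p : ℕ) : Ω) * ((if i = l then ((p : ℕ) : Ω) ^ (S.e i - 1) * z i ^ (p ^ S.e i - 1) else 0)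
        - S.jac ψ z i l) := by
    intro i l
    have hq : p ^ S.e i = p * p ^ (S.e i - 1) := by
      rw [← pow_succ', Nat.sub_add_cancel (S.he i)]
    rw [eqPoly, map_sub, pderiv_pow, pderiv_X, pderiv_C_mul, map_sub, map_mul, map_mul, map_mul,
      map_pow, aeval_X, aeval_C, map_natCast, map_natCast, Pi.single_apply, FlatSys.jac, ev,
      ← aeval_def]
    split_ifs with h1
    · rw [map_one, mul_one]
      nth_rewrite 1 [hq]
      push_cast
      ring
    · rw [map_zero, mul_zero]
      ring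
  -- the relations with prescribed gradient
  have hrel : ∀ j, ∃ (c : Fin m → MvPolynomial (Fin m) W) (t : MvPolynomial (Fin m) W),
      ∀ l, (if l = j then (1 : Ω) else 0) =
        aeval z (c l) * (((p : ℕ) : Ω) ^ (S.e l - 1) * z l ^ (p ^ S.e l - 1))
          - ∑ i, aeval z (c i) * S.jac ψ z i l + ((p : ℕ) : Ω) * aeval z (pderiv l t) := by
    intro j
    obtain ⟨f, hf, hfg⟩ := exists_ker_grad X' hsurj p hΩ j
    obtain ⟨ι, hι, t, ht⟩ := ker_le (fun i => p ^ S.e i) ((p : ℕ) : W) S.h X' hX hbij f hf 2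
    rw [eqIdeal, Ideal.mem_span_range_iff_exists_fun] at hι
    obtain ⟨c, hc⟩ := hι
    refine ⟨c, t, fun l => ?_⟩
    have h1 : aeval z (pderiv l f) = if l = j then ((p : ℕ) : Ω) else 0 := by
      rw [← hxz, hfg l]
      split_ifs
      · rw [map_natCast]
      · rw [map_zero]
    have h2 : aeval z (pderiv l f) = ((p : ℕ) : Ω) *
        (aeval z (c l) * (((p : ℕ) : Ω) ^ (S.e l - 1) * z l ^ (p ^ S.e l - 1))
          - ∑ i, aeval z (c i) * S.jac ψ z i l + ((p : ℕ) : Ω) * aeval z (pderiv l t)) := by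
      rw [ht, ← hc, map_add, map_sum, map_add, map_sum, ← map_pow, pderiv_C_mul, map_mul,
        aeval_C, map_pow, map_natCast]
      have h3 : ∀ i, aeval z (pderiv l (c i * eqPoly (fun i => p ^ S.e i) ((p : ℕ) : W) S.h i)) =
          ((p : ℕ) : Ω) * (aeval z (c i) * ((if i = l then
            ((p : ℕ) : Ω) ^ (S.e i - 1) * z i ^ (p ^ S.e i - 1) else 0) - S.jac ψ z i l)) := by
        intro i
        rw [pderiv_mul, map_add, map_mul, map_mul, hE i, mul_zero, zero_add, hdE i l]
        ring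
      rw [Finset.sum_congr rfl (fun i _ => h3 i), ← Finset.mul_sum]
      have h4 : ∑ i, aeval z (c i) * ((if i = l then
            ((p : ℕ) : Ω) ^ (S.e i - 1) * z i ^ (p ^ S.e i - 1) else 0) - S.jac ψ z i l) =
          aeval z (c l) * (((p : ℕ) : Ω) ^ (S.e l - 1) * z l ^ (p ^ S.e l - 1))
            - ∑ i, aeval z (c i) * S.jac ψ z i l := by
        simp only [mul_sub, Finset.sum_sub_distrib, mul_ite, mul_zero]
        rw [Finset.sum_ite_eq' Finset.univ l, if_pos (Finset.mem_univ l)]
      rw [h4]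
      ring
    rw [h1] at h2
    apply mul_left_cancel₀ hpne
    rw [← h2]
    split_ifs
    · rw [mul_one]
    · rw [mul_zero]
  choose c t hid using hrel
  -- the norm of `z`
  have hznorm : ‖z‖ < 1 := (pi_norm_lt_iff zero_lt_one).2 hz1
  set κ := max ‖((p : ℕ) : Ω)‖ ‖z‖ with hκ
  have hκ1 : κ < 1 := max_lt hpΩ hznorm
  have hκ0 : 0 ≤ κ := le_trans (norm_nonneg _) (le_max_left _ _)
  have hdd : ∀ l, ‖((p : ℕ) : Ω) ^ (S.e l - 1) * z l ^ (p ^ S.e l - 1)‖ ≤ κ := by
    intro l
    rw [norm_mul, norm_pow, norm_pow]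
    have h1 : ‖((p : ℕ) : Ω)‖ ^ (S.e l - 1) ≤ 1 := pow_le_one₀ (norm_nonneg _) hpΩ.le
    have h2 : p ^ S.e l - 1 ≠ 0 := by
      have h3 : 1 < p ^ S.e l := Nat.one_lt_pow (by have := S.he l; omega) hp.one_lt
      omega
    have h3 : ‖z l‖ ^ (p ^ S.e l - 1) ≤ ‖z l‖ := pow_le_of_le_one (norm_nonneg _) (hzle l) h2
    calc ‖((p : ℕ) : Ω)‖ ^ (S.e l - 1) * ‖z l‖ ^ (p ^ S.e l - 1) ≤ 1 * ‖z l‖ :=
          mul_le_mul h1 h3 (pow_nonneg (norm_nonneg _) _) zero_le_one
      _ = ‖z l‖ := one_mul _
      _ ≤ ‖z‖ := norm_le_pi_norm z l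
      _ ≤ κ := le_max_right _ _
  -- the Jacobian at `z` does not decrease norms
  have hjac : ‖(S.jac ψ z).det‖ = 1 := by
    apply norm_det_eq_one_of_expanding _ (S.norm_jac_le ψ hψ z hzle)
    intro v r hr0 hv
    set s := ‖v‖ with hs
    have hs0 : 0 ≤ s := norm_nonneg _
    have hvs : ∀ l, ‖v l‖ ≤ s := norm_le_pi_norm v
    have hκs : 0 ≤ κ * s := mul_nonneg hκ0 hs0
    have hbound : ∀ j, ‖v j‖ ≤ max (κ * s) r := by
      intro j
      have h1 : v j = ∑ l, (if l = j then (1 : Ω) else 0) * v l := by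
        simp
      have h2 : v j = ∑ l, aeval z (c j l) *
            (((p : ℕ) : Ω) ^ (S.e l - 1) * z l ^ (p ^ S.e l - 1)) * v l
          - ∑ i, aeval z (c j i) * (S.jac ψ z).mulVec v i
          + ((p : ℕ) : Ω) * ∑ l, aeval z (pderiv l (t j)) * v l := by
        rw [h1, Finset.sum_congr rfl (fun l _ => by rw [hid j l])]
        simp only [add_mul, sub_mul, Finset.sum_add_distrib, Finset.sum_sub_distrib,
          Finset.sum_mul, Finset.mul_sum, Matrix.mulVec, dotProduct]
        rw [Finset.sum_comm]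
        congr 1
        · congr 1
          apply Finset.sum_congr rfl
          intro i _
          apply Finset.sum_congr rfl
          intro l _
          ring
        · apply Finset.sum_congr rfl
          intro l _
          ring
      rw [h2]
      apply (IsUltrametricDist.norm_add_le_max _ _).trans
      apply max_le
      · apply (norm_sub_le_max_norm _ _).trans
        apply max_le
        · apply le_trans _ (le_max_left _ _)
          apply IsUltrametricDist.norm_sum_le_of_forall_le_of_nonneg hκs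
          intro l _
          rw [norm_mul, norm_mul]
          calc ‖aeval z (c j l)‖ * ‖((p : ℕ) : Ω) ^ (S.e l - 1) * z l ^ (p ^ S.e l - 1)‖ * ‖v l‖
              ≤ 1 * κ * s := by
                apply mul_le_mul _ (hvs l) (norm_nonneg _) (by linarith)
                exact mul_le_mul (hint _) (hdd l) (norm_nonneg _) zero_le_one
            _ = κ * s := by ring
        · apply le_trans _ (le_max_right _ _)
          apply IsUltrametricDist.norm_sum_le_of_forall_le_of_nonneg hr0
          intro i _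
          rw [norm_mul]
          calc ‖aeval z (c j i)‖ * ‖(S.jac ψ z).mulVec v i‖ ≤ 1 * r :=
                mul_le_mul (hint _) (hv i) (norm_nonneg _) zero_le_one
            _ = r := one_mul _
      · apply le_trans _ (le_max_left _ _)
        rw [norm_mul]
        have h3 : ‖∑ l, aeval z (pderiv l (t j)) * v l‖ ≤ s := by
          apply IsUltrametricDist.norm_sum_le_of_forall_le_of_nonneg hs0
          intro l _
          rw [norm_mul]
          calc ‖aeval z (pderiv l (t j))‖ * ‖v l‖ ≤ 1 * s :=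
                mul_le_mul (hint _) (hvs l) (norm_nonneg _) zero_le_one
            _ = s := one_mul _
        exact mul_le_mul (le_max_left _ _) h3 (norm_nonneg _) hκ0
    have hsle : s ≤ max (κ * s) r :=
      (pi_norm_le_iff_of_nonneg (le_trans hκs (le_max_left _ _))).2 hbound
    have hsr : s ≤ r := by
      by_contra hcon
      rw [not_le] at hcon
      have hspos : 0 < s := lt_of_le_of_lt hr0 hcon
      have h1 : κ * s < s := by nlinarith
      exact absurd hsle (not_le.2 (max_lt h1 hcon))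
    exact fun i => (hvs i).trans hsr
  -- transfer to `0`
  have h1 : ‖ev ψ S.detPoly z - ev ψ S.detPoly 0‖ ≤ ‖z‖ := by
    apply norm_ev_sub_le ψ hψ _ hzle (fun i => by simp) (norm_nonneg _)
    intro i
    simpa using norm_le_pi_norm z i
  rw [← S.ev_detPoly] at hjac
  have h2 : ev ψ S.detPoly 0 = ev ψ S.detPoly z + -(ev ψ S.detPoly z - ev ψ S.detPoly 0) := by
    ring
  rw [h2, IsUltrametricDist.norm_add_eq_max_of_norm_ne_norm, hjac, norm_neg]
  · exact max_eq_left (h1.trans hznorm.le)
  · rw [hjac, norm_neg]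
    exact (lt_of_le_of_lt h1 hznorm).ne'

end jac

end Fermat.Agent.S56lib.Lift
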