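/-
S56lib / Lift / Reduce (helper6).
Reduction of points.  `W` a local ring mapping onto the unit ball of `K`, `L / K` totally
ramified.  Every `W`-algebra hom `x : B → Ω` from a finite `W`-algebra with values in `L` reduces
to a `W`-algebra hom `g : B → ResidueField W` (`g b = 0 → ‖x b‖ < 1`).
-/
import Fermat.Agent.S56lib.Lift.Pres

set_option autoImplicit false
set_option linter.unusedSectionVars false

noncomputable section

namespace Fermat.Agent.S56lib.Lift

open IntermediateField Fermat.Agent.S56lib.Ram IsLocalRing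

variable {K Ω : Type*} [NormedField K] [NormedField Ω] [NormedAlgebra K Ω] [IsUltrametricDist Ω]
  {W : Type*} [CommRing W] [Algebra W K] [Algebra W Ω] [IsScalarTower W K Ω] [IsLocalRing W]

omit [IsUltrametricDist Ω] [IsLocalRing W] in
theorem norm_algebraMap_WΩ (w : W) : ‖algebraMap W Ω w‖ = ‖algebraMap W K w‖ := by
  rw [IsScalarTower.algebraMap_apply W K Ω, norm_algebraMap']

omit [NormedField Ω] [NormedAlgebra K Ω] [IsUltrametricDist Ω] [Algebra W Ω]
  [IsScalarTower W K Ω] in
/-- the maximal ideal of `W` is the set of elements of norm `< 1` -/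
theorem norm_lt_one_iff_mem_maximalIdeal (hφ : ∀ w : W, ‖algebraMap W K w‖ ≤ 1)
    (hφ' : ∀ x : K, ‖x‖ ≤ 1 → ∃ w : W, algebraMap W K w = x) (w : W) :
    ‖algebraMap W K w‖ < 1 ↔ w ∈ maximalIdeal W := by
  constructor
  · intro hw
    by_contra hmem
    rw [mem_maximalIdeal, mem_nonunits_iff, not_not] at hmem
    obtain ⟨w', hw'⟩ := hmem.exists_right_inv
    have h1 : ‖algebraMap W K w‖ * ‖algebraMap W K w'‖ = 1 := by
      rw [← norm_mul, ← map_mul, hw', map_one, norm_one]
    have h2 := hφ w'
    nlinarith [norm_nonneg (algebraMap W K w), norm_nonneg (algebraMap W K w')]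
  · intro hw
    by_contra hcon
    rw [not_lt] at hcon
    have h1 : ‖algebraMap W K w‖ = 1 := le_antisymm (hφ w) hcon
    have h0 : algebraMap W K w ≠ 0 := by
      intro h
      rw [h, norm_zero] at h1
      exact zero_ne_one h1
    obtain ⟨w', hw'⟩ := hφ' (algebraMap W K w)⁻¹ (by rw [norm_inv, h1, inv_one])
    have h2 : algebraMap W K (w * w' - 1) = 0 := by
      rw [map_sub, map_mul, hw', map_one, mul_inv_cancel₀ h0, sub_self]
    have h3 : IsUnit (w * w' - 1) := by
      have h4 : w * w' ∈ maximalIdeal W := Ideal.mul_mem_right _ _ hw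
      have h5 : IsUnit (1 - w * w') := by
        by_contra h6
        have h7 : 1 - w * w' ∈ maximalIdeal W := (mem_maximalIdeal _).2 h6
        have h8 : (1 : W) ∈ maximalIdeal W := by
          have := Ideal.add_mem _ h7 h4
          simp at this
        exact (Ideal.ne_top_iff_one _).1 (maximalIdeal.isMaximal W).ne_top h8
      have h9 : w * w' - 1 = -(1 - w * w') := by ring
      rw [h9]
      exact h5.neg
    have h4 : IsUnit (algebraMap W K (w * w' - 1)) := h3.map _
    rw [h2] at h4
    exact not_isUnit_zero h4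

variable {ϖ : K} {L : IntermediateField K Ω} [FiniteDimensional K L] {π : L}

/-- integral elements of a totally ramified extension are congruent to elements of `W` -/
theorem exists_approx (hL : TotRam0 ϖ L π)
    (hφ' : ∀ x : K, ‖x‖ ≤ 1 → ∃ w : W, algebraMap W K w = x) (y : Ω) (hyL : y ∈ L)
    (hy : ‖y‖ ≤ 1) : ∃ w : W, ‖y - algebraMap W Ω w‖ < 1 := by
  obtain ⟨a, ha1, ha⟩ := hL.exists_coeffs_of_norm_le_one ⟨y, hyL⟩ hy
  change y = _ at ha
  have hn := hL.finrank_pos
  obtain ⟨n', hn'⟩ : ∃ n', Module.finrank K L = n' + 1 := ⟨_, (Nat.succ_pred_eq_of_pos hn).symm⟩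
  obtain ⟨w, hw⟩ := hφ' (a 0) (ha1 0 hn)
  refine ⟨w, ?_⟩
  rw [hn', Finset.sum_range_succ', pow_zero] at ha
  have h1 : y - algebraMap W Ω w = ∑ j ∈ Finset.range n', a (j + 1) • (π : Ω) ^ (j + 1) := by
    rw [ha, IsScalarTower.algebraMap_apply W K Ω, hw, Algebra.smul_def, mul_one]
    ring
  rw [h1]
  apply lt_of_le_of_lt _ hL.nlt_one
  apply IsUltrametricDist.norm_sum_le_of_forall_le_of_nonneg (norm_nonneg _)
  intro j hj
  rw [norm_smul, norm_pow]
  have h2 : ‖a (j + 1)‖ ≤ 1 := ha1 (j + 1) (by rw [hn']; have := Finset.mem_range.1 hj; omega)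
  have h3 : ‖(π : Ω)‖ ^ (j + 1) ≤ ‖(π : Ω)‖ :=
    pow_le_of_le_one (norm_nonneg _) hL.nlt_one.le (Nat.succ_ne_zero j)
  calc ‖a (j + 1)‖ * ‖(π : Ω)‖ ^ (j + 1) ≤ 1 * ‖(π : Ω)‖ :=
        mul_le_mul h2 h3 (pow_nonneg (norm_nonneg _) _) zero_le_one
    _ = ‖(π : Ω)‖ := one_mul _

/-- **reduction of a point** -/
theorem exists_reduction (hL : TotRam0 ϖ L π) (hφ : ∀ w : W, ‖algebraMap W K w‖ ≤ 1)
    (hφ' : ∀ x : K, ‖x‖ ≤ 1 → ∃ w : W, algebraMap W K w = x)
    {B : Type*} [CommRing B] [Algebra W B] [Module.Finite W B] (x : B →ₐ[W] Ω)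
    (hxL : ∀ b, x b ∈ L) :
    ∃ g : B →ₐ[W] ResidueField W, ∀ b, g b = 0 → ‖x b‖ < 1 := by
  have hψ : ∀ w : W, ‖algebraMap W Ω w‖ ≤ 1 := fun w => by
    rw [norm_algebraMap_WΩ (K := K)]
    exact hφ w
  have hint : ∀ b : B, ‖x b‖ ≤ 1 := fun b =>
    norm_le_one_of_isIntegral hψ _ ((IsIntegral.of_finite W b).map x)
  have hex : ∀ b : B, ∃ w : W, ‖x b - algebraMap W Ω w‖ < 1 := fun b =>
    exists_approx hL hφ' (x b) (hxL b) (hint b)
  choose wb hwb using hex
  -- characterisation
  have hres : ∀ w w' : W, ‖algebraMap W Ω w - algebraMap W Ω w'‖ < 1 →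
      residue W w = residue W w' := by
    intro w w' h
    rw [← sub_eq_zero, ← map_sub, residue_eq_zero_iff,
      ← norm_lt_one_iff_mem_maximalIdeal (K := K) hφ hφ', ← norm_algebraMap_WΩ (Ω := Ω), map_sub]
    exact h
  have hchar : ∀ (b : B) (w : W), ‖x b - algebraMap W Ω w‖ < 1 →
      residue W (wb b) = residue W w := by
    intro b w h
    apply hres
    have h1 : algebraMap W Ω (wb b) - algebraMap W Ω w =
        (x b - algebraMap W Ω w) + -(x b - algebraMap W Ω (wb b)) := by ring
    rw [h1]
    apply lt_of_le_of_lt (IsUltrametricDist.norm_add_le_max _ _)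
    rw [norm_neg]
    exact max_lt h (hwb b)
  let g : B →ₐ[W] ResidueField W :=
    { toFun := fun b => residue W (wb b)
      map_one' := by
        have := hchar 1 1 (by rw [map_one, map_one, sub_self, norm_zero]; exact zero_lt_one)
        rw [this, map_one]
      map_mul' := by
        intro b b'
        have := hchar (b * b') (wb b * wb b') (by
          have h1 : x (b * b') - algebraMap W Ω (wb b * wb b') =
              x b * (x b' - algebraMap W Ω (wb b')) +
                (x b - algebraMap W Ω (wb b)) * algebraMap W Ω (wb b') := by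
            rw [map_mul, map_mul]
            ring
          rw [h1]
          apply lt_of_le_of_lt (IsUltrametricDist.norm_add_le_max _ _)
          apply max_lt
          · rw [norm_mul]
            calc ‖x b‖ * ‖x b' - algebraMap W Ω (wb b')‖
                ≤ 1 * ‖x b' - algebraMap W Ω (wb b')‖ :=
                  mul_le_mul_of_nonneg_right (hint b) (norm_nonneg _)
              _ < 1 := by rw [one_mul]; exact hwb b'
          · rw [norm_mul]
            calc ‖x b - algebraMap W Ω (wb b)‖ * ‖algebraMap W Ω (wb b')‖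
                ≤ ‖x b - algebraMap W Ω (wb b)‖ * 1 :=
                  mul_le_mul_of_nonneg_left (hψ _) (norm_nonneg _)
              _ < 1 := by rw [mul_one]; exact hwb b)
        rw [this, map_mul]
      map_zero' := by
        have := hchar 0 0 (by rw [map_zero, map_zero, sub_self, norm_zero]; exact zero_lt_one)
        rw [this, map_zero]
      map_add' := by
        intro b b'
        have := hchar (b + b') (wb b + wb b') (by
          have h1 : x (b + b') - algebraMap W Ω (wb b + wb b') =
              (x b - algebraMap W Ω (wb b)) + (x b' - algebraMap W Ω (wb b')) := by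
            rw [map_add, map_add]
            ring
          rw [h1]
          exact lt_of_le_of_lt (IsUltrametricDist.norm_add_le_max _ _) (max_lt (hwb b) (hwb b')))
        rw [this, map_add]
      commutes' := by
        intro w
        have := hchar (algebraMap W B w) w (by
          rw [AlgHom.commutes, sub_self, norm_zero]
          exact zero_lt_one)
        rw [this]
        rfl }
  refine ⟨g, fun b hb => ?_⟩
  have h1 : residue W (wb b) = 0 := hb
  rw [residue_eq_zero_iff, ← norm_lt_one_iff_mem_maximalIdeal (K := K) hφ hφ',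
    ← norm_algebraMap_WΩ (Ω := Ω)] at h1
  have h2 : x b = (x b - algebraMap W Ω (wb b)) + algebraMap W Ω (wb b) := by ring
  rw [h2]
  exact lt_of_le_of_lt (IsUltrametricDist.norm_add_le_max _ _) (max_lt (hwb b) h1)

end Fermat.Agent.S56lib.Lift
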