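/-
S56lib / Lift / TheoremA (helper6).
**Fontaine's Theorem A** (the field of points of a finite flat `p`-torsion group scheme over an
absolutely unramified base has property `(P_r)` for `r^(p-1) < ‖p‖^p`), in two forms:
* `fprop_of_pres` : for an algebra `A` presented by reduced monomials with `p Ω_{A/W} = 0`;
* `fprop_of_factors` : for an algebra `B` such that every point factors through a quotient
  `B ⧸ (f)` which is so presented.
-/
import Fermat.Agent.S56lib.Lift.Jac

set_option autoImplicit false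
set_option linter.unusedSectionVars false

noncomputable section

namespace Fermat.Agent.S56lib.Lift

open MvPolynomial IntermediateField Fermat.Agent.S56lib.Ram

variable {K Ω : Type*} [NormedField K] [NormedField Ω] [NormedAlgebra K Ω] [IsUltrametricDist Ω]
  {W : Type*} [CommRing W] [Algebra W K] [Algebra W Ω] [IsScalarTower W K Ω]

/-- **Fontaine's Theorem A** for a presented algebra -/
theorem fprop_of_pres [CompleteSpace K] {p : ℕ} (hp : p.Prime) (hunif : IsUnif ((p : ℕ) : K))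
    (hφ : ∀ w : W, ‖algebraMap W K w‖ ≤ 1)
    (hφ' : ∀ x : K, ‖x‖ ≤ 1 → ∃ w : W, algebraMap W K w = x)
    {A : Type*} [CommRing A] [Algebra W A] {m : ℕ}
    (e : Fin m → ℕ) (he : ∀ i, 1 ≤ e i) (X' : Fin m → A)
    (hXp : ∀ i, X' i ^ p ^ e i ∈ Ideal.span {((p : ℕ) : A)})
    (hbij : Function.Bijective (fun P : restrictSupport W (redS (fun i => p ^ e i)) =>
      aeval X' (P : MvPolynomial (Fin m) W)))
    (hΩ : ∀ w : KaehlerDifferential W A, p • w = 0)
    (r : ℝ) (hr : r ^ (p - 1) < ‖((p : ℕ) : K)‖ ^ p) :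
    Fprop ((p : ℕ) : K) r
      (IntermediateField.adjoin K {a' : Ω | ∃ (x : A →ₐ[W] Ω) (a : A), a' = x a}) := by
  obtain ⟨h, hh⟩ := exists_h e X' hXp hbij
  set S : FlatSys W m := ⟨e, he, h⟩ with hS
  by_cases hne : Nonempty (A →ₐ[W] Ω)
  · obtain ⟨x⟩ := hne
    have hpΩ : ‖((p : ℕ) : Ω)‖ = ‖((p : ℕ) : K)‖ := norm_natCast_Ω (K := K) p
    have hψ : ∀ w : W, ‖algebraMap W Ω w‖ ≤ 1 := by
      intro w
      rw [← cmap_algebraMap (K := K)]
      exact norm_cmap_le _ hφ w
    have hdet := norm_detPoly_zero_of_kaehler S X' hp (by rw [hpΩ]; exact hunif.pos)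
      (by rw [hpΩ]; exact hunif.lt_one) hψ hh hbij hΩ x
    exact fprop_of_pres_of_det S X' hp hunif hφ hφ' hh hbij hdet r hr
  · have h1 : {a' : Ω | ∃ (x : A →ₐ[W] Ω) (a : A), a' = x a} = ∅ := by
      ext a'
      simp only [Set.mem_ofPred_eq, Set.mem_empty_iff_false, iff_false]
      rintro ⟨x, -⟩
      exact hne ⟨x⟩
    rw [h1, IntermediateField.adjoin_empty]
    exact Fprop.bot

/-- **Fontaine's Theorem A**, assembled over the local factors -/
theorem fprop_of_factors [CompleteSpace K] {p : ℕ} (hp : p.Prime) (hunif : IsUnif ((p : ℕ) : K))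
    (hφ : ∀ w : W, ‖algebraMap W K w‖ ≤ 1)
    (hφ' : ∀ x : K, ‖x‖ ≤ 1 → ∃ w : W, algebraMap W K w = x)
    {B : Type*} [CommRing B] [Algebra W B]
    (hfac : ∀ x : B →ₐ[W] Ω, ∃ f : B, x f = 0 ∧
      ∃ (m : ℕ) (e : Fin m → ℕ) (X' : Fin m → B ⧸ Ideal.span {f}),
        (∀ i, 1 ≤ e i) ∧
        (∀ i, X' i ^ p ^ e i ∈ Ideal.span {((p : ℕ) : B ⧸ Ideal.span {f})}) ∧
        Function.Bijective (fun P : restrictSupport W (redS (fun i => p ^ e i)) =>
          aeval X' (P : MvPolynomial (Fin m) W)) ∧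
        (∀ w : KaehlerDifferential W (B ⧸ Ideal.span {f}), p • w = 0))
    (r : ℝ) (hr : r ^ (p - 1) < ‖((p : ℕ) : K)‖ ^ p) :
    Fprop ((p : ℕ) : K) r
      (IntermediateField.adjoin K {a' : Ω | ∃ (x : B →ₐ[W] Ω) (b : B), a' = x b}) := by
  choose f hf m e X' he hXp hbij hΩ using hfac
  have h1 : IntermediateField.adjoin K {a' : Ω | ∃ (x : B →ₐ[W] Ω) (b : B), a' = x b} =
      ⨆ x : B →ₐ[W] Ω, IntermediateField.adjoin K
        {a' : Ω | ∃ (x' : (B ⧸ Ideal.span {f x}) →ₐ[W] Ω) (a : B ⧸ Ideal.span {f x}),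
          a' = x' a} := by
    apply le_antisymm
    · rw [IntermediateField.adjoin_le_iff]
      rintro _ ⟨x, b, rfl⟩
      apply (le_iSup (fun x : B →ₐ[W] Ω => IntermediateField.adjoin K
        {a' : Ω | ∃ (x' : (B ⧸ Ideal.span {f x}) →ₐ[W] Ω) (a : B ⧸ Ideal.span {f x}),
          a' = x' a}) x)
      apply IntermediateField.subset_adjoin
      have hker : ∀ a ∈ Ideal.span {f x}, x a = 0 := by
        intro a ha
        obtain ⟨c, rfl⟩ := Ideal.mem_span_singleton'.1 ha
        rw [map_mul, hf x, mul_zero]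
      refine ⟨Ideal.Quotient.liftₐ (Ideal.span {f x}) x hker, Ideal.Quotient.mk _ b, ?_⟩
      rfl
    · apply iSup_le
      intro x
      rw [IntermediateField.adjoin_le_iff]
      rintro _ ⟨x', a, rfl⟩
      obtain ⟨b, rfl⟩ := Ideal.Quotient.mk_surjective a
      apply IntermediateField.subset_adjoin
      exact ⟨x'.comp (Ideal.Quotient.mkₐ W (Ideal.span {f x})), b, rfl⟩
  rw [h1]
  apply Fprop.iSup
  intro x
  exact fprop_of_pres hp hunif hφ hφ' (e x) (he x) (X' x) (hXp x) (hbij x) (hΩ x) r hr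

end Fermat.Agent.S56lib.Lift
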