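/-
S56lib / Lift / HopfB (helper6).
**Fontaine's Theorem A**, base-change forms:
* `fprop_of_hasPresentationAt` : for any finite `W`-algebra `B` all of whose local factors at
  rational points have helper9's presentation (`Hopf.HasPresentationAt`);
* `fprop_baseChange` : for `B = W ⊗[R] H`, `H` a finite flat commutative Hopf algebra over a
  subring `R` of an algebraically closed field of characteristic `0` whose points are killed by
  `p` (the situation of the Prelude's `IsFlatAt`, `R = ratLocalizedAt p`).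
-/
import Fermat.Agent.S56lib.Hopf.BaseChange
import Fermat.Agent.S56lib.Lift.TheoremA
import Fermat.Agent.S56lib.Lift.Reduce

set_option autoImplicit false
set_option linter.unusedSectionVars false

noncomputable section

namespace Fermat.Agent.S56lib.Lift

open IntermediateField Fermat.Agent.S56lib.Ram IsLocalRing TensorProduct WithConv

variable {K Ω : Type*} [NormedField K] [NormedField Ω] [NormedAlgebra K Ω] [IsUltrametricDist Ω]
  {W : Type*} [CommRing W] [Algebra W K] [Algebra W Ω] [IsScalarTower W K Ω] [IsLocalRing W]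

/-- **Fontaine's Theorem A** from presentations of the local factors -/
theorem fprop_of_hasPresentationAt [CompleteSpace K] {p : ℕ} [hp : Fact p.Prime]
    (hunif : IsUnif ((p : ℕ) : K)) (hφ : ∀ w : W, ‖algebraMap W K w‖ ≤ 1)
    (hφ' : ∀ x : K, ‖x‖ ≤ 1 → ∃ w : W, algebraMap W K w = x)
    {B : Type*} [CommRing B] [Algebra W B] [Module.Finite W B]
    (hpres : ∀ g : B →ₐ[W] ResidueField W, Hopf.HasPresentationAt p g)
    (r : ℝ) (hr : r ^ (p - 1) < ‖((p : ℕ) : K)‖ ^ p) :
    Fprop ((p : ℕ) : K) r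
      (IntermediateField.adjoin K {a' : Ω | ∃ (x : B →ₐ[W] Ω) (b : B), a' = x b}) := by
  intro L _ _ π hL hML β hint hβ1 hPβ
  have hfac : ∀ x : B →ₐ[W] Ω, ∃ f : B, x f = 0 ∧
      ∃ (m : ℕ) (e : Fin m → ℕ) (X' : Fin m → B ⧸ Ideal.span {f}),
        (∀ i, 1 ≤ e i) ∧
        (∀ i, X' i ^ p ^ e i ∈ Ideal.span {((p : ℕ) : B ⧸ Ideal.span {f})}) ∧
        Function.Bijective (fun P : MvPolynomial.restrictSupport W (redS (fun i => p ^ e i)) =>
          MvPolynomial.aeval X' (P : MvPolynomial (Fin m) W)) ∧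
        (∀ w : KaehlerDifferential W (B ⧸ Ideal.span {f}), p • w = 0) := by
    intro x
    have hxL : ∀ b, x b ∈ L := fun b =>
      hML (IntermediateField.subset_adjoin K _ ⟨x, b, rfl⟩)
    obtain ⟨g, hg⟩ := exists_reduction hL.toTotRam0 hφ hφ' x hxL
    obtain ⟨f, hf, hgf, m, e, X', he, -, hXp, hbij, hΩ⟩ := hpres g
    refine ⟨f, ?_, m, e, X', he, hXp, hbij, hΩ⟩
    have h1 : ‖x f‖ < 1 := hg f hgf
    have h2 : x f * (x f - 1) = 0 := by
      rw [mul_sub, ← map_mul, hf.eq, mul_one, sub_self]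
    rcases mul_eq_zero.1 h2 with h3 | h3
    · exact h3
    · rw [sub_eq_zero] at h3
      rw [h3, norm_one] at h1
      exact absurd h1 (lt_irrefl _)
  exact fprop_of_factors hp.out hunif hφ hφ' hfac r hr L π hL hML β hint hβ1 hPβ

/-- **Fontaine's Theorem A**, for a base change `W ⊗[R] H` -/
theorem fprop_baseChange [CompleteSpace K] {p : ℕ} [hp : Fact p.Prime]
    (hunif : IsUnif ((p : ℕ) : K)) (hφ : ∀ w : W, ‖algebraMap W K w‖ ≤ 1)
    (hφ' : ∀ x : K, ‖x‖ ≤ 1 → ∃ w : W, algebraMap W K w = x)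
    {R F : Type*} [CommRing R] [Field F] [CharZero F] [IsAlgClosed F] [Algebra R F]
    (hinj : Function.Injective (algebraMap R F))
    {H : Type*} [CommRing H] [HopfAlgebra R H] [Module.Finite R H] [Module.Flat R H]
    (hpts : ∀ x : H →ₐ[R] F, (toConv x) ^ p = 1)
    [Algebra R W] (hmax : maximalIdeal W = Ideal.span {(p : W)})
    [IsAdicComplete (Ideal.span {(p : W)}) W] [PerfectRing (ResidueField W) p]
    (r : ℝ) (hr : r ^ (p - 1) < ‖((p : ℕ) : K)‖ ^ p) :
    Fprop ((p : ℕ) : K) r
      (IntermediateField.adjoin K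
        {a' : Ω | ∃ (x : W ⊗[R] H →ₐ[W] Ω) (b : W ⊗[R] H), a' = x b}) :=
  fprop_of_hasPresentationAt hunif hφ hφ'
    (fun g => Hopf.hasPresentationAt_baseChange p hinj hpts hmax g) r hr

end Fermat.Agent.S56lib.Lift
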