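/-
S56lib / Lift / FlatA (helper6).
**Fontaine's Theorem A for the Prelude's `IsFlatAt` data.**  `H` a finite flat commutative Hopf
algebra over `ratLocalizedAt p` whose `AlgebraicClosure ℚ`-points are killed by `p`; `K` a complete
subfield-like normed field under `PadicAlgCl p` with uniformizer `p`, `W` its ring of integers.
Then the field generated over `K` by the `padicEmbedding`-images of the values of the points of
`H` has `Fprop p r` for `r^(p-1) < ‖p‖^p`.
-/
import Fermat.Agent.S56lib.Lift.HopfB
import Fermat.Agent.S56lib.Lift.FlatBridge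

set_option autoImplicit false
set_option linter.unusedSectionVars false

noncomputable section

namespace Fermat.Agent.S56lib.Lift

open IntermediateField Fermat.Agent.S56lib.Ram IsLocalRing TensorProduct WithConv GaloisRep

variable (p : ℕ) [hp : Fact p.Prime]
  {K : Type*} [NormedField K] [NormedAlgebra K (PadicAlgCl p)]
  {W : Type*} [CommRing W] [IsLocalRing W] [Algebra W K] [Algebra W (PadicAlgCl p)]
  [IsScalarTower W K (PadicAlgCl p)] [Algebra (ratLocalizedAt p) W]
  [IsScalarTower (ratLocalizedAt p) W (PadicAlgCl p)]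

/-- **Fontaine's Theorem A for `IsFlatAt` data** -/
theorem fprop_flat [CompleteSpace K] (hunif : IsUnif ((p : ℕ) : K))
    (hφ : ∀ w : W, ‖algebraMap W K w‖ ≤ 1)
    (hφ' : ∀ x : K, ‖x‖ ≤ 1 → ∃ w : W, algebraMap W K w = x)
    (hmax : maximalIdeal W = Ideal.span {(p : W)})
    [IsAdicComplete (Ideal.span {(p : W)}) W] [PerfectRing (ResidueField W) p]
    {H : Type*} [CommRing H] [HopfAlgebra (ratLocalizedAt p) H]
    [Module.Finite (ratLocalizedAt p) H] [Module.Flat (ratLocalizedAt p) H]
    (hpts : ∀ x : H →ₐ[ratLocalizedAt p] AlgebraicClosure ℚ, (toConv x) ^ p = 1)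
    (r : ℝ) (hr : r ^ (p - 1) < ‖((p : ℕ) : K)‖ ^ p) :
    Fprop ((p : ℕ) : K) r
      (IntermediateField.adjoin K
        {a' : PadicAlgCl p | ∃ (y : H →ₐ[ratLocalizedAt p] AlgebraicClosure ℚ) (a : H),
          a' = padicEmbedding p (y a)}) := by
  have h1 := adjoin_values_baseChange (iotaFlat p) (iotaFlat_range p) (H := H) (W := W) (K := K)
  have h2 : {a' : PadicAlgCl p | ∃ (y : H →ₐ[ratLocalizedAt p] AlgebraicClosure ℚ) (a : H),
      a' = padicEmbedding p (y a)} =
      {a' : PadicAlgCl p | ∃ (y : H →ₐ[ratLocalizedAt p] AlgebraicClosure ℚ) (a : H),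
        a' = iotaFlat p (y a)} := rfl
  rw [h2, ← h1]
  exact fprop_baseChange hunif hφ hφ' (algebraMap_ratLocalizedAt_injective p) hpts hmax r hr

end Fermat.Agent.S56lib.Lift
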