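/-
S56lib / Lift / PointsBridge (helper6).
Points of a base change.  `R ⊂ F` (`F` algebraically closed), `ι : F → Ω` an `R`-algebra
embedding of fields, `H` a finite `R`-bialgebra, `W` an `R`-algebra with `Ω` a `W`-algebra.
Then `x ↦ x ∘ (1 ⊗ ·)` identifies the `W`-points `W ⊗[R] H → Ω` with the `R`-points `H → F`
(`pointsEquiv`, characterised by `ι (pointsEquiv x h) = x (1 ⊗ h)`), compatibly with convolution
and with automorphisms.
-/
import Mathlib

set_option autoImplicit false
set_option linter.unusedSectionVars false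

noncomputable section

namespace Fermat.Agent.S56lib.Lift

open TensorProduct WithConv Polynomial

section range

variable {k F Ω : Type*} [Field k] [Field F] [Field Ω] [Algebra k F] [Algebra k Ω]
  [IsAlgClosed F]

/-- algebraic elements lie in the image of an algebraically closed subfield -/
theorem mem_range_of_isIntegral_field (ι : F →ₐ[k] Ω) (z : Ω) (hz : IsIntegral k z) :
    z ∈ ι.range := by
  set P := minpoly k z with hP
  have hP0 : P ≠ 0 := minpoly.ne_zero hz
  have hsplit : (P.map (algebraMap k F)).Splits := IsAlgClosed.splits _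
  have h1 : (P.map (algebraMap k F)).map (ι : F →+* Ω) = P.map (algebraMap k Ω) := by
    rw [Polynomial.map_map]
    congr 1
    ext a
    simp
  have h2 : z ∈ (P.map (algebraMap k Ω)).roots := by
    rw [mem_roots (Polynomial.map_ne_zero hP0), IsRoot, eval_map, ← aeval_def]
    exact minpoly.aeval k z
  rw [← h1, hsplit.roots_map] at h2
  obtain ⟨a, -, ha⟩ := Multiset.mem_map.1 h2
  exact ⟨a, ha⟩

end range

section points

variable {R F Ω : Type*} [CommRing R] [Field F] [Field Ω] [Algebra R F] [Algebra R Ω]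
  (ι : F →ₐ[R] Ω) {H : Type*} [CommRing H] [Algebra R H]

/-- composition with `ι` on points -/
def compPts (y : H →ₐ[R] F) : H →ₐ[R] Ω := ι.comp y

theorem compPts_injective : Function.Injective (compPts ι (H := H)) := by
  intro y y' h
  apply AlgHom.ext
  intro a
  have := congrArg (fun f : H →ₐ[R] Ω => f a) h
  exact ι.toRingHom.injective this

variable (hι : ∀ z : Ω, IsIntegral R z → z ∈ ι.range) [Module.Finite R H]

include hι in
theorem compPts_surjective : Function.Surjective (compPts ι (H := H)) := by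
  intro x
  have hx : ∀ a : H, x a ∈ ι.range := fun a => hι _ ((IsIntegral.of_finite R a).map x)
  let e := AlgEquiv.ofInjective ι ι.toRingHom.injective
  refine ⟨(e.symm : ι.range →ₐ[R] F).comp (x.codRestrict ι.range hx), ?_⟩
  apply AlgHom.ext
  intro a
  change ι (e.symm ⟨x a, hx a⟩) = x a
  have h1 : e (e.symm ⟨x a, hx a⟩) = ⟨x a, hx a⟩ := e.apply_symm_apply _
  exact congrArg Subtype.val h1

/-- points with values in `F` and in `Ω` -/
def compPtsEquiv : (H →ₐ[R] F) ≃ (H →ₐ[R] Ω) :=
  Equiv.ofBijective (compPts ι) ⟨compPts_injective ι, compPts_surjective ι hι⟩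

theorem compPtsEquiv_apply (y : H →ₐ[R] F) (a : H) : compPtsEquiv ι hι y a = ι (y a) := rfl

variable {W : Type*} [CommRing W] [Algebra R W] [Algebra W Ω] [IsScalarTower R W Ω]

/-- **points of the base change**: `W`-points of `W ⊗[R] H` in `Ω` are the `R`-points of `H`
in `F` -/
def pointsEquiv : (W ⊗[R] H →ₐ[W] Ω) ≃ (H →ₐ[R] F) :=
  (AlgHom.liftEquiv R W H Ω).symm.trans (compPtsEquiv ι hι).symm

theorem pointsEquiv_apply (x : W ⊗[R] H →ₐ[W] Ω) (a : H) :
    ι (pointsEquiv ι hι x a) = x (1 ⊗ₜ a) := by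
  have h1 : compPtsEquiv ι hι (pointsEquiv ι hι x) = (AlgHom.liftEquiv R W H Ω).symm x := by
    rw [pointsEquiv, Equiv.trans_apply, Equiv.apply_symm_apply]
  have h2 := congrArg (fun f : H →ₐ[R] Ω => f a) h1
  simpa [compPtsEquiv_apply] using h2

/-- characterisation -/
theorem pointsEquiv_eq_iff (x : W ⊗[R] H →ₐ[W] Ω) (y : H →ₐ[R] F) :
    pointsEquiv ι hι x = y ↔ ∀ a : H, ι (y a) = x (1 ⊗ₜ a) := by
  constructor
  · rintro rfl a
    exact pointsEquiv_apply ι hι x a
  · intro h
    apply AlgHom.ext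
    intro a
    apply ι.toRingHom.injective
    change ι (pointsEquiv ι hι x a) = ι (y a)
    rw [pointsEquiv_apply, h a]

/-- equivariance: if `τ ∘ ι = ι ∘ σ` then `pointsEquiv (τ ∘ x) = σ ∘ pointsEquiv x` -/
theorem pointsEquiv_comp (τ : Ω →ₐ[W] Ω) (σ : F →ₐ[R] F) (hτσ : ∀ y : F, τ (ι y) = ι (σ y))
    (x : W ⊗[R] H →ₐ[W] Ω) :
    pointsEquiv ι hι (τ.comp x) = σ.comp (pointsEquiv ι hι x) := by
  rw [pointsEquiv_eq_iff]
  intro a
  rw [AlgHom.comp_apply, AlgHom.comp_apply, ← hτσ, pointsEquiv_apply]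

end points

section conv

variable {R F Ω : Type*} [CommRing R] [Field F] [Field Ω] [Algebra R F] [Algebra R Ω]
  (ι : F →ₐ[R] Ω) {H : Type*} [CommRing H] [Bialgebra R H]
  (hι : ∀ z : Ω, IsIntegral R z → z ∈ ι.range) [Module.Finite R H]
  {W : Type*} [CommRing W] [Algebra R W] [Algebra W Ω] [IsScalarTower R W Ω]

/-- the convolution product of points of the base change, on `1 ⊗ a` -/
theorem convMul_one_tmul (x x' : WithConv (W ⊗[R] H →ₐ[W] Ω)) (a : H) :
    (x * x') (1 ⊗ₜ a) =
      (toConv ((AlgHom.liftEquiv R W H Ω).symm x.ofConv) *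
        toConv ((AlgHom.liftEquiv R W H Ω).symm x'.ofConv)) a := by
  rw [AlgHom.convMul_apply, AlgHom.convMul_apply, TensorProduct.comul_tmul]
  have h1 : Coalgebra.comul (R := W) (1 : W) = (1 : W) ⊗ₜ[W] (1 : W) := rfl
  rw [h1]
  generalize Coalgebra.comul (R := R) a = t
  induction t using TensorProduct.induction_on with
  | zero => simp
  | tmul b c =>
    simp [Algebra.TensorProduct.lift_tmul]
  | add t t' ht ht' =>
    rw [TensorProduct.tmul_add, map_add, map_add, map_add, ht, ht']

/-- **`pointsEquiv` is multiplicative for convolution** -/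
theorem pointsEquiv_mul (x x' : WithConv (W ⊗[R] H →ₐ[W] Ω)) :
    pointsEquiv ι hι (x * x').ofConv =
      (toConv (pointsEquiv ι hι x.ofConv) * toConv (pointsEquiv ι hι x'.ofConv)).ofConv := by
  rw [pointsEquiv_eq_iff]
  intro a
  rw [convMul_one_tmul]
  have h1 := AlgHom.comp_convMul_distrib ι (toConv (pointsEquiv ι hι x.ofConv))
    (toConv (pointsEquiv ι hι x'.ofConv))
  have h2 := congrArg (fun f : H →ₐ[R] Ω => f a) h1
  simp only [AlgHom.comp_apply] at h2
  have h3 : ∀ x₀ : W ⊗[R] H →ₐ[W] Ω,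
      ι.comp (pointsEquiv ι hι x₀) = (AlgHom.liftEquiv R W H Ω).symm x₀ := by
    intro x₀
    apply AlgHom.ext
    intro b
    simp [pointsEquiv_apply]
  rw [h2, h3, h3]

/-- `pointsEquiv` preserves the unit -/
theorem pointsEquiv_one :
    pointsEquiv ι hι (1 : WithConv (W ⊗[R] H →ₐ[W] Ω)).ofConv =
      (1 : WithConv (H →ₐ[R] F)).ofConv := by
  rw [pointsEquiv_eq_iff]
  intro a
  simp [AlgHom.convOne_apply, Algebra.algebraMap_eq_smul_one]

/-- the multiplicative equivalence of point groups -/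
def pointsMulEquiv : WithConv (W ⊗[R] H →ₐ[W] Ω) ≃* WithConv (H →ₐ[R] F) where
  toFun x := toConv (pointsEquiv ι hι x.ofConv)
  invFun y := toConv ((pointsEquiv ι hι).symm y.ofConv)
  left_inv x := by simp
  right_inv y := by simp
  map_mul' x x' := by
    apply WithConv.ofConv_injective
    exact pointsEquiv_mul ι hι x x'

theorem pointsMulEquiv_apply (x : WithConv (W ⊗[R] H →ₐ[W] Ω)) (a : H) :
    ι ((pointsMulEquiv ι hι x).ofConv a) = x.ofConv (1 ⊗ₜ a) :=
  pointsEquiv_apply ι hι x.ofConv a

end conv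

section values

variable {R F Ω : Type*} [CommRing R] [Field F] [Field Ω] [Algebra R F] [Algebra R Ω]
  (ι : F →ₐ[R] Ω) {H : Type*} [CommRing H] [Algebra R H]
  (hι : ∀ z : Ω, IsIntegral R z → z ∈ ι.range) [Module.Finite R H]
  {W : Type*} [CommRing W] [Algebra R W] [Algebra W Ω] [IsScalarTower R W Ω]
  {K : Type*} [Field K] [Algebra K Ω] [Algebra W K] [IsScalarTower W K Ω]

include hι in
/-- the field generated by the values of the `W`-points of `W ⊗[R] H` is generated by the values
of the `R`-points of `H` -/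
theorem adjoin_values_baseChange :
    IntermediateField.adjoin K {a' : Ω | ∃ (x : W ⊗[R] H →ₐ[W] Ω) (b : W ⊗[R] H), a' = x b} =
      IntermediateField.adjoin K {a' : Ω | ∃ (y : H →ₐ[R] F) (a : H), a' = ι (y a)} := by
  apply le_antisymm
  · rw [IntermediateField.adjoin_le_iff]
    rintro _ ⟨x, b, rfl⟩
    set E := IntermediateField.adjoin K {a' : Ω | ∃ (y : H →ₐ[R] F) (a : H), a' = ι (y a)}
      with hE
    change x b ∈ E
    induction b using TensorProduct.induction_on with
    | zero => rw [map_zero]; exact zero_mem _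
    | tmul w a =>
      have h1 : x (w ⊗ₜ a) = algebraMap W Ω w * x (1 ⊗ₜ a) := by
        have h2 : w ⊗ₜ[R] a = w • ((1 : W) ⊗ₜ[R] a) := by
          rw [TensorProduct.smul_tmul', smul_eq_mul, mul_one]
        rw [h2, map_smul, Algebra.smul_def]
      rw [h1, IsScalarTower.algebraMap_apply W K Ω]
      apply mul_mem (E.algebraMap_mem _)
      apply IntermediateField.subset_adjoin
      exact ⟨pointsEquiv ι hι x, a, (pointsEquiv_apply ι hι x a).symm⟩
    | add b b' hb hb' => rw [map_add]; exact add_mem hb hb'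
  · rw [IntermediateField.adjoin_le_iff]
    rintro _ ⟨y, a, rfl⟩
    apply IntermediateField.subset_adjoin
    refine ⟨(pointsEquiv ι hι (W := W)).symm y, 1 ⊗ₜ a, ?_⟩
    have h := pointsEquiv_apply ι hι ((pointsEquiv ι hι (W := W)).symm y) a
    rw [Equiv.apply_symm_apply] at h
    exact h

end values

end Fermat.Agent.S56lib.Lift
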