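/-
S56lib / Lift / FlatBridge (helper6).
The points bridge for the Prelude's `IsFlatAt`: `R = ratLocalizedAt p ⊂ ℚ`,
`F = AlgebraicClosure ℚ`, `Ω = PadicAlgCl p`, `ι = padicEmbedding p`.  For a finite `R`-bialgebra
`H` and an `R`-algebra `W` with `Ω` a `W`-algebra, the `W`-points `W ⊗[R] H → Ω` are the
`R`-points `H → AlgebraicClosure ℚ`, as monoids for convolution, and the local Galois group acts
through `localGaloisToGlobal`.
-/
import Fermat.Agent.S56lib.Lift.PointsBridge
import Fermat.Prelude.Def_GaloisRep_Flat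
import Fermat.Prelude.Def_GaloisRep_CompletionBridge

set_option autoImplicit false
set_option linter.unusedSectionVars false

noncomputable section

namespace Fermat.Agent.S56lib.Lift

open TensorProduct WithConv GaloisRep

variable (p : ℕ) [Fact p.Prime]

/-- `padicEmbedding`, as a map of `ratLocalizedAt p`-algebras -/
def iotaFlat : AlgebraicClosure ℚ →ₐ[ratLocalizedAt p] PadicAlgCl p :=
  (padicEmbedding p).restrictScalars (ratLocalizedAt p)

theorem iotaFlat_apply (y : AlgebraicClosure ℚ) : iotaFlat p y = padicEmbedding p y := rfl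

/-- integral elements of `PadicAlgCl p` are algebraic numbers -/
theorem iotaFlat_range (z : PadicAlgCl p) (hz : IsIntegral (ratLocalizedAt p) z) :
    z ∈ (iotaFlat p).range := by
  have hz' : IsIntegral ℚ z := hz.tower_top
  obtain ⟨a, ha⟩ := mem_range_of_isIntegral_field (padicEmbedding p) z hz'
  exact ⟨a, ha⟩

theorem algebraMap_ratLocalizedAt_injective :
    Function.Injective (algebraMap (ratLocalizedAt p) (AlgebraicClosure ℚ)) := by
  intro a b h
  have h1 : algebraMap ℚ (AlgebraicClosure ℚ) (a : ℚ) = algebraMap ℚ (AlgebraicClosure ℚ) (b : ℚ) :=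
    h
  exact Subtype.ext ((algebraMap ℚ (AlgebraicClosure ℚ)).injective h1)

variable {H : Type*} [CommRing H] [Bialgebra (ratLocalizedAt p) H]
  [Module.Finite (ratLocalizedAt p) H]
  {W : Type*} [CommRing W] [Algebra (ratLocalizedAt p) W] [Algebra W (PadicAlgCl p)]
  [IsScalarTower (ratLocalizedAt p) W (PadicAlgCl p)]

/-- **the points bridge**: `W`-points of `W ⊗ H` in `PadicAlgCl p` are the points of `H` in
`AlgebraicClosure ℚ` -/
def flatPointsEquiv :
    WithConv (W ⊗[ratLocalizedAt p] H →ₐ[W] PadicAlgCl p) ≃*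
      WithConv (H →ₐ[ratLocalizedAt p] AlgebraicClosure ℚ) :=
  pointsMulEquiv (iotaFlat p) (iotaFlat_range p)

theorem flatPointsEquiv_apply (x : WithConv (W ⊗[ratLocalizedAt p] H →ₐ[W] PadicAlgCl p))
    (a : H) : padicEmbedding p ((flatPointsEquiv p x).ofConv a) = x.ofConv (1 ⊗ₜ a) :=
  pointsMulEquiv_apply (iotaFlat p) (iotaFlat_range p) x a

/-- **Galois equivariance** of the points bridge -/
theorem flatPointsEquiv_galois (τ : PadicAlgCl p ≃ₐ[ℚ_[p]] PadicAlgCl p)
    (τW : PadicAlgCl p →ₐ[W] PadicAlgCl p) (hτ : ∀ z, τW z = τ z)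
    (x : WithConv (W ⊗[ratLocalizedAt p] H →ₐ[W] PadicAlgCl p)) (a : H) :
    (flatPointsEquiv p (toConv (τW.comp x.ofConv))).ofConv a =
      localGaloisToGlobal p τ ((flatPointsEquiv p x).ofConv a) := by
  apply (padicEmbedding p).toRingHom.injective
  change padicEmbedding p _ = padicEmbedding p _
  rw [flatPointsEquiv_apply, padicEmbedding_localGaloisToGlobal, flatPointsEquiv_apply]
  change τW (x.ofConv (1 ⊗ₜ a)) = _
  rw [hτ]

/-- the values of a point and of its image generate the same thing -/
theorem flatPointsEquiv_symm_apply (y : WithConv (H →ₐ[ratLocalizedAt p] AlgebraicClosure ℚ))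
    (a : H) : ((flatPointsEquiv p (W := W)).symm y).ofConv (1 ⊗ₜ a) =
      padicEmbedding p (y.ofConv a) := by
  have h := flatPointsEquiv_apply p ((flatPointsEquiv p (W := W)).symm y) a
  rw [MulEquiv.apply_symm_apply] at h
  exact h.symm

end Fermat.Agent.S56lib.Lift
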