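/-
S56lib / Lift / FlatBr (helper6).
**The bridge (Br)** from one instance of the Prelude's `IsFlatAt` data to a finite flat group
scheme over `ℤ_[p]`.  `H` finite flat cocommutative Hopf over `ratLocalizedAt p` with an additive,
`G_ℚ`-equivariant bijection `e` of its `AlgebraicClosure ℚ`-points onto a group `X` killed by `p`.
Then `B := ℤ_[p] ⊗ H` is a finite free cocommutative Hopf algebra over `ℤ_[p]`, killed by `p`,
with an additive bijection `e'` of its `PadicAlgCl p`-points onto `X`, equivariant for the local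
Galois group through `localGaloisToGlobal p`.
-/
import Fermat.Agent.S56lib.Hopf.BaseChange
import Fermat.Agent.S56lib.Lift.FlatBridge

set_option autoImplicit false
set_option linter.unusedSectionVars false

noncomputable section

namespace Fermat.Agent.S56lib.Lift

open TensorProduct WithConv GaloisRep IsLocalRing

variable (p : ℕ) [hp : Fact p.Prime]

/-- `ℤ_(p) → ℤ_p` -/
def ratLocToPadicInt : ratLocalizedAt p →+* ℤ_[p] where
  toFun q := ⟨((q : ℚ) : ℚ_[p]), Padic.norm_rat_le_one (by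
    have h1 : (q : ℚ).den.Coprime p := q.2
    exact (Nat.Prime.coprime_iff_not_dvd hp.out).1 h1.symm)⟩
  map_one' := by
    apply Subtype.ext
    simp
  map_mul' a b := by
    apply Subtype.ext
    simp
  map_zero' := by
    apply Subtype.ext
    simp
  map_add' a b := by
    apply Subtype.ext
    simp

instance algebraRatLocPadicInt : Algebra (ratLocalizedAt p) ℤ_[p] :=
  (ratLocToPadicInt p).toAlgebra

theorem coe_algebraMap_ratLoc (q : ratLocalizedAt p) :
    ((algebraMap (ratLocalizedAt p) ℤ_[p] q : ℤ_[p]) : ℚ_[p]) = ((q : ℚ) : ℚ_[p]) := rfl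

instance isScalarTower_ratLoc_padicInt :
    IsScalarTower (ratLocalizedAt p) ℤ_[p] (PadicAlgCl p) := by
  apply IsScalarTower.of_algebraMap_eq
  intro q
  have h1 : algebraMap ℤ_[p] (PadicAlgCl p) (algebraMap (ratLocalizedAt p) ℤ_[p] q) =
      algebraMap ℚ_[p] (PadicAlgCl p) (((q : ℚ) : ℚ_[p])) := by
    rw [IsScalarTower.algebraMap_apply ℤ_[p] ℚ_[p] (PadicAlgCl p)]
    rfl
  have h2 : algebraMap (ratLocalizedAt p) (PadicAlgCl p) q =
      algebraMap ℚ (PadicAlgCl p) (q : ℚ) := rfl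
  rw [h1, h2, IsScalarTower.algebraMap_apply ℚ ℚ_[p] (PadicAlgCl p)]
  rfl

theorem algebraMap_padicInt_injective :
    Function.Injective (algebraMap ℤ_[p] (PadicAlgCl p)) := by
  rw [IsScalarTower.algebraMap_eq ℤ_[p] ℚ_[p] (PadicAlgCl p)]
  exact (algebraMap ℚ_[p] (PadicAlgCl p)).injective.comp Subtype.val_injective

variable {H : Type} [CommRing H] [HopfAlgebra (ratLocalizedAt p) H]
  [Module.Finite (ratLocalizedAt p) H] [Module.Flat (ratLocalizedAt p) H]

instance free_baseChange_padicInt : Module.Free ℤ_[p] (ℤ_[p] ⊗[ratLocalizedAt p] H) :=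
  Module.free_of_flat_of_isLocalRing

variable {X : Type*} [AddCommGroup X]
  (e : WithConv (H →ₐ[ratLocalizedAt p] AlgebraicClosure ℚ) ≃ X)
  (hadd : ∀ f g : WithConv (H →ₐ[ratLocalizedAt p] AlgebraicClosure ℚ), e (f * g) = e f + e g)

include hadd in
theorem e_pow (f : WithConv (H →ₐ[ratLocalizedAt p] AlgebraicClosure ℚ)) (n : ℕ) :
    e (f ^ n) = n • e f := by
  have h1 : e 1 = 0 := by
    have := hadd 1 1
    rw [one_mul] at this
    exact left_eq_add.1 this
  induction n with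
  | zero => rw [pow_zero, zero_smul, h1]
  | succ n ih => rw [pow_succ, hadd, ih, succ_nsmul]

include hadd in
/-- the points of `H` are killed by `p` -/
theorem hpts_of_kill (hkill : ∀ x : X, p • x = 0)
    (x : H →ₐ[ratLocalizedAt p] AlgebraicClosure ℚ) : (toConv x) ^ p = 1 := by
  apply e.injective
  rw [e_pow p e hadd, hkill]
  have := hadd 1 1
  rw [one_mul] at this
  exact (left_eq_add.1 this).symm

include hadd in
/-- `ℤ_[p] ⊗ H` is killed by `p` -/
theorem isKilledBy_baseChange (hkill : ∀ x : X, p • x = 0) :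
    Hopf.IsKilledBy ℤ_[p] (ℤ_[p] ⊗[ratLocalizedAt p] H) p := by
  apply Hopf.isKilledBy_of_points (K := PadicAlgCl p) (algebraMap_padicInt_injective p) p
  intro x
  apply (flatPointsEquiv p (H := H) (W := ℤ_[p])).injective
  rw [map_pow, map_one]
  exact hpts_of_kill p e hadd hkill _

/-- the transported bijection -/
def flatBrEquiv :
    WithConv (ℤ_[p] ⊗[ratLocalizedAt p] H →ₐ[ℤ_[p]] PadicAlgCl p) ≃ X :=
  (flatPointsEquiv p (H := H) (W := ℤ_[p])).toEquiv.trans e

include hadd in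
theorem flatBrEquiv_mul
    (f g : WithConv (ℤ_[p] ⊗[ratLocalizedAt p] H →ₐ[ℤ_[p]] PadicAlgCl p)) :
    flatBrEquiv p e (f * g) = flatBrEquiv p e f + flatBrEquiv p e g := by
  change e (flatPointsEquiv p (f * g)) = e (flatPointsEquiv p f) + e (flatPointsEquiv p g)
  rw [map_mul, hadd]

theorem flatBrEquiv_galois (act : (AlgebraicClosure ℚ ≃ₐ[ℚ] AlgebraicClosure ℚ) → X → X)
    (hequiv : ∀ (σ : AlgebraicClosure ℚ ≃ₐ[ℚ] AlgebraicClosure ℚ)
      (f g : WithConv (H →ₐ[ratLocalizedAt p] AlgebraicClosure ℚ)),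
      (∀ h : H, g h = σ (f h)) → e g = act σ (e f))
    (σ : PadicAlgCl p ≃ₐ[ℚ_[p]] PadicAlgCl p)
    (f g : WithConv (ℤ_[p] ⊗[ratLocalizedAt p] H →ₐ[ℤ_[p]] PadicAlgCl p))
    (hfg : ∀ b, g b = σ (f b)) :
    flatBrEquiv p e g = act (localGaloisToGlobal p σ) (flatBrEquiv p e f) := by
  change e (flatPointsEquiv p g) = act _ (e (flatPointsEquiv p f))
  apply hequiv
  intro h
  apply (padicEmbedding p).toRingHom.injective
  change padicEmbedding p ((flatPointsEquiv p g).ofConv h) =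
    padicEmbedding p (localGaloisToGlobal p σ ((flatPointsEquiv p f).ofConv h))
  rw [flatPointsEquiv_apply, padicEmbedding_localGaloisToGlobal, flatPointsEquiv_apply]
  exact hfg _

include hadd in
/-- **(Br)**, packaged -/
theorem exists_padicInt_model (act : (AlgebraicClosure ℚ ≃ₐ[ℚ] AlgebraicClosure ℚ) → X → X)
    [Coalgebra.IsCocomm (ratLocalizedAt p) H]
    (hequiv : ∀ (σ : AlgebraicClosure ℚ ≃ₐ[ℚ] AlgebraicClosure ℚ)
      (f g : WithConv (H →ₐ[ratLocalizedAt p] AlgebraicClosure ℚ)),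
      (∀ h : H, g h = σ (f h)) → e g = act σ (e f))
    (hkill : ∀ x : X, p • x = 0) :
    ∃ (B : Type) (_ : CommRing B) (_ : HopfAlgebra ℤ_[p] B),
      Module.Finite ℤ_[p] B ∧ Module.Free ℤ_[p] B ∧ Coalgebra.IsCocomm ℤ_[p] B ∧
      Hopf.IsKilledBy ℤ_[p] B p ∧
      ∃ e' : WithConv (B →ₐ[ℤ_[p]] PadicAlgCl p) ≃ X,
        (∀ f g, e' (f * g) = e' f + e' g) ∧
        ∀ (σ : PadicAlgCl p ≃ₐ[ℚ_[p]] PadicAlgCl p)
          (f g : WithConv (B →ₐ[ℤ_[p]] PadicAlgCl p)),
          (∀ b, g b = σ (f b)) → e' g = act (localGaloisToGlobal p σ) (e' f) :=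
  ⟨ℤ_[p] ⊗[ratLocalizedAt p] H, inferInstance, inferInstance, inferInstance, inferInstance,
    inferInstance, isKilledBy_baseChange p e hadd hkill, flatBrEquiv p e,
    flatBrEquiv_mul p e hadd, flatBrEquiv_galois p e act hequiv⟩

end Fermat.Agent.S56lib.Lift
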