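/-
S56lib / Lift / PadicInst (helper6).
The instance `K = ℚ_[p]`, `W = ℤ_[p]`, `Ω = PadicAlgCl p` of the abstract setting of `Ram/`, `Lift/`:
`p` is a uniformizer, `ℤ_[p]` is the unit ball, `(p)`-adically complete with perfect residue field.
Hence **Fontaine's Theorem A over `ℤ_[p]`** (`fprop_hopf_padic`).
-/
import Fermat.Agent.S56lib.Lift.HopfA

set_option autoImplicit false
set_option linter.unusedSectionVars false

noncomputable section

namespace Fermat.Agent.S56lib.Lift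

open IntermediateField Fermat.Agent.S56lib.Ram IsLocalRing

variable (p : ℕ) [hp : Fact p.Prime]

theorem isUnif_padic : IsUnif ((p : ℕ) : ℚ_[p]) where
  pos := by
    rw [Padic.norm_p]
    exact inv_pos.2 (Nat.cast_pos.2 hp.out.pos)
  lt_one := by
    rw [Padic.norm_p]
    exact inv_lt_one_of_one_lt₀ (by exact_mod_cast hp.out.one_lt)
  disc := by
    intro x hx
    refine ⟨x.valuation, ?_⟩
    rw [Padic.norm_eq_zpow_neg_valuation hx, Padic.norm_p, inv_zpow, zpow_neg]

theorem norm_algebraMap_padicInt_le (w : ℤ_[p]) : ‖algebraMap ℤ_[p] ℚ_[p] w‖ ≤ 1 :=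
  PadicInt.norm_le_one w

theorem exists_padicInt_of_norm_le_one (x : ℚ_[p]) (hx : ‖x‖ ≤ 1) :
    ∃ w : ℤ_[p], algebraMap ℤ_[p] ℚ_[p] w = x := ⟨⟨x, hx⟩, rfl⟩

instance isAdicComplete_span_p : IsAdicComplete (Ideal.span {(p : ℤ_[p])}) ℤ_[p] := by
  rw [← PadicInt.maximalIdeal_eq_span_p]
  infer_instance

instance charP_residueField_padicInt : CharP (ResidueField ℤ_[p]) p :=
  charP_of_injective_ringHom
    (f := ((PadicInt.residueField (p := p)).symm : ZMod p →+* ResidueField ℤ_[p]))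
    (PadicInt.residueField (p := p)).symm.injective p

instance perfectRing_residueField_padicInt : PerfectRing (ResidueField ℤ_[p]) p :=
  PerfectRing.ofFiniteOfIsReduced p _

/-- **Fontaine's Theorem A over `ℤ_[p]`** -/
theorem fprop_hopf_padic {B : Type*} [CommRing B] [HopfAlgebra ℤ_[p] B] [Module.Free ℤ_[p] B]
    [Module.Finite ℤ_[p] B] (hkill : Hopf.IsKilledBy ℤ_[p] B p) (r : ℝ)
    (hr : r ^ (p - 1) < ‖((p : ℕ) : ℚ_[p])‖ ^ p) :
    Fprop ((p : ℕ) : ℚ_[p]) r
      (IntermediateField.adjoin ℚ_[p]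
        {a' : PadicAlgCl p | ∃ (x : B →ₐ[ℤ_[p]] PadicAlgCl p) (b : B), a' = x b}) :=
  fprop_hopf (isUnif_padic p) (norm_algebraMap_padicInt_le p) (exists_padicInt_of_norm_le_one p)
    PadicInt.maximalIdeal_eq_span_p hkill r hr

end Fermat.Agent.S56lib.Lift
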