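/-
S56lib / Lift / FB (helper6).
**(FB): Fontaine's bound for `IsFlatAt` data over every finite absolutely unramified `K₀`.**
`K₀ : IntermediateField ℚ_[p] (PadicAlgCl p)` finite with value group `‖p‖^ℤ`; then the field
generated over `K₀` by the values of the points of `H` has `Fprop p r`, `r^(p-1) < ‖p‖^p`.
Instantiates `fprop_flat` at `K := K₀`, `W := 𝒪[K₀]` (S55lib `LocalUnr` setting).
-/
import Fermat.Agent.S55lib.LocalUnr.Padic
import Fermat.Agent.S55lib.LocalUnr.Adic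
import Fermat.Agent.S56lib.Lift.FlatA
import Fermat.Agent.S56lib.Lift.FlatBr
import Fermat.Agent.S56lib.Lift.PadicInst

set_option autoImplicit false
set_option linter.unusedSectionVars false

open scoped NormedField Valued NNReal

noncomputable section

namespace Fermat.Agent.S56lib.Lift

open IntermediateField Fermat.Agent.S55lib.LocalUnr Fermat.Agent.S56lib.Ram GaloisRep
  IsLocalRing WithConv

variable (p : ℕ) [hp : Fact p.Prime] (K0 : IntermediateField ℚ_[p] (PadicAlgCl p))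
  [FiniteDimensional ℚ_[p] K0]

theorem norm_coe_K0 (x : K0) : ‖x‖ = ‖(x : PadicAlgCl p)‖ := rfl

theorem norm_natCast_K0 (n : ℕ) : ‖((n : ℕ) : K0)‖ = ‖((n : ℕ) : ℚ_[p])‖ := by
  rw [norm_coe_K0]
  push_cast
  exact norm_natCast_Ω (K := ℚ_[p]) (Ω := PadicAlgCl p) n

theorem norm_natCast_padicAlgCl (n : ℕ) : ‖((n : ℕ) : PadicAlgCl p)‖ = ‖((n : ℕ) : ℚ_[p])‖ :=
  norm_natCast_Ω (K := ℚ_[p]) (Ω := PadicAlgCl p) n

/-- `ℤ_p → 𝒪[K₀]` -/
def padicIntToInteger : ℤ_[p] →+* 𝒪[K0] where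
  toFun w := ⟨algebraMap ℚ_[p] K0 (w : ℚ_[p]), by
    rw [Valued.integer.mem_iff, norm_algebraMap']
    exact w.2⟩
  map_one' := by
    apply Subtype.ext
    simp
  map_mul' a b := by
    apply Subtype.ext
    simp
  map_zero' := by
    apply Subtype.ext
    simp
  map_add' a b := by
    apply Subtype.ext
    simp

instance algebraRatLocInteger : Algebra (ratLocalizedAt p) 𝒪[K0] :=
  ((padicIntToInteger p K0).comp (ratLocToPadicInt p)).toAlgebra

instance isScalarTower_ratLoc_integer :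
    IsScalarTower (ratLocalizedAt p) 𝒪[K0] (PadicAlgCl p) := by
  apply IsScalarTower.of_algebraMap_eq
  intro q
  have h1 : algebraMap 𝒪[K0] (PadicAlgCl p) (algebraMap (ratLocalizedAt p) 𝒪[K0] q) =
      algebraMap ℚ_[p] (PadicAlgCl p) (((q : ℚ) : ℚ_[p])) := rfl
  have h2 : algebraMap (ratLocalizedAt p) (PadicAlgCl p) q =
      algebraMap ℚ (PadicAlgCl p) (q : ℚ) := rfl
  rw [h1, h2, IsScalarTower.algebraMap_apply ℚ ℚ_[p] (PadicAlgCl p)]
  rfl

variable (hval : ∀ x : K0, x ≠ 0 →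
  ∃ n : ℤ, ‖(x : PadicAlgCl p)‖ = ‖((p : ℕ) : PadicAlgCl p)‖ ^ n)

include hval in
theorem isUnif_K0 : IsUnif ((p : ℕ) : K0) where
  pos := by
    rw [norm_natCast_K0]
    exact (isUnif_padic p).pos
  lt_one := by
    rw [norm_natCast_K0]
    exact (isUnif_padic p).lt_one
  disc := by
    intro x hx
    obtain ⟨n, hn⟩ := hval x hx
    refine ⟨n, ?_⟩
    rw [norm_coe_K0, hn, norm_natCast_K0, norm_natCast_padicAlgCl]

include hval in
theorem maximalIdeal_integer_K0 : maximalIdeal 𝒪[K0] = Ideal.span {(p : 𝒪[K0])} := by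
  have hu := isUnif_K0 p K0 hval
  ext x
  rw [mem_maximalIdeal_iff, Ideal.mem_span_singleton']
  constructor
  · intro hx
    by_cases hx0 : (x : K0) = 0
    · refine ⟨0, ?_⟩
      rw [zero_mul]
      exact (Subtype.ext hx0).symm
    · obtain ⟨n, hn⟩ := hu.disc (x : K0) hx0
      have hx' : ‖(x : K0)‖ < 1 := hx
      have h1 : ‖((p : ℕ) : K0)‖ ^ n < ‖((p : ℕ) : K0)‖ ^ (0 : ℤ) := by
        rw [zpow_zero, ← hn]
        exact hx'
      rw [zpow_lt_zpow_iff_of_lt_one hu.pos hu.lt_one] at h1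
      have h2 : ‖(x : K0)‖ ≤ ‖((p : ℕ) : K0)‖ := by
        rw [hn]
        have : ‖((p : ℕ) : K0)‖ ^ n ≤ ‖((p : ℕ) : K0)‖ ^ (1 : ℤ) :=
          (zpow_le_zpow_iff_of_lt_one hu.pos hu.lt_one).2 (by omega)
        rwa [zpow_one] at this
      have hp0 : ((p : ℕ) : K0) ≠ 0 := norm_pos_iff.1 hu.pos
      refine ⟨⟨(x : K0) / ((p : ℕ) : K0), ?_⟩, ?_⟩
      · rw [Valued.integer.mem_iff, norm_div]
        exact div_le_one_of_le₀ h2 (norm_nonneg _)
      · apply Subtype.ext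
        push_cast
        field_simp
  · rintro ⟨a, rfl⟩
    have ha : ‖(a : K0)‖ ≤ 1 := Valued.integer.mem_iff.1 a.2
    have h1 : ‖((a * (p : 𝒪[K0]) : 𝒪[K0]) : K0)‖ = ‖(a : K0)‖ * ‖((p : ℕ) : K0)‖ := by
      push_cast
      rw [norm_mul]
    change ‖((a * (p : 𝒪[K0]) : 𝒪[K0]) : K0)‖ < 1
    rw [h1]
    calc ‖(a : K0)‖ * ‖((p : ℕ) : K0)‖ ≤ 1 * ‖((p : ℕ) : K0)‖ :=
          mul_le_mul_of_nonneg_right ha (norm_nonneg _)
      _ < 1 := by rw [one_mul]; exact hu.lt_one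

include hval in
theorem isAdicComplete_integer_K0 : IsAdicComplete (Ideal.span {(p : 𝒪[K0])}) 𝒪[K0] := by
  rw [← maximalIdeal_integer_K0 p K0 hval]
  exact isAdicComplete_integer K0

include hval in
theorem perfectRing_residue_K0 : PerfectRing (ResidueField 𝒪[K0]) p := by
  have hfin : Finite (ResidueField 𝒪[K0]) := finite_residue K0
  have h0 : ((p : ℕ) : ResidueField 𝒪[K0]) = 0 := by
    have h1 : (p : 𝒪[K0]) ∈ maximalIdeal 𝒪[K0] := by
      rw [maximalIdeal_integer_K0 p K0 hval]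
      exact Ideal.mem_span_singleton_self _
    have h2 : residue 𝒪[K0] (p : 𝒪[K0]) = 0 := (IsLocalRing.residue_eq_zero_iff _).2 h1
    rw [← h2, map_natCast]
  have : CharP (ResidueField 𝒪[K0]) p := (CharP.charP_iff_prime_eq_zero hp.out).2 h0
  exact PerfectRing.ofFiniteOfIsReduced p _

include hval in
/-- **(FB)** -/
theorem fprop_flat_K0 {H : Type*} [CommRing H] [HopfAlgebra (ratLocalizedAt p) H]
    [Module.Finite (ratLocalizedAt p) H] [Module.Flat (ratLocalizedAt p) H]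
    (hpts : ∀ x : H →ₐ[ratLocalizedAt p] AlgebraicClosure ℚ, (toConv x) ^ p = 1)
    (r : ℝ) (hr : r ^ (p - 1) < ‖((p : ℕ) : PadicAlgCl p)‖ ^ p) :
    Fprop ((p : ℕ) : K0) r
      (IntermediateField.adjoin K0
        {a' : PadicAlgCl p | ∃ (y : H →ₐ[ratLocalizedAt p] AlgebraicClosure ℚ) (a : H),
          a' = padicEmbedding p (y a)}) := by
  have := isAdicComplete_integer_K0 p K0 hval
  have := perfectRing_residue_K0 p K0 hval
  apply fprop_flat p (K := K0) (W := 𝒪[K0]) (isUnif_K0 p K0 hval)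
    (fun w => Valued.integer.mem_iff.1 w.2)
    (fun x hx => ⟨⟨x, Valued.integer.mem_iff.2 hx⟩, rfl⟩)
    (maximalIdeal_integer_K0 p K0 hval) hpts r
  rw [norm_natCast_K0, ← norm_natCast_padicAlgCl]
  exact hr

end Fermat.Agent.S56lib.Lift
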