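/-
S56lib / Lift / FBPrime (helper6).
**(FB′)**: from the Prelude's `IsFlatAt` data for a representation over a finite local ring
killed by `p`, a finite normal Fontaine-bounded field `L / ℚ_p` whose absolute Galois group acts
trivially: `Flat.exists_bdd_of_isFlatAt`.
* `valueSet`, `valueField` : the field generated over `ℚ_p` by the values of the points of `H`;
* `finiteDimensional_valueField`, `normal_valueField`, `isBdd_valueField`,
  `comp_eq_of_mem_fixingSubgroup`.
-/
import Fermat.Agent.S56lib.Lift.FB
import Fermat.Agent.S56lib.Flat.Defs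

set_option autoImplicit false
set_option linter.unusedSectionVars false
set_option linter.style.haveILetI false

open scoped NormedField Valued NNReal

noncomputable section

namespace Fermat.Agent.S56lib.Lift

open IntermediateField Fermat.Agent.S55lib.LocalUnr Fermat.Agent.S56lib.Ram GaloisRep
  IsLocalRing WithConv Fermat.Agent.S56lib

variable (p : ℕ) [hp : Fact p.Prime]

section Values

variable (H : Type) [CommRing H] [HopfAlgebra (ratLocalizedAt p) H]

/-- the values of the `ℚ̄`-points of `H`, inside `ℚ̄_p` -/
def valueSet : Set (PadicAlgCl p) :=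
  {a' : PadicAlgCl p | ∃ (y : H →ₐ[ratLocalizedAt p] AlgebraicClosure ℚ) (a : H),
    a' = padicEmbedding p (y a)}

/-- the field generated over `ℚ_p` by the values of the points -/
def valueField : IntermediateField ℚ_[p] (PadicAlgCl p) :=
  IntermediateField.adjoin ℚ_[p] (valueSet p H)

variable {H}

theorem mem_valueSet (y : H →ₐ[ratLocalizedAt p] AlgebraicClosure ℚ) (a : H) :
    padicEmbedding p (y a) ∈ valueSet p H := ⟨y, a, rfl⟩

theorem mem_valueField (y : H →ₐ[ratLocalizedAt p] AlgebraicClosure ℚ) (a : H) :
    padicEmbedding p (y a) ∈ valueField p H :=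
  IntermediateField.subset_adjoin _ _ (mem_valueSet p y a)

/-- scalars of `ℤ_(p)` land in `ℚ_p` -/
theorem padicEmbedding_algebraMap_ratLoc (c : ratLocalizedAt p) :
    padicEmbedding p (algebraMap (ratLocalizedAt p) (AlgebraicClosure ℚ) c) =
      algebraMap ℚ_[p] (PadicAlgCl p) (((c : ℚ) : ℚ_[p])) := by
  have h1 : algebraMap (ratLocalizedAt p) (AlgebraicClosure ℚ) c =
      algebraMap ℚ (AlgebraicClosure ℚ) (c : ℚ) := rfl
  rw [h1, (padicEmbedding p).commutes, IsScalarTower.algebraMap_apply ℚ ℚ_[p] (PadicAlgCl p)]
  congr 1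

variable [Module.Finite (ratLocalizedAt p) H]

/-- the value field is generated by finitely many elements -/
theorem finiteDimensional_valueField [Finite (H →ₐ[ratLocalizedAt p] AlgebraicClosure ℚ)] :
    FiniteDimensional ℚ_[p] (valueField p H) := by
  obtain ⟨T, hT⟩ := (Module.Finite.fg_top : (⊤ : Submodule (ratLocalizedAt p) H).FG)
  set G : Set (PadicAlgCl p) := Set.range
    (fun z : (H →ₐ[ratLocalizedAt p] AlgebraicClosure ℚ) × T => padicEmbedding p (z.1 z.2.1))
    with hG
  have hGfin : G.Finite := Set.finite_range _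
  haveI : Finite G := hGfin.to_subtype
  have hfd : FiniteDimensional ℚ_[p] (IntermediateField.adjoin ℚ_[p] G) :=
    IntermediateField.finiteDimensional_adjoin
      (fun x _ => Algebra.IsIntegral.isIntegral x)
  have hle : valueField p H ≤ IntermediateField.adjoin ℚ_[p] G := by
    rw [valueField, IntermediateField.adjoin_le_iff]
    rintro _ ⟨y, a, rfl⟩
    have ha : a ∈ Submodule.span (ratLocalizedAt p) (T : Set H) := by
      rw [hT]
      exact Submodule.mem_top
    induction ha using Submodule.span_induction with
    | mem x hx =>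
      exact IntermediateField.subset_adjoin _ _ ⟨(y, ⟨x, hx⟩), rfl⟩
    | zero =>
      rw [map_zero, map_zero]
      exact zero_mem _
    | add x x' _ _ hx hx' =>
      rw [map_add, map_add]
      exact add_mem hx hx'
    | smul c x _ hx =>
      rw [map_smul, Algebra.smul_def, map_mul, padicEmbedding_algebraMap_ratLoc]
      exact mul_mem (IntermediateField.algebraMap_mem _ _) hx
  exact FiniteDimensional.of_injective (IntermediateField.inclusion hle).toLinearMap
    (IntermediateField.inclusion_injective hle)

/-- the value set is stable under `Gal(ℚ̄_p/ℚ_p)` -/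
theorem map_mem_valueSet (σ : PadicAlgCl p ≃ₐ[ℚ_[p]] PadicAlgCl p) {x : PadicAlgCl p}
    (hx : x ∈ valueSet p H) : σ x ∈ valueSet p H := by
  obtain ⟨y, a, rfl⟩ := hx
  refine ⟨((localGaloisToGlobal p σ).toAlgHom.restrictScalars (ratLocalizedAt p)).comp y, a, ?_⟩
  rw [← padicEmbedding_localGaloisToGlobal]
  rfl

theorem normal_valueField : Normal ℚ_[p] (valueField p H) := by
  rw [IntermediateField.normal_iff_forall_map_le']
  intro σ
  rw [valueField, IntermediateField.adjoin_map]
  apply IntermediateField.adjoin.mono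
  rintro _ ⟨x, hx, rfl⟩
  exact map_mem_valueSet p σ hx

/-- elements of the absolute Galois group of the value field fix all points -/
theorem comp_eq_of_mem_fixingSubgroup (g : PadicAlgCl p ≃ₐ[ℚ_[p]] PadicAlgCl p)
    (hg : g ∈ (valueField p H).fixingSubgroup)
    (y : H →ₐ[ratLocalizedAt p] AlgebraicClosure ℚ) (a : H) :
    localGaloisToGlobal p g (y a) = y a := by
  apply (padicEmbedding p).toRingHom.injective
  show padicEmbedding p (localGaloisToGlobal p g (y a)) = padicEmbedding p (y a)
  rw [padicEmbedding_localGaloisToGlobal]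
  exact (IntermediateField.mem_fixingSubgroup_iff _ g).1 hg _ (mem_valueField p y a)

variable [Module.Flat (ratLocalizedAt p) H]

/-- **the value field is Fontaine-bounded** -/
theorem isBdd_valueField
    (hpts : ∀ x : H →ₐ[ratLocalizedAt p] AlgebraicClosure ℚ, (toConv x) ^ p = 1) :
    Flat.IsBdd p (valueField p H) := by
  intro K0 _ hK0 r hr
  have hadj : IntermediateField.adjoin K0 ((valueField p H : IntermediateField _ _) :
      Set (PadicAlgCl p)) = IntermediateField.adjoin K0 (valueSet p H) := by
    apply le_antisymm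
    · rw [IntermediateField.adjoin_le_iff]
      have h1 : valueField p H ≤
          (IntermediateField.adjoin K0 (valueSet p H)).restrictScalars ℚ_[p] := by
        rw [valueField, IntermediateField.adjoin_le_iff]
        intro x hx
        exact IntermediateField.subset_adjoin K0 _ hx
      intro x hx
      exact h1 hx
    · apply IntermediateField.adjoin.mono
      intro x hx
      exact IntermediateField.subset_adjoin ℚ_[p] _ hx
  rw [hadj]
  exact fprop_flat_K0 p K0 hK0 hpts r hr

end Values

end Fermat.Agent.S56lib.Lift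

namespace Fermat.Agent.S56lib.Flat

open IntermediateField GaloisRep WithConv Fermat.Agent.S56lib.Lift

variable {p : ℕ} [hp : Fact p.Prime]

/-- **(FB′)**: a flat representation over a finite local ring killed by `p` is trivial on the
absolute Galois group of a finite normal Fontaine-bounded extension of `ℚ_p`. -/
theorem exists_bdd_of_isFlatAt {A : Type} [CommRing A] [IsLocalRing A] [Finite A]
    (ρ : GaloisRepAdic A) (hfl : ρ.IsFlatAt p) (hkill : ((p : ℕ) : A) = 0) :
    ∃ L : IntermediateField ℚ_[p] (PadicAlgCl p), FiniteDimensional ℚ_[p] L ∧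
      Normal ℚ_[p] L ∧ IsBdd p L ∧
      ∀ g ∈ L.fixingSubgroup, ρ.ρ (localGaloisToGlobal p g) = 1 := by
  obtain ⟨-, hI⟩ := hfl
  have hfinq : Finite (A ⧸ (⊥ : Ideal A)) :=
    Finite.of_surjective (Ideal.Quotient.mk (⊥ : Ideal A)) Ideal.Quotient.mk_surjective
  obtain ⟨H, _, _, hfin, hflat, -, e, hadd, hequiv⟩ := hI ⊥ hfinq
  haveI := hfin
  haveI := hflat
  haveI : Finite ρ.V := Module.finite_of_finite A
  haveI : Finite (ρ.V ⧸ ((⊥ : Ideal A) • (⊤ : Submodule A ρ.V))) :=
    Finite.of_surjective _ (Submodule.mkQ_surjective _)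
  haveI : Finite (H →ₐ[ratLocalizedAt p] AlgebraicClosure ℚ) :=
    Finite.of_equiv _ (e.symm.trans (WithConv.equiv _))
  have hkillX : ∀ x : ρ.V ⧸ ((⊥ : Ideal A) • (⊤ : Submodule A ρ.V)), p • x = 0 := by
    intro x
    rw [← Nat.cast_smul_eq_nsmul A, hkill, zero_smul]
  have hpts := hpts_of_kill p e hadd hkillX
  refine ⟨valueField p H, finiteDimensional_valueField p, normal_valueField p,
    isBdd_valueField p hpts, ?_⟩
  intro g hg
  have hfix := comp_eq_of_mem_fixingSubgroup p g hg
  -- `levelAction ⊥ σ` is the identity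
  have hact : ∀ x : ρ.V ⧸ ((⊥ : Ideal A) • (⊤ : Submodule A ρ.V)),
      ρ.levelAction ⊥ (localGaloisToGlobal p g) x = x := by
    intro x
    obtain ⟨f, rfl⟩ := e.surjective x
    exact (hequiv (localGaloisToGlobal p g) f f (fun h => (hfix f.ofConv h).symm)).symm
  ext v
  have h1 := hact (Submodule.Quotient.mk v)
  have h2 : ρ.levelAction ⊥ (localGaloisToGlobal p g) (Submodule.Quotient.mk v) =
      Submodule.Quotient.mk (ρ.ρ (localGaloisToGlobal p g) v) := rfl
  rw [h2, Submodule.Quotient.eq, Submodule.bot_smul, Submodule.mem_bot, sub_eq_zero] at h1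
  rw [h1]
  rfl

end Fermat.Agent.S56lib.Flat
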