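/-
S56lib / Lift / FBTot (helper6).
`TotRam` over a finite absolutely unramified `K₀ : IntermediateField ℚ_[p] (PadicAlgCl p)`:
any finite `L' / K₀` with an element `π`, `‖π‖ ^ [L' : K₀] = ‖p‖`, is totally ramified in the sense
of `Ram.TotRam` (Galois invariance of the norm = uniqueness of the norm over the complete `K₀`).
-/
import Fermat.Agent.S56lib.Lift.FB

set_option autoImplicit false
set_option linter.unusedSectionVars false

open scoped NormedField Valued NNReal

noncomputable section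

namespace Fermat.Agent.S56lib.Lift

open IntermediateField Fermat.Agent.S55lib.LocalUnr Fermat.Agent.S56lib.Ram

variable (p : ℕ) [hp : Fact p.Prime] (K0 : IntermediateField ℚ_[p] (PadicAlgCl p))
  [FiniteDimensional ℚ_[p] K0]

/-- **`TotRam` over `K₀`** -/
theorem totRam_K0
    (hval : ∀ x : K0, x ≠ 0 →
      ∃ n : ℤ, ‖(x : PadicAlgCl p)‖ = ‖((p : ℕ) : PadicAlgCl p)‖ ^ n)
    (L' : IntermediateField K0 (PadicAlgCl p)) [FiniteDimensional K0 L'] (π : L')
    (hπ : ‖(π : PadicAlgCl p)‖ ^ Module.finrank K0 L' = ‖((p : ℕ) : PadicAlgCl p)‖) :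
    TotRam ((p : ℕ) : K0) L' π := by
  have h0 : TotRam0 ((p : ℕ) : K0) L' π :=
    ⟨isUnif_K0 p K0 hval, by rw [hπ, norm_natCast_K0, norm_natCast_padicAlgCl]⟩
  refine ⟨h0, ?_⟩
  intro σ x
  have := norm_algEquiv K0 L' σ x
  exact this

end Fermat.Agent.S56lib.Lift
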