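/-
S56lib / Lift / ResK (helper6).
Restriction `Gal(L'/K₀) → Gal(K/F)` for `K` normal over `F`, where `K₀, K` are intermediate fields
of `Ω / F` and `L'` is an intermediate field of `Ω / K₀` containing `K` (no compatibility of the
ambient algebra structures needed beyond the tower `F ≤ K₀ ≤ Ω`).
* `resHom`, `coe_resHom_apply`, `mem_ker_resHom`, `index_ker_resHom_dvd`.
-/
import Mathlib

set_option autoImplicit false
set_option linter.unusedSectionVars false

noncomputable section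

namespace Fermat.Agent.S56lib.Lift

open IntermediateField

variable {F Ω : Type*} [Field F] [Field Ω] [Algebra F Ω]
  (K : IntermediateField F Ω) [Normal F K] (K0 : IntermediateField F Ω)
  (L' : IntermediateField K0 Ω) (hKL : ∀ x ∈ K, x ∈ L')

/-- the `F`-algebra hom `K → Ω` induced by `σ ∈ Gal(L'/K₀)` -/
def resAlgHom (σ : L' ≃ₐ[K0] L') : K →ₐ[F] Ω where
  toFun x := ((σ ⟨(x : Ω), hKL x x.2⟩ : L') : Ω)
  map_one' := by
    have h1 : (⟨((1 : K) : Ω), hKL _ (1 : K).2⟩ : L') = 1 := rfl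
    rw [h1, map_one]
    rfl
  map_mul' x y := by
    have h1 : (⟨((x * y : K) : Ω), hKL _ (x * y).2⟩ : L') =
        ⟨(x : Ω), hKL x x.2⟩ * ⟨(y : Ω), hKL y y.2⟩ := rfl
    rw [h1, map_mul]
    rfl
  map_zero' := by
    have h1 : (⟨((0 : K) : Ω), hKL _ (0 : K).2⟩ : L') = 0 := rfl
    rw [h1, map_zero]
    rfl
  map_add' x y := by
    have h1 : (⟨((x + y : K) : Ω), hKL _ (x + y).2⟩ : L') =
        ⟨(x : Ω), hKL x x.2⟩ + ⟨(y : Ω), hKL y y.2⟩ := rfl
    rw [h1, map_add]
    rfl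
  commutes' c := by
    have h1 : (⟨((algebraMap F K c : K) : Ω), hKL _ (algebraMap F K c).2⟩ : L') =
        algebraMap K0 L' (algebraMap F K0 c) := rfl
    show ((σ ⟨((algebraMap F K c : K) : Ω), hKL _ (algebraMap F K c).2⟩ : L') : Ω) = _
    rw [h1, σ.commutes]
    rfl

theorem resAlgHom_apply (σ : L' ≃ₐ[K0] L') (x : K) :
    resAlgHom K K0 L' hKL σ x = ((σ ⟨(x : Ω), hKL x x.2⟩ : L') : Ω) := rfl

theorem resAlgHom_mem (σ : L' ≃ₐ[K0] L') (x : K) : resAlgHom K K0 L' hKL σ x ∈ K := by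
  have h1 : (resAlgHom K K0 L' hKL σ).fieldRange = K := AlgHom.fieldRange_of_normal _
  have h2 : ∀ (M : IntermediateField F Ω) (z : Ω), z ∈ M → M = K → z ∈ K := by
    intro M z hz hM
    rw [← hM]
    exact hz
  exact h2 (resAlgHom K K0 L' hKL σ).fieldRange _
    ((AlgHom.mem_fieldRange).2 ⟨x, rfl⟩) h1

/-- the restricted map `K → K` -/
def resFun (σ : L' ≃ₐ[K0] L') (x : K) : K :=
  ⟨resAlgHom K K0 L' hKL σ x, resAlgHom_mem K K0 L' hKL σ x⟩

theorem coe_resFun (σ : L' ≃ₐ[K0] L') (x : K) :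
    ((resFun K K0 L' hKL σ x : K) : Ω) = ((σ ⟨(x : Ω), hKL x x.2⟩ : L') : Ω) := rfl

theorem resFun_mul (σ τ : L' ≃ₐ[K0] L') (x : K) :
    resFun K K0 L' hKL (σ * τ) x = resFun K K0 L' hKL σ (resFun K K0 L' hKL τ x) := by
  apply Subtype.ext
  rw [coe_resFun, coe_resFun, AlgEquiv.mul_apply]
  congr 2

theorem resFun_one (x : K) : resFun K K0 L' hKL 1 x = x := by
  apply Subtype.ext
  rw [coe_resFun, AlgEquiv.one_apply]

/-- **restriction** `Gal(L'/K₀) → Gal(K/F)` -/
def resHom : (L' ≃ₐ[K0] L') →* (K ≃ₐ[F] K) where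
  toFun σ :=
    { toFun := resFun K K0 L' hKL σ
      invFun := resFun K K0 L' hKL σ⁻¹
      left_inv := fun x => by
        rw [← resFun_mul, inv_mul_cancel, resFun_one]
      right_inv := fun x => by
        rw [← resFun_mul, mul_inv_cancel, resFun_one]
      map_mul' := fun x y => Subtype.ext (map_mul (resAlgHom K K0 L' hKL σ) x y)
      map_add' := fun x y => Subtype.ext (map_add (resAlgHom K K0 L' hKL σ) x y)
      commutes' := fun c => Subtype.ext ((resAlgHom K K0 L' hKL σ).commutes c) }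
  map_one' := by
    ext x
    exact congrArg Subtype.val (resFun_one K K0 L' hKL x)
  map_mul' σ τ := by
    ext x
    exact congrArg Subtype.val (resFun_mul K K0 L' hKL σ τ x)

theorem coe_resHom_apply (σ : L' ≃ₐ[K0] L') (x : K) :
    ((resHom K K0 L' hKL σ x : K) : Ω) = ((σ ⟨(x : Ω), hKL x x.2⟩ : L') : Ω) := rfl

theorem mem_ker_resHom (σ : L' ≃ₐ[K0] L') :
    σ ∈ (resHom K K0 L' hKL).ker ↔ ∀ (x : Ω) (hx : x ∈ K), σ ⟨x, hKL x hx⟩ = ⟨x, hKL x hx⟩ := by
  rw [MonoidHom.mem_ker]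
  constructor
  · intro h x hx
    apply Subtype.ext
    have h1 := coe_resHom_apply K K0 L' hKL σ ⟨x, hx⟩
    rw [h] at h1
    exact h1.symm
  · intro h
    ext x
    rw [coe_resHom_apply, h x x.2]
    rfl

/-- the index of the kernel divides `[K : F]` -/
theorem index_ker_resHom_dvd [FiniteDimensional F K] [IsGalois F K] :
    (resHom K K0 L' hKL).ker.index ∣ Module.finrank F K := by
  rw [Subgroup.index_ker, ← IsGalois.card_aut_eq_finrank F K]
  exact Subgroup.card_subgroup_dvd_card _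

end Fermat.Agent.S56lib.Lift
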