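/-
S56lib / Lift / B4 (helper6).
**(B4): a bounded Kummer radical over a tame field has level `≥ e`.**
`K ≤ L` finite Galois over `ℚ_p` inside `PadicAlgCl p`, `p ∤ [K : ℚ_p]`, `ζ_p ∈ K`, `L` bounded
(Fontaine's property over every finite absolutely unramified `K₀`), `y ∈ L` with `y ^ p ∈ K`.
Then `y ^ p` is, modulo `p`-th powers of `K`, congruent to `1` modulo `p`.
-/
import Fermat.Agent.S56lib.Lift.FBTot
import Fermat.Agent.S56lib.Lift.ResK
import Fermat.Agent.S56lib.Ram.KummerBreak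
import Fermat.Agent.S56lib.Kum.Struct
import Fermat.Agent.S56lib.Kum.Levels

set_option autoImplicit false
set_option linter.unusedSectionVars false
set_option linter.style.haveILetI false

open scoped NormedField Valued NNReal

noncomputable section

namespace Fermat.Agent.S56lib.Lift

open IntermediateField Fermat.Agent.S55lib.LocalUnr Fermat.Agent.S56lib.Ram
  Fermat.Agent.S56lib

variable (p : ℕ) [hp : Fact p.Prime]

/-- **(B4)** -/
theorem exists_mul_pow_close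
    (K L : IntermediateField ℚ_[p] (PadicAlgCl p)) [FiniteDimensional ℚ_[p] K]
    [FiniteDimensional ℚ_[p] L] [IsGalois ℚ_[p] K] [IsGalois ℚ_[p] L] (hKL : K ≤ L)
    (hdeg : ¬ p ∣ Module.finrank ℚ_[p] K)
    {ζ : PadicAlgCl p} (hζ : IsPrimitiveRoot ζ p) (hζK : ζ ∈ K)
    (hbdd : ∀ (K0 : IntermediateField ℚ_[p] (PadicAlgCl p)) [FiniteDimensional ℚ_[p] K0],
      (∀ x : K0, x ≠ 0 → ∃ n : ℤ, ‖(x : PadicAlgCl p)‖ = ‖((p : ℕ) : PadicAlgCl p)‖ ^ n) →
      ∀ r : ℝ, r ^ (p - 1) < ‖((p : ℕ) : PadicAlgCl p)‖ ^ p →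
        Fprop ((p : ℕ) : K0) r (IntermediateField.adjoin K0 (L : Set (PadicAlgCl p))))
    {y : PadicAlgCl p} (hyL : y ∈ L) (hy0 : y ≠ 0) (hyK : y ^ p ∈ K) :
    ∃ w : PadicAlgCl p, w ∈ K ∧ w ≠ 0 ∧
      ‖y ^ p * w ^ p - 1‖ ≤ ‖((p : ℕ) : PadicAlgCl p)‖ := by
  have hpp : p.Prime := hp.out
  obtain ⟨K0, h, π, hfd, hgal, hval, hπL, hπnorm, -⟩ := Kum.exists_maxUnramified_padic p L
  haveI := hfd
  set L' : IntermediateField K0 (PadicAlgCl p) := IntermediateField.extendScalars h with hL'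
  haveI : FiniteDimensional ℚ_[p] L' := (inferInstance : FiniteDimensional ℚ_[p] L)
  haveI : FiniteDimensional K0 L' := FiniteDimensional.right ℚ_[p] K0 L'
  haveI : IsGalois ℚ_[p] L' := (inferInstance : IsGalois ℚ_[p] L)
  haveI : IsGalois K0 L' := IsGalois.tower_top_of_isGalois ℚ_[p] K0 L'
  have hTR : TotRam ((p : ℕ) : K0) L' ⟨π, hπL⟩ := totRam_K0 p K0 hval L' ⟨π, hπL⟩ hπnorm
  -- Fontaine's property for `L'`
  have hadj : IntermediateField.adjoin K0 (L : Set (PadicAlgCl p)) = L' := by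
    apply le_antisymm
    · rw [IntermediateField.adjoin_le_iff]
      intro x hx
      exact hx
    · intro x hx
      exact IntermediateField.subset_adjoin K0 _ hx
  have hF : ∀ r : ℝ, r ^ (p - 1) < ‖((p : ℕ) : K0)‖ ^ p → Fprop ((p : ℕ) : K0) r L' := by
    intro r hr
    rw [← hadj]
    apply hbdd K0 hval r
    rwa [norm_natCast_K0, ← norm_natCast_padicAlgCl] at hr
  -- the subgroup `H`
  have hKL' : ∀ x ∈ K, x ∈ L' := fun x hx => hKL hx
  set H : Subgroup (L' ≃ₐ[K0] L') := (resHom K K0 L' hKL').ker with hH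
  haveI : H.Normal := MonoidHom.normal_ker _
  have hidx : H.index ∣ Module.finrank ℚ_[p] K := index_ker_resHom_dvd K K0 L' hKL'
  have hndvd : ¬ p ∣ H.index := fun hd => hdeg (hd.trans hidx)
  have hcop : Nat.Coprime H.index p := by
    rw [Nat.coprime_comm, hpp.coprime_iff_not_dvd]
    exact hndvd
  have hpK0 : ‖((p : ℕ) : K0)‖ < 1 := (isUnif_K0 p K0 hval).lt_one
  have hHt : ∀ σ : L' ≃ₐ[K0] L', σ ∉ H →
      TotRam.dsub (π := (⟨π, hπL⟩ : L')) σ = ‖((⟨π, hπL⟩ : L') : PadicAlgCl p)‖ :=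
    fun σ hσ => hTR.dsub_eq_of_not_mem hpp hpK0 H hcop σ hσ
  have hHmem : ∀ σ ∈ H, ∀ (x : PadicAlgCl p) (hx : x ∈ K),
      σ ⟨x, hKL' x hx⟩ = ⟨x, hKL' x hx⟩ :=
    fun σ hσ => (mem_ker_resHom K K0 L' hKL' σ).1 hσ
  obtain ⟨ϖ', hϖfix, hϖnorm⟩ := hTR.exists_unif_fixed H
  have h0 := hTR.totRam0_fixedLift H ϖ' hϖfix hϖnorm
  have hϖpos : 0 < ‖ϖ'‖ := h0.npos
  have hϖlt : ‖ϖ'‖ < 1 := h0.nlt_one
  have hnpow : ‖ϖ'‖ ^ Module.finrank K0 (TotRam.fixedLift H) = ‖((p : ℕ) : K0)‖ := h0.npow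
  have he'idx : Module.finrank K0 (TotRam.fixedLift H) = H.index := by
    have h1 := TotRam.finrank_fixedLift (K := K0) (L := L') H
    have h2 : Nat.card (L' ≃ₐ[K0] L') = Module.finrank K0 L' :=
      IsGalois.card_aut_eq_finrank K0 L'
    have h3 := H.index_mul_card
    have hpos : 0 < Nat.card H := Nat.card_pos
    rw [← h2, ← h3] at h1
    exact Nat.eq_of_mul_eq_mul_right hpos h1
  -- the root of unity
  set ζL : L' := ⟨ζ, hKL' ζ hζK⟩ with hζL
  have hζLprim : IsPrimitiveRoot ζL p :=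
    IsPrimitiveRoot.of_map_of_injective (f := algebraMap L' (PadicAlgCl p)) hζ
      (algebraMap L' (PadicAlgCl p)).injective
  have hζfix : ∀ σ ∈ H, σ ζL = ζL := fun σ hσ => hHmem σ hσ ζ hζK
  -- normal form in `K`
  have hpK : ‖((p : ℕ) : K)‖ < 1 := by
    have h1 : ‖((p : ℕ) : K)‖ = ‖((p : ℕ) : K0)‖ := by
      rw [norm_natCast_K0, norm_natCast_K0]
    rw [h1]
    exact hpK0
  have hp0 : ((p : ℕ) : K) ≠ 0 := by exact_mod_cast hpp.ne_zero
  set uK : K := ⟨y ^ p, hyK⟩ with huK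
  have hu0 : uK ≠ 0 := by
    intro hc
    have h1 : y ^ p = 0 := congrArg Subtype.val hc
    exact pow_ne_zero p hy0 h1
  obtain ⟨w, hw0, hNF⟩ := Kum.exists_mul_pow_isKummerNF (K := K) hpp hpK hp0 hu0
  have hwΩ : (w : PadicAlgCl p) ≠ 0 := by
    intro hc
    exact hw0 (Subtype.ext hc)
  refine ⟨(w : PadicAlgCl p), w.2, hwΩ, ?_⟩
  set v : K := uK * w ^ p with hv
  have hgoal : y ^ p * (w : PadicAlgCl p) ^ p - 1 = ((v - 1 : K) : PadicAlgCl p) := by
    rw [hv, huK]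
    simp
  rw [hgoal]
  show ‖v - 1‖ ≤ _
  have hpΩ : ‖((p : ℕ) : PadicAlgCl p)‖ = ‖((p : ℕ) : K)‖ := by
    rw [norm_natCast_K0, norm_natCast_padicAlgCl]
  rw [hpΩ]
  -- the radical in `L'`
  set y' : L' := ⟨y * (w : PadicAlgCl p), L.mul_mem hyL (hKL w.2)⟩ with hy'
  have hy'0 : y' ≠ 0 := by
    intro hc
    have h1 : y * (w : PadicAlgCl p) = 0 := congrArg Subtype.val hc
    exact mul_ne_zero hy0 hwΩ h1
  have hy'p : y' ^ p = ⟨(v : PadicAlgCl p), hKL' _ v.2⟩ := by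
    apply Subtype.ext
    rw [hy', hv, huK]
    simp [mul_pow]
  have hyfix : ∀ σ ∈ H, σ (y' ^ p) = y' ^ p := by
    intro σ hσ
    rw [hy'p]
    exact hHmem σ hσ _ v.2
  -- norms of elements of `K` as powers of `‖ϖ'‖`
  have hunif0 : (unif K : K) ≠ 0 := (unif_isUniformizer K).ne_zero
  obtain ⟨f, hf⟩ := TotRam.norm_eq_zpow_of_fixed hTR H hϖfix hϖnorm
    (⟨((unif K : K) : PadicAlgCl p), hKL' _ (unif K).2⟩ : L')
    (fun σ hσ => hHmem σ hσ _ (unif K).2)
    (by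
      intro hc
      have hc' : ((unif K : K) : PadicAlgCl p) = 0 :=
        congrArg (fun z : L' => (z : PadicAlgCl p)) hc
      exact hunif0 (Subtype.ext hc'))
  have hf' : unifNorm K = ‖ϖ'‖ ^ f := hf
  have hKnorm : ∀ x : K, x ≠ 0 → ‖x‖ = ‖ϖ'‖ ^ (f * ord K x) := by
    intro x hx
    rw [norm_eq_zpow_ord hx, hf', zpow_mul]
  have hfe : f * ord K ((p : ℕ) : K) = (H.index : ℤ) := by
    have h1 := hKnorm _ hp0
    have h2 : ‖((p : ℕ) : K)‖ = ‖((p : ℕ) : K0)‖ := by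
      rw [norm_natCast_K0, norm_natCast_K0]
    rw [h2, ← hnpow, he'idx, ← zpow_natCast] at h1
    exact (zpow_injective_of_lt_one hϖpos hϖlt h1).symm
  have hpf : ¬ (p : ℤ) ∣ f := by
    intro hd
    have h1 : (p : ℤ) ∣ (H.index : ℤ) := by
      rw [← hfe]
      exact Dvd.dvd.mul_right hd _
    exact hndvd (by exact_mod_cast h1)
  have hpprime : Prime (p : ℤ) := Nat.prime_iff_prime_int.mp hpp
  have hUpos := unifNorm_pos K
  have hUlt := unifNorm_lt_one K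
  have hordp : 0 < ord K ((p : ℕ) : K) := Kum.ord_pos_of_norm_lt_one hp0 hpK
  have hv0 : v ≠ 0 := mul_ne_zero hu0 (pow_ne_zero _ hw0)
  have hcoe1 : ∀ z : L', ‖z‖ = ‖(z : PadicAlgCl p)‖ := fun z => rfl
  have hy'norm : ‖y' ^ p‖ = ‖v‖ := by rw [hy'p]; rfl
  have hy'sub : ‖y' ^ p - 1‖ = ‖v - 1‖ := by rw [hy'p]; rfl
  have hpL' : ‖((p : ℕ) : L')‖ = ‖((p : ℕ) : K)‖ := by
    rw [hcoe1, ← hpΩ]
    simp
  rcases hNF with hval' | hunit | htop
  · -- valuation case: impossible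
    exfalso
    refine hTR.kummer_val_false hpp hF H hHt hϖfix hϖnorm hζLprim hζfix hyfix hy'0
      (f * ord K v) ?_ ?_
    · rw [hy'norm, hKnorm v hv0]
    · intro hd
      rcases hpprime.dvd_or_dvd hd with h1 | h1
      · exact hpf h1
      · exact hval' h1
  · -- unit case
    obtain ⟨hv1, hvne, hndvd', hlt⟩ := hunit
    have hv10 : v - 1 ≠ 0 := sub_ne_zero.2 hvne
    have hb := hTR.kummer_unit_bound hpp hF H hHt hϖfix hϖnorm hζLprim hζfix hyfix
      (by rw [hy'sub]; exact hv1) ?_ (f * ord K (v - 1))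
      (by rw [hy'sub, hKnorm _ hv10]) ?_
    · rw [hy'sub, hpL'] at hb
      exact hb
    · rw [hy'sub, hpL', norm_eq_zpow_ord hp0, norm_eq_zpow_ord hv10, ← zpow_natCast,
        ← zpow_natCast, ← zpow_mul, ← zpow_mul, zpow_lt_zpow_iff_of_lt_one hUpos hUlt]
      have hp1' : ((p - 1 : ℕ) : ℤ) = (p : ℤ) - 1 := by
        have := hpp.one_lt
        omega
      rw [hp1']
      linarith
    · intro hd
      rcases hpprime.dvd_or_dvd hd with h1 | h1
      · exact hpf h1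
      · exact hndvd' h1
  · -- top case
    rcases htop with hv1 | ⟨hv1, hge⟩
    · rw [hv1, sub_self, norm_zero]
      exact norm_nonneg _
    · by_cases hvne : v = 1
      · rw [hvne, sub_self, norm_zero]
        exact norm_nonneg _
      have hv10 : v - 1 ≠ 0 := sub_ne_zero.2 hvne
      rw [norm_eq_zpow_ord hp0, norm_eq_zpow_ord hv10,
        zpow_le_zpow_iff_of_lt_one hUpos hUlt]
      have hp2 : (2 : ℤ) ≤ p := by exact_mod_cast hpp.two_le
      nlinarith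

end Fermat.Agent.S56lib.Lift
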