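/-
S56lib / Lift / B4Flat (helper6).
**(B4)** in helper3's `Flat` vocabulary: `Flat.exists_pow_close`.
-/
import Fermat.Agent.S56lib.Lift.B4
import Fermat.Agent.S56lib.Flat.Defs

set_option autoImplicit false
set_option linter.unusedSectionVars false
set_option linter.style.haveILetI false

noncomputable section

namespace Fermat.Agent.S56lib.Flat

open IntermediateField Fermat.Agent.S56lib

variable {p : ℕ} [hp : Fact p.Prime]

/-- **(B4)**: a bounded Kummer radical of an element of a tame Galois field `K ∋ ζ_p` is, modulo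
`p`-th powers of `K`, congruent to `1` modulo `p`. -/
theorem exists_pow_close (hp2 : p ≠ 2) (L K : IntermediateField ℚ_[p] (PadicAlgCl p))
    [FiniteDimensional ℚ_[p] L] [Normal ℚ_[p] L] [FiniteDimensional ℚ_[p] K] [Normal ℚ_[p] K]
    (hKL : K ≤ L) (hdeg : ¬ p ∣ Module.finrank ℚ_[p] K) {ζ : PadicAlgCl p}
    (hζ : IsPrimitiveRoot ζ p) (hζK : ζ ∈ K) (hbdd : IsBdd p L) (u y : PadicAlgCl p)
    (hu : u ∈ K) (hu0 : u ≠ 0) (hy : y ∈ L) (hyu : y ^ p = u) :
    ∃ w ∈ K, w ≠ 0 ∧ ‖u * w ^ p - 1‖ ≤ ‖(p : PadicAlgCl p)‖ := by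
  haveI : IsGalois ℚ_[p] K := ⟨⟩
  haveI : IsGalois ℚ_[p] L := ⟨⟩
  have hy0 : y ≠ 0 := by
    rintro rfl
    rw [zero_pow hp.out.ne_zero] at hyu
    exact hu0 hyu.symm
  obtain ⟨w, hwK, hw0, hw⟩ := Lift.exists_mul_pow_close p K L hKL hdeg hζ hζK
    (fun K0 _ hK0 r hr => hbdd K0 hK0 r hr) hy hy0 (by rw [hyu]; exact hu)
  exact ⟨w, hwK, hw0, by rw [← hyu]; exact hw⟩

end Fermat.Agent.S56lib.Flat
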