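/-
S56lib / Lift / TD (helper6).
**(TD)**: the tame data `τ, φ, n, N` of a tame Galois `K ∋ ζ_p`, valid for every bounded normal
`L ⊇ K`: `Flat.exists_tameData`.  Glue of helper3's `Flat/Setup` (`TameSetup`), `Kum/TameP`
(`exists_tame_lift`, `exists_frobenius_lift`), helper7's `PT9a/TameStruct` ((a)–(d)) and (B4).
-/
import Fermat.Agent.S56lib.Lift.B4Flat
import Fermat.Agent.S56lib.Flat.Setup
import Fermat.Agent.S56lib.PT9a.TameStruct

set_option autoImplicit false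
set_option linter.unusedSectionVars false
set_option linter.style.haveILetI false

open scoped NormedField Valued NNReal

noncomputable section

namespace Fermat.Agent.S56lib.Flat

open IntermediateField Fermat.Agent.S56lib Fermat.Agent.S56lib.Kum Fermat.Agent.S55lib
  Fermat.Agent.S55lib.LocalUnr

variable {p : ℕ} [hp : Fact p.Prime]

/-- (B4) in `HasB4` form -/
theorem hasB4_of_isBdd (hp2 : p ≠ 2) (L K : IntermediateField ℚ_[p] (PadicAlgCl p))
    [FiniteDimensional ℚ_[p] L] [Normal ℚ_[p] L] [FiniteDimensional ℚ_[p] K] [Normal ℚ_[p] K]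
    (hKL : K ≤ L) (hdeg : ¬ p ∣ Module.finrank ℚ_[p] K) {ζ : PadicAlgCl p}
    (hζ : IsPrimitiveRoot ζ p) (hζK : ζ ∈ K) (hbdd : IsBdd p L) : HasB4 L K := by
  intro y hyL hy0 hyK
  exact exists_pow_close hp2 L K hKL hdeg hζ hζK hbdd (y ^ p) y hyK (pow_ne_zero _ hy0) hyL rfl

/-- **(TD)** -/
theorem exists_tameData (hp2 : p ≠ 2) (K : IntermediateField ℚ_[p] (PadicAlgCl p))
    [FiniteDimensional ℚ_[p] K] [Normal ℚ_[p] K] (hdeg : ¬ p ∣ Module.finrank ℚ_[p] K)
    {ζ : PadicAlgCl p} (hζ : IsPrimitiveRoot ζ p) (hζK : ζ ∈ K) :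
    ∃ (τ φ : PadicAlgCl p ≃ₐ[ℚ_[p]] PadicAlgCl p) (n N : ℕ),
      ∀ (L : IntermediateField ℚ_[p] (PadicAlgCl p)) [FiniteDimensional ℚ_[p] L]
        [Normal ℚ_[p] L], K ≤ L → IsBdd p L → TameSetup K L ζ τ φ n N := by
  obtain ⟨τ, hτres, hτord⟩ := exists_tame_lift K hdeg
  obtain ⟨φ, hφ⟩ := exists_frobenius_lift K
  obtain ⟨n, N, hn, hnN⟩ := exists_cycloExp hζ τ
  have hτ : IsTameGen K τ := ⟨hτres, by rw [← hτord, ← orderOf_units, Units.val_mk0]⟩
  refine ⟨τ, φ, n, N, ?_⟩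
  intro L _ _ hKL hbdd
  exact
    { hKL := hKL
      hζ := hζ
      hζK := hζK
      hB4 := hasB4_of_isBdd hp2 L K hKL hdeg hζ hζK hbdd
      hdeg := hdeg
      hτ := hτ
      hn := hn
      hnN := hnN
      hφ := hφ
      hfrob := PT9a.exists_resG_eq_pow K
      hgenτ := PT9a.exists_mul_pow_inv_mem_fixingSubgroup K hdeg hτres hτord
      hgenφ := PT9a.exists_resMap_mul_pow_inv K hφ
      hcomm := PT9a.conj_mul_pow_inv_mem_fixingSubgroup K hdeg hτres hφ }

end Fermat.Agent.S56lib.Flat
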