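/-
S56lib / Lift / IrrCase (helper6).
**The irreducible case of the flat count at `p`**, assembled from
(I-front) [tame field cut out by an irreducible `r`], (TD) [tame data], (I-mid) [diagonal /
antidiagonal normal form] and the irreducible count `TameSetup.card_Zad_le_of_irr`, the last three
as hypotheses in `exists_good_of_irreducible_aux` (their final statements are plugged in
`Lift/IrrFinal.lean`).
-/
import Fermat.Agent.S56lib.Lift.TD
import Fermat.Agent.S56lib.Tame.CEArith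
import Fermat.Agent.S56lib.PT9a.Tri

set_option autoImplicit false
set_option linter.unusedSectionVars false
set_option linter.style.haveILetI false

open scoped NormedField Valued NNReal

noncomputable section

namespace Fermat.Agent.S56lib.Flat

open IntermediateField Polynomial Matrix Fermat.Agent.S56lib Fermat.Agent.S56lib.Kum
  Fermat.Agent.S55lib Fermat.Agent.S55lib.LocalUnr

variable {p : ℕ} [hp : Fact p.Prime] {k : Type*} [Field k]

/-- the exponent `n` of a tame generator agrees with `cycloN` in `k` -/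
theorem natCast_eq_cycloN [CharP k p] {ζ : PadicAlgCl p} (hζ : IsPrimitiveRoot ζ p)
    {τ : PadicAlgCl p ≃ₐ[ℚ_[p]] PadicAlgCl p} {n : ℕ} (hn : τ ζ = ζ ^ n) :
    ((Tame.cycloN p τ : ℕ) : k) = (n : k) := by
  have h1 : ζ ^ Tame.cycloN p τ = ζ ^ n := by
    rw [← Tame.apply_eq_pow_cycloN p τ ζ hζ.pow_eq_one, hn]
  have hfin : IsOfFinOrder ζ :=
    isOfFinOrder_iff_pow_eq_one.2 ⟨p, hp.out.pos, hζ.pow_eq_one⟩
  have h2 := hfin.pow_eq_pow_iff_modEq.1 h1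
  rw [← hζ.eq_orderOf] at h2
  exact (CharP.natCast_eq_natCast k p).2 h2

/-- **the irreducible case**, with the three inputs as hypotheses -/
theorem exists_good_of_irreducible_aux (hp2 : p ≠ 2) [Finite k] [CharP k p]
    (rb : (AlgebraicClosure ℚ ≃ₐ[ℚ] AlgebraicClosure ℚ) →* Matrix (Fin 2) (Fin 2) k)
    (hsplit : ∀ g : PadicAlgCl p ≃ₐ[ℚ_[p]] PadicAlgCl p, ∃ α β : k,
      (rb (localGaloisToGlobal p g)).charpoly = (X - C α) * (X - C β))
    (hdet : ∀ g : PadicAlgCl p ≃ₐ[ℚ_[p]] PadicAlgCl p,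
      (rb (localGaloisToGlobal p g)).det = ((Tame.cycloN p g : ℕ) : k))
    (L₀ : IntermediateField ℚ_[p] (PadicAlgCl p)) [FiniteDimensional ℚ_[p] L₀]
    [Normal ℚ_[p] L₀] (hL₀ : IsBdd p L₀) (hμ : ∀ ζ : PadicAlgCl p, ζ ^ p = 1 → ζ ∈ L₀)
    (hr : ∀ g ∈ L₀.fixingSubgroup, rb (localGaloisToGlobal p g) = 1)
    (hirr : ∀ v : Fin 2 → k, v ≠ 0 → ∃ g : PadicAlgCl p ≃ₐ[ℚ_[p]] PadicAlgCl p,
      ∀ c : k, rb (localGaloisToGlobal p g) *ᵥ v ≠ c • v)
    -- (I-front)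
    (hIfront : ∀ {ζ : PadicAlgCl p}, IsPrimitiveRoot ζ p → ζ ∈ L₀ →
      ∃ K : IntermediateField ℚ_[p] (PadicAlgCl p), ∃ (_ : FiniteDimensional ℚ_[p] K)
        (_ : Normal ℚ_[p] K), K ≤ L₀ ∧ ¬ p ∣ Module.finrank ℚ_[p] K ∧ ζ ∈ K ∧
          ∀ g ∈ K.fixingSubgroup, (rb.comp (localGaloisToGlobal p)) g = 1)
    -- (I-mid)
    (hImid : ∀ (K L : IntermediateField ℚ_[p] (PadicAlgCl p)) [FiniteDimensional ℚ_[p] K]
      [Normal ℚ_[p] K] [FiniteDimensional ℚ_[p] L] (ζ : PadicAlgCl p)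
      (τ φ : PadicAlgCl p ≃ₐ[ℚ_[p]] PadicAlgCl p) (n N : ℕ), TameSetup K L ζ τ φ n N →
      (∀ g ∈ K.fixingSubgroup, (rb.comp (localGaloisToGlobal p)) g = 1) →
      ∃ (P : Matrix (Fin 2) (Fin 2) k) (α β b c : k), IsUnit P ∧ α ≠ β ∧
        P * (rb.comp (localGaloisToGlobal p)) τ * P⁻¹ = Matrix.diagonal ![α, β] ∧
        P * (rb.comp (localGaloisToGlobal p)) φ * P⁻¹ = !![0, b; c, 0] ∧
        β = α ^ p ∧ α = β ^ p)
    -- the irreducible count
    (hIrr : ∀ (K L : IntermediateField ℚ_[p] (PadicAlgCl p)) [FiniteDimensional ℚ_[p] K]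
      [Normal ℚ_[p] K] [FiniteDimensional ℚ_[p] L] (ζ : PadicAlgCl p)
      (τ φ : PadicAlgCl p ≃ₐ[ℚ_[p]] PadicAlgCl p) (n N : ℕ), TameSetup K L ζ τ φ n N →
      ∀ (r : (PadicAlgCl p ≃ₐ[ℚ_[p]] PadicAlgCl p) →* Matrix (Fin 2) (Fin 2) k),
      (∀ g ∈ K.fixingSubgroup, r g = 1) → ∀ {α β b c : k}, α ≠ β →
      r τ = Matrix.diagonal ![α, β] → r φ = !![0, b; c, 0] → β = α ^ p → α = β ^ p →
      α * β = (n : k) → Nat.card (Zad r L.fixingSubgroup) ≤ Nat.card k ^ 4) :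
    ∀ (L : IntermediateField ℚ_[p] (PadicAlgCl p)) [FiniteDimensional ℚ_[p] L]
      [Normal ℚ_[p] L], L₀ ≤ L → IsBdd p L →
      Nat.card ↥(Zad (rb.comp (localGaloisToGlobal p)) L.fixingSubgroup) ≤ Nat.card k ^ 4 := by
  set r : (PadicAlgCl p ≃ₐ[ℚ_[p]] PadicAlgCl p) →* Matrix (Fin 2) (Fin 2) k :=
    rb.comp (localGaloisToGlobal p) with hrdef
  -- a primitive `p`-th root of unity
  haveI : NeZero (p : PadicAlgCl p) := ⟨by exact_mod_cast hp.out.ne_zero⟩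
  obtain ⟨ζ, hζ⟩ := HasEnoughRootsOfUnity.exists_primitiveRoot (PadicAlgCl p) p
  have hζL : ζ ∈ L₀ := hμ ζ hζ.pow_eq_one
  obtain ⟨K, hKfd, hKn, hKL₀, hdeg, hζK, hrK⟩ := hIfront hζ hζL
  haveI := hKfd
  haveI := hKn
  obtain ⟨τ, φ, n, N, hTD⟩ := exists_tameData hp2 K hdeg hζ hζK
  have S₀ := hTD L₀ hKL₀ hL₀
  obtain ⟨P, α, β, b, c, hP, hαβ, hτ, hφ, hβ, hα⟩ := hImid K L₀ ζ τ φ n N S₀ hrK
  have hPdet : IsUnit P.det := (Matrix.isUnit_iff_isUnit_det P).1 hP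
  set r' : (PadicAlgCl p ≃ₐ[ℚ_[p]] PadicAlgCl p) →* Matrix (Fin 2) (Fin 2) k :=
    PT9a.conjHom r P P⁻¹ (Matrix.nonsing_inv_mul P hPdet) with hr'def
  have hr'app : ∀ g, r' g = P * r g * P⁻¹ := fun g => rfl
  have hr'K : ∀ g ∈ K.fixingSubgroup, r' g = 1 := by
    intro g hg
    rw [hr'app, hrK g hg, Matrix.mul_one, Matrix.mul_nonsing_inv P hPdet]
  have hdet' : α * β = (n : k) := by
    have h1 : (r' τ).det = α * β := by
      rw [hr'app, hτ, Matrix.det_diagonal]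
      simp [Fin.prod_univ_two]
    have h2 : (r' τ).det = (r τ).det := by
      rw [hr'app]
      exact Matrix.det_conj hP _
    have h3 : (r τ).det = ((Tame.cycloN p τ : ℕ) : k) := hdet τ
    rw [← h1, h2, h3]
    exact natCast_eq_cycloN hζ S₀.hn
  intro L _ _ hL₀L hbdd
  have S := hTD L (hKL₀.trans hL₀L) hbdd
  have hcount := hIrr K L ζ τ φ n N S r' hr'K hαβ (by rw [hr'app]; exact hτ)
    (by rw [hr'app]; exact hφ) hβ hα hdet'
  rw [← card_Zad_conj hP hr'app]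
  exact hcount

end Fermat.Agent.S56lib.Flat
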