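/-
S56lib / Lift / IrrFinal (helper6).
**The irreducible case of the flat count at `p`**: `Flat.exists_good_of_irreducible_of_front`
= `Lift/IrrCase`'s assembly with (I-mid) [helper8, `PT9/IMid`] and the irreducible count
[helper3's `TameSetup.card_Zad_le_of_irr`, `Flat/Irr`] plugged in; the only
remaining hypothesis is the (I-front) statement.
-/
import Fermat.Agent.S56lib.Lift.IrrCase
import Fermat.Agent.S56lib.PT9.IMid
import Fermat.Agent.S56lib.Flat.Irr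

set_option autoImplicit false
set_option linter.unusedSectionVars false
set_option linter.style.haveILetI false

open scoped NormedField Valued NNReal

noncomputable section

namespace Fermat.Agent.S56lib.Flat

open IntermediateField Polynomial Matrix Fermat.Agent.S56lib Fermat.Agent.S56lib.Kum
  Fermat.Agent.S55lib Fermat.Agent.S55lib.LocalUnr

variable {p : ℕ} [hp : Fact p.Prime] {k : Type*} [Field k]

/-- **the irreducible case**, with only (I-front) as a hypothesis -/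
theorem exists_good_of_irreducible_of_front (hp2 : p ≠ 2) [Finite k] [CharP k p]
    (rb : (AlgebraicClosure ℚ ≃ₐ[ℚ] AlgebraicClosure ℚ) →* Matrix (Fin 2) (Fin 2) k)
    (hsplit : ∀ g : PadicAlgCl p ≃ₐ[ℚ_[p]] PadicAlgCl p, ∃ α β : k,
      (rb (localGaloisToGlobal p g)).charpoly = (X - C α) * (X - C β))
    (hdet : ∀ g : PadicAlgCl p ≃ₐ[ℚ_[p]] PadicAlgCl p,
      (rb (localGaloisToGlobal p g)).det = ((Tame.cycloN p g : ℕ) : k))
    (L₀ : IntermediateField ℚ_[p] (PadicAlgCl p)) [FiniteDimensional ℚ_[p] L₀]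
    [Normal ℚ_[p] L₀] (hL₀ : IsBdd p L₀) (hμ : ∀ ζ : PadicAlgCl p, ζ ^ p = 1 → ζ ∈ L₀)
    (hr : ∀ g ∈ L₀.fixingSubgroup, rb (localGaloisToGlobal p g) = 1)
    (hirr : ∀ v : Fin 2 → k, v ≠ 0 → ∃ g : PadicAlgCl p ≃ₐ[ℚ_[p]] PadicAlgCl p,
      ∀ c : k, rb (localGaloisToGlobal p g) *ᵥ v ≠ c • v)
    (hIfront : ∀ {ζ : PadicAlgCl p}, IsPrimitiveRoot ζ p → ζ ∈ L₀ →
      ∃ K : IntermediateField ℚ_[p] (PadicAlgCl p), ∃ (_ : FiniteDimensional ℚ_[p] K)
        (_ : Normal ℚ_[p] K), K ≤ L₀ ∧ ¬ p ∣ Module.finrank ℚ_[p] K ∧ ζ ∈ K ∧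
          ∀ g ∈ K.fixingSubgroup, (rb.comp (localGaloisToGlobal p)) g = 1) :
    ∀ (L : IntermediateField ℚ_[p] (PadicAlgCl p)) [FiniteDimensional ℚ_[p] L]
      [Normal ℚ_[p] L], L₀ ≤ L → IsBdd p L →
      Nat.card ↥(Zad (rb.comp (localGaloisToGlobal p)) L.fixingSubgroup) ≤ Nat.card k ^ 4 :=
  exists_good_of_irreducible_aux hp2 rb hsplit hdet L₀ hL₀ hμ hr hirr hIfront
    (fun _ _ _ _ _ _ _ _ _ _ S hrK =>
      exists_diag_antidiag hp2 S (rb.comp (localGaloisToGlobal p)) hsplit hirr hrK)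
    (fun _ _ _ _ _ _ _ _ _ _ S r hrK _ _ _ _ hαβ hτ hφ hβ hα hdet' =>
      S.card_Zad_le_of_irr hp2 r hrK hαβ hτ hφ hβ hα hdet')

end Fermat.Agent.S56lib.Flat
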