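/-
S56lib / Lift / IrrGood (helper6).
**The irreducible case of the flat count at `p`** (`Flat.exists_good_of_irreducible`):
`Lift/IrrFinal`'s `exists_good_of_irreducible_of_front` with helper5's (I-front)
`exists_tame_field_of_irr` (`Loc/IrrFront`) plugged in.
-/
import Fermat.Agent.S56lib.Lift.IrrFinal
import Fermat.Agent.S56lib.Loc.IrrFront

set_option autoImplicit false
set_option linter.unusedSectionVars false
set_option linter.style.haveILetI false

open scoped NormedField Valued NNReal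

noncomputable section

namespace Fermat.Agent.S56lib.Flat

open IntermediateField Polynomial Matrix Fermat.Agent.S56lib Fermat.Agent.S56lib.Kum
  Fermat.Agent.S55lib Fermat.Agent.S55lib.LocalUnr

variable {p : ℕ} [hp : Fact p.Prime] {k : Type*} [Field k]

/-- **the irreducible case**: if `rb ∘ l2g` has no stable line, the cocycles of every bounded
level `L ≥ L₀` are at most `#k ^ 4` -/
theorem exists_good_of_irreducible (hp2 : p ≠ 2) [Finite k] [CharP k p]
    (rb : (AlgebraicClosure ℚ ≃ₐ[ℚ] AlgebraicClosure ℚ) →* Matrix (Fin 2) (Fin 2) k)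
    (hsplit : ∀ g : PadicAlgCl p ≃ₐ[ℚ_[p]] PadicAlgCl p, ∃ α β : k,
      (rb (localGaloisToGlobal p g)).charpoly = (X - C α) * (X - C β))
    (hdet : ∀ g : PadicAlgCl p ≃ₐ[ℚ_[p]] PadicAlgCl p,
      (rb (localGaloisToGlobal p g)).det = ((Tame.cycloN p g : ℕ) : k))
    (L₀ : IntermediateField ℚ_[p] (PadicAlgCl p)) [FiniteDimensional ℚ_[p] L₀]
    [Normal ℚ_[p] L₀] (hL₀ : IsBdd p L₀) (hμ : ∀ ζ : PadicAlgCl p, ζ ^ p = 1 → ζ ∈ L₀)
    (hr : ∀ g ∈ L₀.fixingSubgroup, rb (localGaloisToGlobal p g) = 1)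
    (hirr : ∀ v : Fin 2 → k, v ≠ 0 → ∃ g : PadicAlgCl p ≃ₐ[ℚ_[p]] PadicAlgCl p,
      ∀ c : k, rb (localGaloisToGlobal p g) *ᵥ v ≠ c • v) :
    ∀ (L : IntermediateField ℚ_[p] (PadicAlgCl p)) [FiniteDimensional ℚ_[p] L]
      [Normal ℚ_[p] L], L₀ ≤ L → IsBdd p L →
      Nat.card ↥(Zad (rb.comp (localGaloisToGlobal p)) L.fixingSubgroup) ≤ Nat.card k ^ 4 :=
  exists_good_of_irreducible_of_front hp2 rb hsplit hdet L₀ hL₀ hμ hr hirr
    (fun hζ hζL => exists_tame_field_of_irr hp2 (rb.comp (localGaloisToGlobal p)) hsplit hirr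
      L₀ hr hζ hζL)

end Fermat.Agent.S56lib.Flat
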