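/-
S56lib / Lift / Ball (helper6).
The unit ball of an ultrametric normed field as a subring, and the "division by roots"
estimate: a polynomial `G` with coefficients of norm `≤ 1` vanishing at distinct `ρ_i` of norm
`≤ 1` satisfies `‖G(x)‖ ≤ ∏_i ‖x - ρ_i‖` for `‖x‖ ≤ 1`.
-/
import Mathlib

set_option autoImplicit false

noncomputable section

namespace Fermat.Agent.S56lib.Lift

open Polynomial

variable {Ω : Type*} [NormedField Ω] [IsUltrametricDist Ω]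

/-- the unit ball, as a subring -/
def ball (Ω : Type*) [NormedField Ω] [IsUltrametricDist Ω] : Subring Ω where
  carrier := {x | ‖x‖ ≤ 1}
  mul_mem' {a b} ha hb := by
    change ‖a * b‖ ≤ 1
    rw [norm_mul]
    calc ‖a‖ * ‖b‖ ≤ 1 * 1 := mul_le_mul ha hb (norm_nonneg _) zero_le_one
      _ = 1 := one_mul _
  one_mem' := by
    change ‖(1 : Ω)‖ ≤ 1
    rw [norm_one]
  add_mem' {a b} ha hb := by
    change ‖a + b‖ ≤ 1
    exact (IsUltrametricDist.norm_add_le_max a b).trans (max_le ha hb)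
  zero_mem' := by
    change ‖(0 : Ω)‖ ≤ 1
    rw [norm_zero]
    exact zero_le_one
  neg_mem' {a} ha := by
    change ‖-a‖ ≤ 1
    rw [norm_neg]
    exact ha

theorem mem_ball {x : Ω} : x ∈ ball Ω ↔ ‖x‖ ≤ 1 := Iff.rfl

theorem norm_coe_le_one (x : ball Ω) : ‖(x : Ω)‖ ≤ 1 := x.2

theorem norm_le_of_dvd {a b : ball Ω} (h : a ∣ b) : ‖(b : Ω)‖ ≤ ‖(a : Ω)‖ := by
  obtain ⟨c, rfl⟩ := h
  rw [Subring.coe_mul, norm_mul]
  calc ‖(a : Ω)‖ * ‖(c : Ω)‖ ≤ ‖(a : Ω)‖ * 1 :=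
        mul_le_mul_of_nonneg_left c.2 (norm_nonneg _)
    _ = ‖(a : Ω)‖ := mul_one _

/-- **division by roots** over the unit ball -/
theorem norm_eval_le_prod_ball (G : (ball Ω)[X]) {ι : Type*} [Fintype ι] (ρ : ι → ball Ω)
    (hρ : Function.Injective ρ) (hroot : ∀ i, G.eval (ρ i) = 0) (x : ball Ω) :
    ‖((G.eval x : ball Ω) : Ω)‖ ≤ ∏ i, ‖(x : Ω) - (ρ i : Ω)‖ := by
  classical
  by_cases hG : G = 0
  · rw [hG, eval_zero]
    simp only [ZeroMemClass.coe_zero, norm_zero]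
    exact Finset.prod_nonneg (fun i _ => norm_nonneg _)
  have hdvd : ((Finset.univ : Finset ι).val.map (fun i => X - C (ρ i))).prod ∣ G := by
    have h1 := (Multiset.prod_X_sub_C_dvd_iff_le_roots hG
      ((Finset.univ : Finset ι).val.map ρ)).2 (by
        rw [Multiset.le_iff_subset]
        · intro a ha
          obtain ⟨i, -, rfl⟩ := Multiset.mem_map.1 ha
          rw [mem_roots hG]
          exact hroot i
        · exact Multiset.Nodup.map hρ Finset.univ.nodup)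
    rwa [Multiset.map_map] at h1
  obtain ⟨q, hq⟩ := hdvd
  have h2 : G.eval x = (∏ i, (x - ρ i)) * q.eval x := by
    rw [hq, eval_mul]
    congr 1
    change eval x (∏ i, (X - C (ρ i))) = _
    rw [eval_prod]
    apply Finset.prod_congr rfl
    intro i _
    rw [eval_sub, eval_X, eval_C]
  have h3 : ((∏ i, (x - ρ i) : ball Ω) : Ω) = ∏ i, ((x : Ω) - (ρ i : Ω)) := by
    rw [← Subring.coe_subtype, map_prod]
    simp
  have h4 := norm_le_of_dvd (a := ∏ i, (x - ρ i)) (b := G.eval x) ⟨q.eval x, h2⟩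
  rw [h3, norm_prod] at h4
  exact h4

/-- ring homs into `Ω` with image in the unit ball factor through `ball Ω` -/
def toBall {W : Type*} [CommRing W] (φ : W →+* Ω) (hφ : ∀ w, ‖φ w‖ ≤ 1) : W →+* ball Ω :=
  φ.codRestrict (ball Ω) hφ

theorem coe_toBall {W : Type*} [CommRing W] (φ : W →+* Ω) (hφ : ∀ w, ‖φ w‖ ≤ 1) (w : W) :
    ((toBall φ hφ w : ball Ω) : Ω) = φ w := rfl

theorem subtype_comp_toBall {W : Type*} [CommRing W] (φ : W →+* Ω) (hφ : ∀ w, ‖φ w‖ ≤ 1) :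
    (ball Ω).subtype.comp (toBall φ hφ) = φ := rfl

/-- integral polynomials take integral values at integral points -/
theorem norm_eval₂_le_one {W : Type*} [CommRing W] (φ : W →+* Ω) (hφ : ∀ w, ‖φ w‖ ≤ 1)
    (G : W[X]) {x : Ω} (hx : ‖x‖ ≤ 1) : ‖G.eval₂ φ x‖ ≤ 1 := by
  have h1 : G.eval₂ φ x = (((G.map (toBall φ hφ)).eval ⟨x, hx⟩ : ball Ω) : Ω) := by
    rw [← Subring.coe_subtype, eval_map, hom_eval₂, subtype_comp_toBall]
    rfl
  rw [h1]
  exact norm_coe_le_one _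

/-- **division by roots**: `‖G(x)‖ ≤ ∏_i ‖x - ρ_i‖` -/
theorem norm_eval₂_le_prod {W : Type*} [CommRing W] (φ : W →+* Ω) (hφ : ∀ w, ‖φ w‖ ≤ 1)
    (G : W[X]) {ι : Type*} [Fintype ι] (ρ : ι → Ω) (hρ : Function.Injective ρ)
    (hρ1 : ∀ i, ‖ρ i‖ ≤ 1) (hroot : ∀ i, G.eval₂ φ (ρ i) = 0) {x : Ω} (hx : ‖x‖ ≤ 1) :
    ‖G.eval₂ φ x‖ ≤ ∏ i, ‖x - ρ i‖ := by
  have key : ∀ y : Ω, ∀ hy : ‖y‖ ≤ 1,
      G.eval₂ φ y = (((G.map (toBall φ hφ)).eval ⟨y, hy⟩ : ball Ω) : Ω) := by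
    intro y hy
    rw [← Subring.coe_subtype, eval_map, hom_eval₂, subtype_comp_toBall]
    rfl
  rw [key x hx]
  have := norm_eval_le_prod_ball (G.map (toBall φ hφ)) (fun i => (⟨ρ i, hρ1 i⟩ : ball Ω))
    (fun i j hij => hρ (congrArg Subtype.val hij))
    (fun i => by
      apply Subtype.ext
      rw [← key (ρ i) (hρ1 i), hroot i]
      rfl) ⟨x, hx⟩
  exact this

end Fermat.Agent.S56lib.Lift
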