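/-
S56lib / Lift / Eta (helper6).
The `η`-principle.  `L / K` totally ramified Galois with uniformizer `π`, `P = minpoly K π`,
`β ∈ Ω` with `‖β‖ ≤ 1`.  For every polynomial `G` with integral coefficients,
`G(π) = 0 ⇒ ‖G(β)‖ ≤ ‖P(β)‖`; and if `‖P(β)‖ < ‖ϖ‖` then `‖β‖ = ‖π‖`, so that expansions of
degree `< n` in `β` and in `π` have the same norm.
-/
import Fermat.Agent.S56lib.Lift.Ball
import Fermat.Agent.S56lib.Ram.Fprop

set_option autoImplicit false
set_option linter.unusedSectionVars false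

noncomputable section

namespace Fermat.Agent.S56lib.Lift

open Polynomial IntermediateField Fermat.Agent.S56lib.Ram

variable {K Ω : Type*} [NormedField K] [NormedField Ω] [NormedAlgebra K Ω] [IsUltrametricDist Ω]
  {ϖ : K} {L : IntermediateField K Ω} [FiniteDimensional K L] [IsGalois K L] {π : L}
  (h : TotRam ϖ L π)

include h

/-- `‖P(β)‖ < ‖ϖ‖` forces `‖β‖ = ‖π‖` -/
theorem norm_eq_of_norm_aeval_lt {β : Ω} (hβ : ‖aeval β (minpoly K π)‖ < ‖ϖ‖) :
    ‖β‖ = ‖(π : Ω)‖ := by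
  have hprod := h.norm_aeval_eq_prod β
  have hcard : (Finset.univ : Finset (L ≃ₐ[K] L)).card = Module.finrank K L := by
    rw [Finset.card_univ, ← Nat.card_eq_fintype_card, IsGalois.card_aut_eq_finrank K L]
  have hcjn : ∀ σ : L ≃ₐ[K] L, ‖TotRam.cj (π := π) σ‖ = ‖(π : Ω)‖ := fun σ => by
    rw [TotRam.cj_def, h.inv σ π]
  have hn0 := h.finrank_pos
  rcases lt_trichotomy ‖β‖ ‖(π : Ω)‖ with hlt | heq | hgt
  · exfalso
    have h1 : ∀ σ : L ≃ₐ[K] L, ‖β - TotRam.cj (π := π) σ‖ = ‖(π : Ω)‖ := by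
      intro σ
      rw [sub_eq_add_neg, IsUltrametricDist.norm_add_eq_max_of_norm_ne_norm, norm_neg, hcjn,
        max_eq_right hlt.le]
      rw [norm_neg, hcjn]
      exact hlt.ne
    rw [Finset.prod_congr rfl (fun σ _ => h1 σ), Finset.prod_const, hcard, h.npow] at hprod
    rw [hprod] at hβ
    exact lt_irrefl _ hβ
  · exact heq
  · exfalso
    have h1 : ∀ σ : L ≃ₐ[K] L, ‖β - TotRam.cj (π := π) σ‖ = ‖β‖ := by
      intro σ
      rw [sub_eq_add_neg, IsUltrametricDist.norm_add_eq_max_of_norm_ne_norm, norm_neg, hcjn,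
        max_eq_left hgt.le]
      rw [norm_neg, hcjn]
      exact hgt.ne'
    rw [Finset.prod_congr rfl (fun σ _ => h1 σ), Finset.prod_const, hcard] at hprod
    have h2 : ‖(π : Ω)‖ ^ Module.finrank K L < ‖β‖ ^ Module.finrank K L :=
      pow_lt_pow_left₀ hgt h.npos.le hn0.ne'
    rw [h.npow, ← hprod] at h2
    exact lt_irrefl _ (h2.trans hβ)

variable {W : Type*} [CommRing W] (φ : W →+* K)

/-- the coefficient map `W → Ω` -/
def cmap : W →+* Ω := (algebraMap K Ω).comp φ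

omit h [IsUltrametricDist Ω] [FiniteDimensional K L] [IsGalois K L] in
theorem norm_cmap_le (hφ : ∀ w, ‖φ w‖ ≤ 1) (w : W) : ‖cmap (Ω := Ω) φ w‖ ≤ 1 := by
  rw [cmap, RingHom.comp_apply, norm_algebraMap']
  exact hφ w

/-- integral polynomials vanishing at `π` vanish at all conjugates -/
theorem eval₂_cj_eq_zero (G : W[X]) (hG : G.eval₂ (cmap (Ω := Ω) φ) (π : Ω) = 0)
    (σ : L ≃ₐ[K] L) : G.eval₂ (cmap (Ω := Ω) φ) (TotRam.cj (π := π) σ) = 0 := by
  set φL : W →+* L := (algebraMap K L).comp φ with hφL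
  have h1 : cmap (Ω := Ω) φ = (L.val : L →+* Ω).comp φL := by
    ext w
    simp [cmap, hφL]
  have h2 : G.eval₂ φL π = 0 := by
    apply Subtype.ext
    have := hom_eval₂ G φL (L.val : L →+* Ω) π
    rw [← h1] at this
    simpa [hG] using this
  have h3 : ((σ : L →+* L)).comp φL = φL := by
    ext w
    simp [hφL]
  have h4 : G.eval₂ φL (σ π) = 0 := by
    have := hom_eval₂ G φL (σ : L →+* L) π
    rw [h3, h2, map_zero] at this
    exact this.symm
  have h5 := hom_eval₂ G φL (L.val : L →+* Ω) (σ π)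
  rw [← h1, h4, map_zero] at h5
  rw [TotRam.cj_def]
  exact h5.symm

/-- **the `η`-principle**: `G(π) = 0 ⇒ ‖G(β)‖ ≤ ‖P(β)‖` -/
theorem eta_le (hφ : ∀ w, ‖φ w‖ ≤ 1) (G : W[X])
    (hG : G.eval₂ (cmap (Ω := Ω) φ) (π : Ω) = 0) {β : Ω} (hβ : ‖β‖ ≤ 1) :
    ‖G.eval₂ (cmap (Ω := Ω) φ) β‖ ≤ ‖aeval β (minpoly K π)‖ := by
  rw [h.norm_aeval_eq_prod β]
  apply norm_eval₂_le_prod (cmap (Ω := Ω) φ) (norm_cmap_le φ hφ) G
    (fun σ : L ≃ₐ[K] L => TotRam.cj (π := π) σ) h.cj_injective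
  · intro σ
    rw [TotRam.cj_def, h.inv σ π]
    exact h.nlt_one.le
  · intro σ
    exact eval₂_cj_eq_zero h φ G hG σ
  · exact hβ

/-- the multivariable `η`-principle -/
theorem eta_le_mv (hφ : ∀ w, ‖φ w‖ ≤ 1) {m : ℕ} (F : MvPolynomial (Fin m) W)
    (g : Fin m → W[X])
    (hF : MvPolynomial.eval₂ (cmap (Ω := Ω) φ)
      (fun i => (g i).eval₂ (cmap (Ω := Ω) φ) (π : Ω)) F = 0) {β : Ω} (hβ : ‖β‖ ≤ 1) :
    ‖MvPolynomial.eval₂ (cmap (Ω := Ω) φ) (fun i => (g i).eval₂ (cmap (Ω := Ω) φ) β) F‖ ≤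
      ‖aeval β (minpoly K π)‖ := by
  set G : W[X] := MvPolynomial.eval₂ (Polynomial.C) g F with hGdef
  have key : ∀ z : Ω, G.eval₂ (cmap (Ω := Ω) φ) z =
      MvPolynomial.eval₂ (cmap (Ω := Ω) φ) (fun i => (g i).eval₂ (cmap (Ω := Ω) φ) z) F := by
    intro z
    have h1 := MvPolynomial.eval₂_comp_left (eval₂RingHom (cmap (Ω := Ω) φ) z)
      (Polynomial.C) g F
    have h2 : (eval₂RingHom (cmap (Ω := Ω) φ) z).comp (Polynomial.C) = cmap (Ω := Ω) φ := by
      apply RingHom.ext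
      intro w
      simp
    rw [h2] at h1
    exact h1
  rw [← key β]
  apply eta_le h φ hφ G _ hβ
  rw [key]
  exact hF

end Fermat.Agent.S56lib.Lift
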