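/-
S56lib / Lift / MatEst (helper6).
Matrices with integral entries over an ultrametric normed field: the determinant and the
adjugate are integral; if the determinant is a unit the inverse is integral, so
`‖(A⁻¹ v) i‖ ≤ r` whenever `‖v j‖ ≤ r`.
-/
import Fermat.Agent.S56lib.Lift.Ball

set_option autoImplicit false
set_option linter.unusedSectionVars false

noncomputable section

namespace Fermat.Agent.S56lib.Lift

variable {E : Type*} [NormedField E] [IsUltrametricDist E] {m : ℕ}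

theorem norm_det_le_one (M : Matrix (Fin m) (Fin m) E) (hM : ∀ i j, ‖M i j‖ ≤ 1) :
    ‖M.det‖ ≤ 1 := by
  rw [Matrix.det_apply]
  apply IsUltrametricDist.norm_sum_le_of_forall_le_of_nonneg zero_le_one
  intro σ _
  have h1 : ‖∏ i, M (σ i) i‖ ≤ 1 := by
    rw [norm_prod]
    exact Finset.prod_le_one (fun i _ => norm_nonneg _) (fun i _ => hM _ _)
  rcases Int.units_eq_one_or (Equiv.Perm.sign σ) with h2 | h2
  · rw [h2, one_smul]
    exact h1
  · rw [h2, Units.neg_smul, one_smul, norm_neg]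
    exact h1

theorem norm_adjugate_le_one (M : Matrix (Fin m) (Fin m) E) (hM : ∀ i j, ‖M i j‖ ≤ 1)
    (i j : Fin m) : ‖M.adjugate i j‖ ≤ 1 := by
  rw [Matrix.adjugate_apply]
  apply norm_det_le_one
  intro a b
  rw [Matrix.updateRow_apply]
  split_ifs
  · rw [Pi.single_apply]
    split_ifs
    · rw [norm_one]
    · rw [norm_zero]
      exact zero_le_one
  · exact hM a b

theorem norm_inv_le_one (M : Matrix (Fin m) (Fin m) E) (hM : ∀ i j, ‖M i j‖ ≤ 1)
    (hdet : ‖M.det‖ = 1) (i j : Fin m) : ‖M⁻¹ i j‖ ≤ 1 := by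
  rw [Matrix.inv_def, Matrix.smul_apply, smul_eq_mul, norm_mul, Ring.inverse_eq_inv', norm_inv,
    hdet, inv_one, one_mul]
  exact norm_adjugate_le_one M hM i j

theorem isUnit_det_of_norm_eq_one (M : Matrix (Fin m) (Fin m) E) (hdet : ‖M.det‖ = 1) :
    IsUnit M.det := by
  rw [isUnit_iff_ne_zero]
  intro h0
  rw [h0, norm_zero] at hdet
  exact zero_ne_one hdet

theorem norm_mulVec_le (M : Matrix (Fin m) (Fin m) E) (hM : ∀ i j, ‖M i j‖ ≤ 1)
    {v : Fin m → E} {r : ℝ} (hr0 : 0 ≤ r) (hv : ∀ j, ‖v j‖ ≤ r) (i : Fin m) :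
    ‖(M.mulVec v) i‖ ≤ r := by
  rw [Matrix.mulVec, dotProduct]
  apply IsUltrametricDist.norm_sum_le_of_forall_le_of_nonneg hr0
  intro j _
  rw [norm_mul]
  calc ‖M i j‖ * ‖v j‖ ≤ 1 * r := mul_le_mul (hM i j) (hv j) (norm_nonneg _) zero_le_one
    _ = r := one_mul _

end Fermat.Agent.S56lib.Lift
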