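/-
S56lib / Lift / MvEst (helper6).
Elementary estimates for multivariate polynomials with integral coefficients over an
ultrametric normed field `E` (coefficients through `ψ : W →+* E`, `‖ψ w‖ ≤ 1`):
* `norm_ev_le_one` : integral values at integral points;
* `norm_ev_sub_le` : `‖f(y) - f(y')‖ ≤ r` if `‖y - y'‖ ≤ r` (1-Lipschitz);
* `norm_taylor2_le` : `‖f(y+δ) - f(y) - ∇f(y)·δ‖ ≤ r²` if `‖δ‖ ≤ r`;
* `norm_rem_sub_le` : the remainder `δ ↦ f(y+δ) - f(y) - ∇f(y)·δ` is `r`-Lipschitz on `‖δ‖ ≤ r`.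
-/
import Fermat.Agent.S56lib.Lift.Ball

set_option autoImplicit false
set_option linter.unusedSectionVars false

noncomputable section

namespace Fermat.Agent.S56lib.Lift

open MvPolynomial

variable {E : Type*} [NormedField E] [IsUltrametricDist E]
  {W : Type*} [CommRing W] (ψ : W →+* E) (hψ : ∀ w, ‖ψ w‖ ≤ 1) {m : ℕ}

/-- evaluation of a polynomial with coefficients in `W` at a point of `E^m` -/
def ev (f : MvPolynomial (Fin m) W) (y : Fin m → E) : E := MvPolynomial.eval₂ ψ y f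

/-- the gradient term `∑_j (∂_j f)(y) δ_j` -/
def grad (f : MvPolynomial (Fin m) W) (y δ : Fin m → E) : E :=
  ∑ j, ev ψ (pderiv j f) y * δ j

/-- the second order remainder -/
def rem (f : MvPolynomial (Fin m) W) (y δ : Fin m → E) : E :=
  ev ψ f (y + δ) - ev ψ f y - grad ψ f y δ

theorem ev_C (a : W) (y : Fin m → E) : ev ψ (C a) y = ψ a := eval₂_C _ _ _

theorem ev_X (n : Fin m) (y : Fin m → E) : ev ψ (X n) y = y n := eval₂_X _ _ _

theorem ev_add (f g : MvPolynomial (Fin m) W) (y : Fin m → E) :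
    ev ψ (f + g) y = ev ψ f y + ev ψ g y := eval₂_add _ _

theorem ev_mul (f g : MvPolynomial (Fin m) W) (y : Fin m → E) :
    ev ψ (f * g) y = ev ψ f y * ev ψ g y := eval₂_mul _ _

theorem grad_C (a : W) (y δ : Fin m → E) : grad ψ (C a) y δ = 0 := by
  simp [grad, ev]

theorem grad_add (f g : MvPolynomial (Fin m) W) (y δ : Fin m → E) :
    grad ψ (f + g) y δ = grad ψ f y δ + grad ψ g y δ := by
  simp only [grad, map_add, ev_add, add_mul, Finset.sum_add_distrib]

theorem grad_mul_X (f : MvPolynomial (Fin m) W) (n : Fin m) (y δ : Fin m → E) :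
    grad ψ (f * X n) y δ = grad ψ f y δ * y n + ev ψ f y * δ n := by
  classical
  simp only [grad, pderiv_mul, ev_add, ev_mul, ev_X, add_mul, Finset.sum_add_distrib]
  congr 1
  · rw [Finset.sum_mul]
    apply Finset.sum_congr rfl
    intro j _
    ring
  · rw [Finset.sum_eq_single n]
    · rw [pderiv_X_self]
      simp [ev]
    · intro j _ hj
      rw [pderiv_X_of_ne (Ne.symm hj)]
      simp [ev]
    · intro hn
      exact absurd (Finset.mem_univ n) hn

include hψ

/-- integral values at integral points -/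
theorem norm_ev_le_one (f : MvPolynomial (Fin m) W) {y : Fin m → E} (hy : ∀ i, ‖y i‖ ≤ 1) :
    ‖ev ψ f y‖ ≤ 1 := by
  induction f using MvPolynomial.induction_on with
  | C a => rw [ev_C]; exact hψ a
  | add f g hf hg =>
    rw [ev_add]
    exact (IsUltrametricDist.norm_add_le_max _ _).trans (max_le hf hg)
  | mul_X f n hf =>
    rw [ev_mul, ev_X, norm_mul]
    calc ‖ev ψ f y‖ * ‖y n‖ ≤ 1 * 1 := mul_le_mul hf (hy n) (norm_nonneg _) zero_le_one
      _ = 1 := one_mul _

/-- integral polynomials are `1`-Lipschitz on the unit polydisc -/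
theorem norm_ev_sub_le (f : MvPolynomial (Fin m) W) {y y' : Fin m → E} (hy : ∀ i, ‖y i‖ ≤ 1)
    (hy' : ∀ i, ‖y' i‖ ≤ 1) {r : ℝ} (hr0 : 0 ≤ r) (hr : ∀ i, ‖y i - y' i‖ ≤ r) :
    ‖ev ψ f y - ev ψ f y'‖ ≤ r := by
  induction f using MvPolynomial.induction_on with
  | C a => rw [ev_C, ev_C, sub_self, norm_zero]; exact hr0
  | add f g hf hg =>
    rw [ev_add, ev_add]
    have : ev ψ f y + ev ψ g y - (ev ψ f y' + ev ψ g y') =
        (ev ψ f y - ev ψ f y') + (ev ψ g y - ev ψ g y') := by ring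
    rw [this]
    exact (IsUltrametricDist.norm_add_le_max _ _).trans (max_le hf hg)
  | mul_X f n hf =>
    rw [ev_mul, ev_mul, ev_X, ev_X]
    have : ev ψ f y * y n - ev ψ f y' * y' n =
        (ev ψ f y - ev ψ f y') * y n + ev ψ f y' * (y n - y' n) := by ring
    rw [this]
    apply (IsUltrametricDist.norm_add_le_max _ _).trans
    apply max_le
    · rw [norm_mul]
      calc ‖ev ψ f y - ev ψ f y'‖ * ‖y n‖ ≤ r * 1 := mul_le_mul hf (hy n) (norm_nonneg _) hr0
        _ = r := mul_one _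
    · rw [norm_mul]
      calc ‖ev ψ f y'‖ * ‖y n - y' n‖ ≤ 1 * r :=
            mul_le_mul (norm_ev_le_one ψ hψ f hy') (hr n) (norm_nonneg _) zero_le_one
        _ = r := one_mul _

/-- the gradient term is bounded by `‖δ‖` -/
theorem norm_grad_le (f : MvPolynomial (Fin m) W) {y δ : Fin m → E} (hy : ∀ i, ‖y i‖ ≤ 1)
    {r : ℝ} (hr0 : 0 ≤ r) (hδ : ∀ i, ‖δ i‖ ≤ r) : ‖grad ψ f y δ‖ ≤ r := by
  rw [grad]
  apply IsUltrametricDist.norm_sum_le_of_forall_le_of_nonneg hr0
  intro j _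
  rw [norm_mul]
  calc ‖ev ψ (pderiv j f) y‖ * ‖δ j‖ ≤ 1 * r :=
        mul_le_mul (norm_ev_le_one ψ hψ _ hy) (hδ j) (norm_nonneg _) zero_le_one
    _ = r := one_mul _

/-- second order Taylor estimate -/
theorem norm_rem_le (f : MvPolynomial (Fin m) W) {y δ : Fin m → E} (hy : ∀ i, ‖y i‖ ≤ 1)
    {r : ℝ} (hr0 : 0 ≤ r) (hr1 : r ≤ 1) (hδ : ∀ i, ‖δ i‖ ≤ r) : ‖rem ψ f y δ‖ ≤ r * r := by
  have hyδ : ∀ i, ‖(y + δ) i‖ ≤ 1 := fun i =>
    (IsUltrametricDist.norm_add_le_max _ _).trans (max_le (hy i) ((hδ i).trans hr1))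
  induction f using MvPolynomial.induction_on with
  | C a =>
    rw [rem, ev_C, ev_C, grad_C, sub_self, sub_zero, norm_zero]
    exact mul_nonneg hr0 hr0
  | add f g hf hg =>
    have : rem ψ (f + g) y δ = rem ψ f y δ + rem ψ g y δ := by
      simp only [rem, ev_add, grad_add]
      ring
    rw [this]
    exact (IsUltrametricDist.norm_add_le_max _ _).trans (max_le hf hg)
  | mul_X f n hf =>
    have : rem ψ (f * X n) y δ =
        rem ψ f y δ * y n + (ev ψ f (y + δ) - ev ψ f y) * δ n := by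
      simp only [rem, ev_mul, ev_X, grad_mul_X, Pi.add_apply]
      ring
    rw [this]
    apply (IsUltrametricDist.norm_add_le_max _ _).trans
    apply max_le
    · rw [norm_mul]
      calc ‖rem ψ f y δ‖ * ‖y n‖ ≤ (r * r) * 1 :=
            mul_le_mul hf (hy n) (norm_nonneg _) (mul_nonneg hr0 hr0)
        _ = r * r := mul_one _
    · rw [norm_mul]
      apply mul_le_mul _ (hδ n) (norm_nonneg _) hr0
      apply norm_ev_sub_le ψ hψ f hyδ hy hr0
      intro i
      simpa using hδ i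

/-- the remainder is `r`-Lipschitz on the polydisc of radius `r` -/
theorem norm_rem_sub_le (f : MvPolynomial (Fin m) W) {y δ δ' : Fin m → E}
    (hy : ∀ i, ‖y i‖ ≤ 1) {r : ℝ} (hr0 : 0 ≤ r) (hr1 : r ≤ 1) (hδ : ∀ i, ‖δ i‖ ≤ r)
    (hδ' : ∀ i, ‖δ' i‖ ≤ r) {s : ℝ} (hs0 : 0 ≤ s) (hs : ∀ i, ‖δ i - δ' i‖ ≤ s) :
    ‖rem ψ f y δ - rem ψ f y δ'‖ ≤ r * s := by
  have hsr : ∀ i, ‖δ i - δ' i‖ ≤ r := fun i => by
    rw [sub_eq_add_neg]
    exact (IsUltrametricDist.norm_add_le_max _ _).trans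
      (max_le (hδ i) (by rw [norm_neg]; exact hδ' i))
  -- replace `s` by `min s r`
  set s' := min s r with hs'
  have hs'0 : 0 ≤ s' := le_min hs0 hr0
  have hs'le : ∀ i, ‖δ i - δ' i‖ ≤ s' := fun i => le_min (hs i) (hsr i)
  have hs'r : s' ≤ r := min_le_right _ _
  have hs's : s' ≤ s := min_le_left _ _
  have hyδ' : ∀ i, ‖(y + δ') i‖ ≤ 1 := fun i =>
    (IsUltrametricDist.norm_add_le_max _ _).trans (max_le (hy i) ((hδ' i).trans hr1))
  have hsplit : rem ψ f y δ - rem ψ f y δ' =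
      rem ψ f (y + δ') (δ - δ') +
        (grad ψ f (y + δ') (δ - δ') - grad ψ f y (δ - δ')) := by
    have e1 : y + δ' + (δ - δ') = y + δ := by
      ext i
      simp
    have e2 : grad ψ f y δ - grad ψ f y δ' = grad ψ f y (δ - δ') := by
      simp only [grad, Pi.sub_apply, mul_sub, Finset.sum_sub_distrib]
    simp only [rem, e1]
    rw [← e2]
    ring
  rw [hsplit]
  apply (IsUltrametricDist.norm_add_le_max _ _).trans
  apply max_le
  · have h1 := norm_rem_le ψ hψ f hyδ' hs'0 (hs'r.trans hr1) (δ := δ - δ') (fun i => by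
      simpa using hs'le i)
    calc ‖rem ψ f (y + δ') (δ - δ')‖ ≤ s' * s' := h1
      _ ≤ r * s := mul_le_mul hs'r hs's hs'0 hr0
  · have h2 : grad ψ f (y + δ') (δ - δ') - grad ψ f y (δ - δ') =
        ∑ j, (ev ψ (pderiv j f) (y + δ') - ev ψ (pderiv j f) y) * (δ - δ') j := by
      simp only [grad, ← Finset.sum_sub_distrib, sub_mul]
    rw [h2]
    apply IsUltrametricDist.norm_sum_le_of_forall_le_of_nonneg (mul_nonneg hr0 hs0)
    intro j _
    rw [norm_mul]
    apply mul_le_mul _ _ (norm_nonneg _) hr0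
    · apply norm_ev_sub_le ψ hψ _ hyδ' hy hr0
      intro i
      simpa using hδ' i
    · simpa using hs j

end Fermat.Agent.S56lib.Lift
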