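/-
S56lib / Lift / PowEst (helper6).
The `p^e`-th power map in residue characteristic `p`:
`‖a^q - b^q‖ ≤ ‖a - b‖ * max (‖p‖ * κ) (‖a - b‖^(q-1))` for `‖a‖, ‖b‖ ≤ κ ≤ 1`, `q = p^e`, `e ≥ 1`.
-/
import Fermat.Agent.S56lib.Lift.Ball

set_option autoImplicit false

noncomputable section

namespace Fermat.Agent.S56lib.Lift

variable {E : Type*} [NormedField E] [IsUltrametricDist E]

theorem norm_natCast_le_one' (k : ℕ) : ‖(k : E)‖ ≤ 1 :=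
  IsUltrametricDist.norm_natCast_le_one E k

/-- `‖C(p^e, k)‖ ≤ ‖p‖` for `0 < k < p^e` -/
theorem norm_choose_pow_le {p : ℕ} (hp : p.Prime) (e k : ℕ) (hk0 : k ≠ 0) (hk : k ≠ p ^ e) :
    ‖(((p ^ e).choose k : ℕ) : E)‖ ≤ ‖(p : E)‖ := by
  obtain ⟨c, hc⟩ := hp.dvd_choose_pow (n := e) hk0 hk
  rw [hc, Nat.cast_mul, norm_mul]
  calc ‖(p : E)‖ * ‖(c : E)‖ ≤ ‖(p : E)‖ * 1 :=
        mul_le_mul_of_nonneg_left (norm_natCast_le_one' c) (norm_nonneg _)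
    _ = ‖(p : E)‖ := mul_one _

/-- the `p^e`-th power estimate -/
theorem norm_pow_sub_pow_le_max {p : ℕ} (hp : p.Prime) (e : ℕ) {a b : E} {κ : ℝ}
    (hκ1 : κ ≤ 1) (ha : ‖a‖ ≤ κ) (hb : ‖b‖ ≤ κ) :
    ‖a ^ (p ^ e) - b ^ (p ^ e)‖ ≤
      ‖a - b‖ * max (‖(p : E)‖ * κ) (‖a - b‖ ^ (p ^ e - 1)) := by
  set q := p ^ e with hq
  have hq1 : 1 ≤ q := Nat.one_le_pow _ _ hp.pos
  have hκ0 : 0 ≤ κ := (norm_nonneg _).trans ha
  set ε := a - b with hε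
  have hε1 : ‖ε‖ ≤ 1 := by
    rw [hε, sub_eq_add_neg]
    apply (IsUltrametricDist.norm_add_le_max _ _).trans
    rw [norm_neg]
    exact max_le (ha.trans hκ1) (hb.trans hκ1)
  have hab : a = b + ε := by rw [hε]; ring
  have hexp : a ^ q - b ^ q =
      ∑ k ∈ Finset.range q, b ^ k * ε ^ (q - k) * ((q.choose k : ℕ) : E) := by
    rw [hab, add_pow, Finset.sum_range_succ]
    simp
  rw [hexp]
  apply IsUltrametricDist.norm_sum_le_of_forall_le_of_nonneg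
    (mul_nonneg (norm_nonneg _) (le_max_of_le_left (mul_nonneg (norm_nonneg _) hκ0)))
  intro k hk
  have hkq : k < q := Finset.mem_range.1 hk
  rcases Nat.eq_zero_or_pos k with hk0 | hk0
  · subst hk0
    simp only [pow_zero, one_mul, Nat.sub_zero, Nat.choose_zero_right, Nat.cast_one, mul_one]
    rw [norm_pow]
    calc ‖ε‖ ^ q = ‖ε‖ * ‖ε‖ ^ (q - 1) := by
          rw [← pow_succ']
          congr 1
          omega
      _ ≤ ‖ε‖ * max (‖(p : E)‖ * κ) (‖ε‖ ^ (q - 1)) :=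
          mul_le_mul_of_nonneg_left (le_max_right _ _) (norm_nonneg _)
  · have h1 : ‖b ^ k‖ ≤ κ := by
      rw [norm_pow]
      calc ‖b‖ ^ k ≤ κ ^ k := pow_le_pow_left₀ (norm_nonneg _) hb k
        _ ≤ κ ^ 1 := pow_le_pow_of_le_one hκ0 hκ1 hk0
        _ = κ := pow_one _
    have h2 : ‖ε ^ (q - k)‖ ≤ ‖ε‖ := by
      rw [norm_pow]
      calc ‖ε‖ ^ (q - k) ≤ ‖ε‖ ^ 1 := pow_le_pow_of_le_one (norm_nonneg _) hε1 (by omega)
        _ = ‖ε‖ := pow_one _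
    have h3 : ‖((q.choose k : ℕ) : E)‖ ≤ ‖(p : E)‖ :=
      norm_choose_pow_le hp e k (by omega) (by omega)
    rw [norm_mul, norm_mul]
    calc ‖b ^ k‖ * ‖ε ^ (q - k)‖ * ‖((q.choose k : ℕ) : E)‖ ≤ κ * ‖ε‖ * ‖(p : E)‖ := by
          apply mul_le_mul (mul_le_mul h1 h2 (norm_nonneg _) hκ0) h3 (norm_nonneg _)
            (mul_nonneg hκ0 (norm_nonneg _))
      _ = ‖ε‖ * (‖(p : E)‖ * κ) := by ring
      _ ≤ ‖ε‖ * max (‖(p : E)‖ * κ) (‖ε‖ ^ (q - 1)) :=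
          mul_le_mul_of_nonneg_left (le_max_left _ _) (norm_nonneg _)

end Fermat.Agent.S56lib.Lift
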