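/-
S56lib / Lift / Newton (helper6).
The sharp Newton lemma for the local equations of a finite flat group scheme killed by `p`
over an absolutely unramified base: the system `z_i ^ (p^{e_i}) = p * h_i(z)` (`h_i` with
integral coefficients, `det (∂h_i/∂X_j)(0)` a unit).
* `FlatSys.exists_sol` : if `‖y_i‖ < 1`, `‖F_i(y)‖ ≤ ‖p‖ ρ` with `ρ^(p-1) < ‖p‖`, there is an
  exact solution `z` with `‖z - y‖ ≤ ρ` (complete field);
* `FlatSys.sol_unique` : two solutions with `‖z - z'‖ ≤ ρ`, `ρ^(p-1) < ‖p‖`, are equal.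
-/
import Fermat.Agent.S56lib.Lift.MvEst
import Fermat.Agent.S56lib.Lift.PowEst
import Fermat.Agent.S56lib.Lift.MatEst

set_option autoImplicit false
set_option linter.unusedSectionVars false

noncomputable section

namespace Fermat.Agent.S56lib.Lift

open MvPolynomial

/-- the local equations `X_i ^ (p^{e_i}) = p * h_i(X)` -/
structure FlatSys (W : Type*) [CommRing W] (m : ℕ) where
  e : Fin m → ℕ
  he : ∀ i, 1 ≤ e i
  h : Fin m → MvPolynomial (Fin m) W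

namespace FlatSys

variable {E : Type*} [NormedField E] [IsUltrametricDist E]
  {W : Type*} [CommRing W] {m : ℕ} (S : FlatSys W m) (p : ℕ) (ψ : W →+* E)

/-- the equations -/
def F (z : Fin m → E) (i : Fin m) : E := z i ^ (p ^ S.e i) - (p : E) * ev ψ (S.h i) z

/-- `z` is a solution -/
def IsSol (z : Fin m → E) : Prop := ∀ i, S.F p ψ z i = 0

/-- the Jacobian matrix of `h` at `y` -/
def jac (y : Fin m → E) : Matrix (Fin m) (Fin m) E := fun i j => ev ψ (pderiv j (S.h i)) y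

/-- the Jacobian determinant, as a polynomial -/
def detPoly : MvPolynomial (Fin m) W :=
  Matrix.det (fun i j => pderiv j (S.h i) : Matrix (Fin m) (Fin m) (MvPolynomial (Fin m) W))

theorem ev_detPoly (y : Fin m → E) : ev ψ S.detPoly y = (S.jac ψ y).det := by
  have := RingHom.map_det (MvPolynomial.eval₂Hom ψ y)
    (fun i j => pderiv j (S.h i) : Matrix (Fin m) (Fin m) (MvPolynomial (Fin m) W))
  exact this

theorem jac_mulVec (y δ : Fin m → E) (i : Fin m) :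
    (S.jac ψ y).mulVec δ i = grad ψ (S.h i) y δ := rfl

/-- the power part of the Newton map -/
def T (y δ : Fin m → E) (i : Fin m) : E :=
  ((y i + δ i) ^ (p ^ S.e i) - y i ^ (p ^ S.e i)) / (p : E)

/-- the right hand side of the Newton equation `jac(y) δ = w(δ)` -/
def w (y δ : Fin m → E) (i : Fin m) : E :=
  S.F p ψ y i / (p : E) + S.T p y δ i - rem ψ (S.h i) y δ

/-- the Newton map -/
def Psi (y δ : Fin m → E) : Fin m → E := (S.jac ψ y)⁻¹.mulVec (S.w p ψ y δ)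

theorem F_add (hp0 : (p : E) ≠ 0) (y δ : Fin m → E) (i : Fin m) :
    S.F p ψ (y + δ) i = (p : E) * (S.w p ψ y δ i - (S.jac ψ y).mulVec δ i) := by
  rw [jac_mulVec, w, T, F, F]
  have h1 : ev ψ (S.h i) (y + δ) = ev ψ (S.h i) y + grad ψ (S.h i) y δ + rem ψ (S.h i) y δ := by
    rw [rem]
    ring
  rw [h1, Pi.add_apply]
  field_simp
  ring

variable (hψ : ∀ w, ‖ψ w‖ ≤ 1)

include hψ

theorem norm_jac_le (y : Fin m → E) (hy : ∀ i, ‖y i‖ ≤ 1) (i j : Fin m) :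
    ‖S.jac ψ y i j‖ ≤ 1 := norm_ev_le_one ψ hψ _ hy

/-- the Jacobian determinant is a unit on the open polydisc -/
theorem norm_det_jac (hdet : ‖ev ψ S.detPoly 0‖ = 1) {y : Fin m → E} {κ : ℝ} (hκ : κ < 1)
    (hy : ∀ i, ‖y i‖ ≤ κ) : ‖(S.jac ψ y).det‖ = 1 := by
  have hκ0 : 0 ≤ max κ 0 := le_max_right _ _
  have hy' : ∀ i, ‖y i‖ ≤ max κ 0 := fun i => (hy i).trans (le_max_left _ _)
  have hκ1 : max κ 0 < 1 := max_lt hκ zero_lt_one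
  have h1 : ‖ev ψ S.detPoly y - ev ψ S.detPoly 0‖ ≤ max κ 0 := by
    apply norm_ev_sub_le ψ hψ _ (fun i => (hy' i).trans hκ1.le) (fun i => by simp) hκ0
    intro i
    simpa using hy' i
  rw [← ev_detPoly]
  have h2 : ev ψ S.detPoly y = ev ψ S.detPoly 0 + (ev ψ S.detPoly y - ev ψ S.detPoly 0) := by
    ring
  rw [h2, IsUltrametricDist.norm_add_eq_max_of_norm_ne_norm, hdet]
  · exact max_eq_left (h1.trans hκ1.le)
  · rw [hdet]
    exact (lt_of_le_of_lt h1 hκ1).ne'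

/-- the contraction constant -/
def theta (κ ρ : ℝ) : ℝ := max κ (ρ ^ (p - 1) / ‖(p : E)‖)

omit hψ in
theorem T_zero (y : Fin m → E) (i : Fin m) : S.T p y 0 i = 0 := by
  simp [T]

omit hψ in
/-- the power part is `θ`-Lipschitz -/
theorem norm_T_sub_le (hp : p.Prime) (hp0 : 0 < ‖(p : E)‖) {y δ δ' : Fin m → E} {κ ρ : ℝ}
    (hκ1 : κ ≤ 1) (hρ0 : 0 ≤ ρ) (hρκ : ρ ≤ κ) (hy : ∀ i, ‖y i‖ ≤ κ) (hδ : ∀ i, ‖δ i‖ ≤ ρ)
    (hδ' : ∀ i, ‖δ' i‖ ≤ ρ) {s : ℝ} (hs0 : 0 ≤ s) (hs : ∀ i, ‖δ i - δ' i‖ ≤ s) (i : Fin m) :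
    ‖S.T p y δ i - S.T p y δ' i‖ ≤ theta (E := E) p κ ρ * s := by
  have hκ0 : 0 ≤ κ := hρ0.trans hρκ
  have hρ1 : ρ ≤ 1 := hρκ.trans hκ1
  have ha : ‖y i + δ i‖ ≤ κ :=
    (IsUltrametricDist.norm_add_le_max _ _).trans (max_le (hy i) ((hδ i).trans hρκ))
  have hb : ‖y i + δ' i‖ ≤ κ :=
    (IsUltrametricDist.norm_add_le_max _ _).trans (max_le (hy i) ((hδ' i).trans hρκ))
  have hab : y i + δ i - (y i + δ' i) = δ i - δ' i := by ring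
  have hsρ : ‖δ i - δ' i‖ ≤ ρ := by
    rw [sub_eq_add_neg]
    exact (IsUltrametricDist.norm_add_le_max _ _).trans
      (max_le (hδ i) (by rw [norm_neg]; exact hδ' i))
  have h1 := norm_pow_sub_pow_le_max (E := E) hp (S.e i) hκ1 ha hb
  rw [hab] at h1
  have hq : p - 1 ≤ p ^ S.e i - 1 := by
    have : p ^ 1 ≤ p ^ S.e i := Nat.pow_le_pow_right hp.pos (S.he i)
    rw [pow_one] at this
    omega
  have h2 : ‖δ i - δ' i‖ ^ (p ^ S.e i - 1) ≤ ρ ^ (p - 1) :=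
    calc ‖δ i - δ' i‖ ^ (p ^ S.e i - 1) ≤ ρ ^ (p ^ S.e i - 1) :=
          pow_le_pow_left₀ (norm_nonneg _) hsρ _
      _ ≤ ρ ^ (p - 1) := pow_le_pow_of_le_one hρ0 hρ1 hq
  have h3 : S.T p y δ i - S.T p y δ' i =
      ((y i + δ i) ^ (p ^ S.e i) - (y i + δ' i) ^ (p ^ S.e i)) / (p : E) := by
    rw [T, T]
    ring
  rw [h3, norm_div, div_le_iff₀ hp0]
  calc ‖(y i + δ i) ^ (p ^ S.e i) - (y i + δ' i) ^ (p ^ S.e i)‖
      ≤ ‖δ i - δ' i‖ * max (‖(p : E)‖ * κ) (‖δ i - δ' i‖ ^ (p ^ S.e i - 1)) := h1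
    _ ≤ s * max (‖(p : E)‖ * κ) (ρ ^ (p - 1)) := by
        apply mul_le_mul (hs i) (max_le_max le_rfl h2)
          (le_max_of_le_left (mul_nonneg hp0.le hκ0)) hs0
    _ = theta (E := E) p κ ρ * s * ‖(p : E)‖ := by
        rw [theta, max_mul_of_nonneg _ _ hs0, max_mul_of_nonneg _ _ hp0.le,
          mul_max_of_nonneg _ _ hs0]
        congr 1
        · ring
        · field_simp

omit hψ in
theorem le_theta_left (κ ρ : ℝ) : κ ≤ theta (E := E) p κ ρ := le_max_left _ _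

/-- `w` is `θ`-Lipschitz -/
theorem norm_w_sub_le (hp : p.Prime) (hp0 : 0 < ‖(p : E)‖) {y δ δ' : Fin m → E} {κ ρ : ℝ}
    (hκ1 : κ ≤ 1) (hρ0 : 0 ≤ ρ) (hρκ : ρ ≤ κ) (hy : ∀ i, ‖y i‖ ≤ κ) (hδ : ∀ i, ‖δ i‖ ≤ ρ)
    (hδ' : ∀ i, ‖δ' i‖ ≤ ρ) {s : ℝ} (hs0 : 0 ≤ s) (hs : ∀ i, ‖δ i - δ' i‖ ≤ s) (i : Fin m) :
    ‖S.w p ψ y δ i - S.w p ψ y δ' i‖ ≤ theta (E := E) p κ ρ * s := by
  have h1 : S.w p ψ y δ i - S.w p ψ y δ' i =
      (S.T p y δ i - S.T p y δ' i) + -(rem ψ (S.h i) y δ - rem ψ (S.h i) y δ') := by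
    rw [w, w]
    ring
  rw [h1]
  apply (IsUltrametricDist.norm_add_le_max _ _).trans
  apply max_le
  · exact S.norm_T_sub_le p hp hp0 hκ1 hρ0 hρκ hy hδ hδ' hs0 hs i
  · rw [norm_neg]
    have h2 := norm_rem_sub_le ψ hψ (S.h i) (fun j => (hy j).trans hκ1) hρ0 (hρκ.trans hκ1)
      hδ hδ' hs0 hs
    exact h2.trans (mul_le_mul_of_nonneg_right (hρκ.trans (le_theta_left p κ ρ)) hs0)

/-- `w` maps the polydisc of radius `ρ` into itself -/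
theorem norm_w_le (hp : p.Prime) (hp0 : 0 < ‖(p : E)‖) {y δ : Fin m → E} {κ ρ : ℝ}
    (hκ1 : κ ≤ 1) (hρ0 : 0 ≤ ρ) (hρκ : ρ ≤ κ) (hθ : theta (E := E) p κ ρ ≤ 1)
    (hy : ∀ i, ‖y i‖ ≤ κ) (hF : ∀ i, ‖S.F p ψ y i‖ ≤ ‖(p : E)‖ * ρ) (hδ : ∀ i, ‖δ i‖ ≤ ρ)
    (i : Fin m) : ‖S.w p ψ y δ i‖ ≤ ρ := by
  have hρ1 : ρ ≤ 1 := hρκ.trans hκ1
  have h1 : S.w p ψ y δ i =
      S.F p ψ y i / (p : E) + (S.T p y δ i - S.T p y 0 i) + -(rem ψ (S.h i) y δ) := by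
    rw [w, T_zero]
    ring
  rw [h1]
  apply (IsUltrametricDist.norm_add_le_max _ _).trans
  apply max_le
  · apply (IsUltrametricDist.norm_add_le_max _ _).trans
    apply max_le
    · rw [norm_div, div_le_iff₀ hp0, mul_comm]
      exact hF i
    · have h2 := S.norm_T_sub_le p hp hp0 hκ1 hρ0 hρκ hy hδ (δ' := 0) (fun j => by simpa using hρ0)
        hρ0 (fun j => by simpa using hδ j) i
      exact h2.trans (by
        calc theta (E := E) p κ ρ * ρ ≤ 1 * ρ := mul_le_mul_of_nonneg_right hθ hρ0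
          _ = ρ := one_mul _)
  · rw [norm_neg]
    have h3 := norm_rem_le ψ hψ (S.h i) (fun j => (hy j).trans hκ1) hρ0 hρ1 hδ
    exact h3.trans (by
      calc ρ * ρ ≤ 1 * ρ := mul_le_mul_of_nonneg_right hρ1 hρ0
        _ = ρ := one_mul _)

/-- `Ψ` maps the polydisc of radius `ρ` into itself -/
theorem norm_Psi_le (hp : p.Prime) (hp0 : 0 < ‖(p : E)‖) (hdet : ‖ev ψ S.detPoly 0‖ = 1)
    {y δ : Fin m → E} {κ ρ : ℝ} (hκ : κ < 1) (hρ0 : 0 ≤ ρ) (hρκ : ρ ≤ κ)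
    (hθ : theta (E := E) p κ ρ ≤ 1) (hy : ∀ i, ‖y i‖ ≤ κ)
    (hF : ∀ i, ‖S.F p ψ y i‖ ≤ ‖(p : E)‖ * ρ) (hδ : ∀ i, ‖δ i‖ ≤ ρ) (i : Fin m) :
    ‖S.Psi p ψ y δ i‖ ≤ ρ := by
  rw [Psi]
  apply norm_mulVec_le _ _ hρ0 (fun j => S.norm_w_le p ψ hψ hp hp0 hκ.le hρ0 hρκ hθ hy hF hδ j)
  exact norm_inv_le_one _ (S.norm_jac_le ψ hψ y (fun j => (hy j).trans hκ.le))
    (S.norm_det_jac ψ hψ hdet hκ hy)

/-- `Ψ` is `θ`-Lipschitz on the polydisc of radius `ρ` -/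
theorem norm_Psi_sub_le (hp : p.Prime) (hp0 : 0 < ‖(p : E)‖) (hdet : ‖ev ψ S.detPoly 0‖ = 1)
    {y δ δ' : Fin m → E} {κ ρ : ℝ} (hκ : κ < 1) (hρ0 : 0 ≤ ρ) (hρκ : ρ ≤ κ)
    (hy : ∀ i, ‖y i‖ ≤ κ) (hδ : ∀ i, ‖δ i‖ ≤ ρ) (hδ' : ∀ i, ‖δ' i‖ ≤ ρ) {s : ℝ} (hs0 : 0 ≤ s)
    (hs : ∀ i, ‖δ i - δ' i‖ ≤ s) (i : Fin m) :
    ‖S.Psi p ψ y δ i - S.Psi p ψ y δ' i‖ ≤ theta (E := E) p κ ρ * s := by
  have hθ0 : 0 ≤ theta (E := E) p κ ρ := (hρ0.trans hρκ).trans (le_theta_left p κ ρ)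
  have h1 : S.Psi p ψ y δ i - S.Psi p ψ y δ' i =
      (S.jac ψ y)⁻¹.mulVec (S.w p ψ y δ - S.w p ψ y δ') i := by
    rw [Psi, Psi, Matrix.mulVec_sub]
    rfl
  rw [h1]
  apply norm_mulVec_le _ _ (mul_nonneg hθ0 hs0)
    (fun j => S.norm_w_sub_le p ψ hψ hp hp0 hκ.le hρ0 hρκ hy hδ hδ' hs0 hs j)
  exact norm_inv_le_one _ (S.norm_jac_le ψ hψ y (fun j => (hy j).trans hκ.le))
    (S.norm_det_jac ψ hψ hdet hκ hy)

/-- fixed points of `Ψ` are the solutions near `y` -/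
theorem isSol_add_iff (hp0 : 0 < ‖(p : E)‖) (hdet : ‖ev ψ S.detPoly 0‖ = 1)
    {y δ : Fin m → E} {κ : ℝ} (hκ : κ < 1) (hy : ∀ i, ‖y i‖ ≤ κ) :
    S.IsSol p ψ (y + δ) ↔ S.Psi p ψ y δ = δ := by
  have hpne : (p : E) ≠ 0 := norm_pos_iff.1 hp0
  have hunit : IsUnit (S.jac ψ y).det :=
    isUnit_det_of_norm_eq_one _ (S.norm_det_jac ψ hψ hdet hκ hy)
  have key : S.IsSol p ψ (y + δ) ↔ S.w p ψ y δ = (S.jac ψ y).mulVec δ := by
    constructor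
    · intro hsol
      funext i
      have := hsol i
      rw [S.F_add p ψ hpne, mul_eq_zero] at this
      rcases this with h0 | h0
      · exact absurd h0 hpne
      · exact sub_eq_zero.1 h0
    · intro hw i
      rw [S.F_add p ψ hpne, hw, sub_self, mul_zero]
  rw [key, Psi]
  constructor
  · intro hw
    rw [hw, Matrix.mulVec_mulVec, Matrix.nonsing_inv_mul _ hunit, Matrix.one_mulVec]
  · intro hfix
    rw [← hfix, Matrix.mulVec_mulVec, Matrix.mul_nonsing_inv _ hunit, Matrix.one_mulVec, hfix]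

omit hψ in
/-- the contraction constant is `< 1` -/
theorem theta_lt_one (hp0 : 0 < ‖(p : E)‖) {κ ρ : ℝ} (hκ : κ < 1)
    (hρp : ρ ^ (p - 1) < ‖(p : E)‖) : theta (E := E) p κ ρ < 1 := by
  rw [theta]
  apply max_lt hκ
  rw [div_lt_one hp0]
  exact hρp

omit hψ in
theorem rho_lt_one (hpE : ‖(p : E)‖ < 1) {ρ : ℝ}
    (hρp : ρ ^ (p - 1) < ‖(p : E)‖) : ρ < 1 := by
  by_contra hcon
  rw [not_lt] at hcon
  have h1 : (1 : ℝ) ≤ ρ ^ (p - 1) := one_le_pow₀ hcon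
  linarith

/-- **uniqueness / separation**: two solutions in the open polydisc with
`‖z - z'‖ ≤ ρ`, `ρ^(p-1) < ‖p‖`, coincide -/
theorem sol_unique (hp : p.Prime) (hp0 : 0 < ‖(p : E)‖) (hpE : ‖(p : E)‖ < 1)
    (hdet : ‖ev ψ S.detPoly 0‖ = 1) {z z' : Fin m → E} {κ ρ : ℝ} (hκ : κ < 1)
    (hz : ∀ i, ‖z i‖ ≤ κ) (hρ0 : 0 ≤ ρ) (hρp : ρ ^ (p - 1) < ‖(p : E)‖)
    (hzz' : ∀ i, ‖z' i - z i‖ ≤ ρ) (hsol : S.IsSol p ψ z) (hsol' : S.IsSol p ψ z') :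
    z' = z := by
  have hρ1 := rho_lt_one p hpE hρp
  set κ' := max κ ρ with hκ'
  have hκ'1 : κ' < 1 := max_lt hκ hρ1
  have hρκ' : ρ ≤ κ' := le_max_right _ _
  have hz' : ∀ i, ‖z i‖ ≤ κ' := fun i => (hz i).trans (le_max_left _ _)
  have hθ := theta_lt_one (E := E) p hp0 hκ'1 hρp
  have hθ0 : 0 ≤ theta (E := E) p κ' ρ := (hρ0.trans hρκ').trans (le_theta_left p κ' ρ)
  set δ : Fin m → E := z' - z with hδ
  have hfix0 : S.Psi p ψ z 0 = 0 := by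
    rw [← S.isSol_add_iff p ψ hψ hp0 hdet hκ'1 hz', add_zero]
    exact hsol
  have hfix : S.Psi p ψ z δ = δ := by
    rw [← S.isSol_add_iff p ψ hψ hp0 hdet hκ'1 hz']
    have : z + δ = z' := by
      rw [hδ]
      abel
    rw [this]
    exact hsol'
  have hδρ : ∀ i, ‖δ i‖ ≤ ρ := fun i => by simpa [hδ] using hzz' i
  have hle : ‖δ‖ ≤ theta (E := E) p κ' ρ * ‖δ‖ := by
    rw [pi_norm_le_iff_of_nonneg (mul_nonneg hθ0 (norm_nonneg _))]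
    intro i
    have h1 := S.norm_Psi_sub_le p ψ hψ hp hp0 hdet hκ'1 hρ0 hρκ' hz' hδρ (δ' := 0)
      (fun j => by simpa using hρ0) (norm_nonneg δ)
      (fun j => by simpa using norm_le_pi_norm δ j) i
    rw [hfix, hfix0] at h1
    simpa using h1
  have hδ0 : ‖δ‖ = 0 := by
    by_contra hne
    have hpos : 0 < ‖δ‖ := lt_of_le_of_ne (norm_nonneg _) (Ne.symm hne)
    have : theta (E := E) p κ' ρ * ‖δ‖ < 1 * ‖δ‖ := mul_lt_mul_of_pos_right hθ hpos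
    linarith
  have : δ = 0 := norm_eq_zero.1 hδ0
  rw [hδ, sub_eq_zero] at this
  exact this

/-- **the sharp Newton lemma** -/
theorem exists_sol [CompleteSpace E] (hp : p.Prime) (hp0 : 0 < ‖(p : E)‖)
    (hpE : ‖(p : E)‖ < 1) (hdet : ‖ev ψ S.detPoly 0‖ = 1) {y : Fin m → E} {κ ρ : ℝ}
    (hκ : κ < 1) (hy : ∀ i, ‖y i‖ ≤ κ) (hρ0 : 0 ≤ ρ) (hρp : ρ ^ (p - 1) < ‖(p : E)‖)
    (hF : ∀ i, ‖S.F p ψ y i‖ ≤ ‖(p : E)‖ * ρ) :
    ∃ z : Fin m → E, (∀ i, ‖z i - y i‖ ≤ ρ) ∧ S.IsSol p ψ z := by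
  have hρ1 := rho_lt_one p hpE hρp
  set κ' := max κ ρ with hκ'
  have hκ'1 : κ' < 1 := max_lt hκ hρ1
  have hρκ' : ρ ≤ κ' := le_max_right _ _
  have hy' : ∀ i, ‖y i‖ ≤ κ' := fun i => (hy i).trans (le_max_left _ _)
  have hθ := theta_lt_one (E := E) p hp0 hκ'1 hρp
  have hθ0 : 0 ≤ theta (E := E) p κ' ρ := (hρ0.trans hρκ').trans (le_theta_left p κ' ρ)
  have hcomplete : IsComplete (Metric.closedBall (0 : Fin m → E) ρ) :=
    Metric.isClosed_closedBall.isComplete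
  have hmem : ∀ δ : Fin m → E, δ ∈ Metric.closedBall (0 : Fin m → E) ρ ↔ ∀ i, ‖δ i‖ ≤ ρ := by
    intro δ
    rw [mem_closedBall_zero_iff, pi_norm_le_iff_of_nonneg hρ0]
  have hmaps : Set.MapsTo (S.Psi p ψ y) (Metric.closedBall (0 : Fin m → E) ρ)
      (Metric.closedBall (0 : Fin m → E) ρ) := by
    intro δ hδ
    rw [hmem] at hδ ⊢
    exact fun i => S.norm_Psi_le p ψ hψ hp hp0 hdet hκ'1 hρ0 hρκ' hθ.le hy' hF hδ i
  have hcontr : ContractingWith (⟨theta (E := E) p κ' ρ, hθ0⟩ : NNReal)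
      (hmaps.restrict (S.Psi p ψ y) _ _) := by
    refine ⟨by exact_mod_cast hθ, LipschitzWith.of_dist_le_mul ?_⟩
    intro a b
    rw [Subtype.dist_eq, Subtype.dist_eq, dist_eq_norm, dist_eq_norm]
    change ‖S.Psi p ψ y a - S.Psi p ψ y b‖ ≤ theta (E := E) p κ' ρ * ‖(a : Fin m → E) - (b : Fin m → E)‖
    rw [pi_norm_le_iff_of_nonneg (mul_nonneg hθ0 (norm_nonneg _))]
    intro i
    exact S.norm_Psi_sub_le p ψ hψ hp hp0 hdet hκ'1 hρ0 hρκ' hy' ((hmem _).1 a.2)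
      ((hmem _).1 b.2) (norm_nonneg _) (fun j => norm_le_pi_norm ((a : Fin m → E) - (b : Fin m → E)) j) i
  obtain ⟨δ, hδmem, hfix, -⟩ := hcontr.exists_fixedPoint' hcomplete hmaps
    (x := 0) ((hmem 0).2 (fun i => by simpa using hρ0)) (edist_ne_top _ _)
  refine ⟨y + δ, ?_, ?_⟩
  · intro i
    simpa using (hmem δ).1 hδmem i
  · rw [S.isSol_add_iff p ψ hψ hp0 hdet hκ'1 hy']
    exact hfix

end FlatSys

end Fermat.Agent.S56lib.Lift
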