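/-
S56lib / Lift / Subfield (helper6).
Transport of the Newton lemma to a finite (hence complete) subextension `E / K` of `Ω`:
an approximate solution with coordinates in `E` is close to an exact solution with
coordinates in `E`.
-/
import Fermat.Agent.S56lib.Lift.Newton
import Fermat.Agent.S56lib.Lift.Eta

set_option autoImplicit false
set_option linter.unusedSectionVars false

noncomputable section

namespace Fermat.Agent.S56lib.Lift

open MvPolynomial IntermediateField Fermat.Agent.S56lib.Ram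

variable {K Ω : Type*} [NormedField K] [NormedField Ω] [NormedAlgebra K Ω] [IsUltrametricDist Ω]
  {W : Type*} [CommRing W] (φ : W →+* K) {m : ℕ}

/-- the coefficient map into a subextension -/
def cmapE (E : IntermediateField K Ω) : W →+* E := (algebraMap K E).comp φ

theorem val_comp_cmapE (E : IntermediateField K Ω) :
    (E.val : E →+* Ω).comp (cmapE φ E) = cmap (Ω := Ω) φ := by
  ext w
  simp [cmapE, cmap]

theorem norm_cmapE_le (hφ : ∀ w, ‖φ w‖ ≤ 1) (E : IntermediateField K Ω) (w : W) :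
    ‖cmapE φ E w‖ ≤ 1 := by
  have h1 : ‖cmapE φ E w‖ = ‖cmap (Ω := Ω) φ w‖ := by
    rw [← val_comp_cmapE φ E]
    rfl
  rw [h1]
  exact norm_cmap_le φ hφ w

theorem coe_ev (E : IntermediateField K Ω) (f : MvPolynomial (Fin m) W) (z : Fin m → E) :
    ((ev (cmapE φ E) f z : E) : Ω) = ev (cmap (Ω := Ω) φ) f (fun i => (z i : Ω)) := by
  have h1 := MvPolynomial.eval₂_comp_left (E.val : E →+* Ω) (cmapE φ E) z f
  rw [val_comp_cmapE] at h1
  exact h1

theorem coe_F (E : IntermediateField K Ω) (S : FlatSys W m) (p : ℕ) (z : Fin m → E)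
    (i : Fin m) :
    ((S.F p (cmapE φ E) z i : E) : Ω) = S.F p (cmap (Ω := Ω) φ) (fun i => (z i : Ω)) i := by
  rw [FlatSys.F, FlatSys.F, ← coe_ev]
  simp

theorem isSol_coe_iff (E : IntermediateField K Ω) (S : FlatSys W m) (p : ℕ) (z : Fin m → E) :
    S.IsSol p (cmap (Ω := Ω) φ) (fun i => (z i : Ω)) ↔ S.IsSol p (cmapE φ E) z := by
  constructor
  · intro h i
    have := h i
    rw [← coe_F] at this
    exact_mod_cast this
  · intro h i
    rw [← coe_F, h i]
    rfl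

omit [IsUltrametricDist Ω] in
theorem norm_natCast_Ω (p : ℕ) : ‖((p : ℕ) : Ω)‖ = ‖((p : ℕ) : K)‖ := by
  rw [← map_natCast (algebraMap K Ω) p, norm_algebraMap']

/-- **Newton in a finite subextension** -/
theorem exists_sol_subfield [CompleteSpace K] {p : ℕ} (hp : p.Prime)
    (hunif : IsUnif ((p : ℕ) : K)) (hφ : ∀ w, ‖φ w‖ ≤ 1) (E : IntermediateField K Ω)
    [FiniteDimensional K E] (S : FlatSys W m)
    (hdet : ‖ev (cmap (Ω := Ω) φ) S.detPoly (0 : Fin m → Ω)‖ = 1) {y : Fin m → Ω}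
    (hyE : ∀ i, y i ∈ E) {κ ρ : ℝ} (hκ : κ < 1) (hy : ∀ i, ‖y i‖ ≤ κ) (hρ0 : 0 ≤ ρ)
    (hρp : ρ ^ (p - 1) < ‖((p : ℕ) : K)‖)
    (hF : ∀ i, ‖S.F p (cmap (Ω := Ω) φ) y i‖ ≤ ‖((p : ℕ) : K)‖ * ρ) :
    ∃ z : Fin m → Ω, (∀ i, z i ∈ E) ∧ (∀ i, ‖z i - y i‖ ≤ ρ) ∧
      S.IsSol p (cmap (Ω := Ω) φ) z := by
  let _ : NontriviallyNormedField K :=
    { (inferInstance : NormedField K) with
      non_trivial := ⟨((p : ℕ) : K)⁻¹, by
        rw [norm_inv]
        exact (one_lt_inv₀ hunif.pos).2 hunif.lt_one⟩ }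
  have : CompleteSpace E := FiniteDimensional.complete K E
  have hpE : ‖((p : ℕ) : E)‖ = ‖((p : ℕ) : K)‖ := by
    have : ‖((p : ℕ) : E)‖ = ‖((p : ℕ) : Ω)‖ := by
      change ‖(((p : ℕ) : E) : Ω)‖ = _
      simp
    rw [this, norm_natCast_Ω (K := K)]
  set yE : Fin m → E := fun i => ⟨y i, hyE i⟩ with hyEdef
  have hdetE : ‖ev (cmapE φ E) S.detPoly (0 : Fin m → E)‖ = 1 := by
    have h1 := coe_ev φ E S.detPoly (0 : Fin m → E)
    have h2 : (fun i => (((0 : Fin m → E) i : E) : Ω)) = (0 : Fin m → Ω) := by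
      funext i
      simp
    rw [h2] at h1
    rw [← hdet, ← h1]
    rfl
  have hFE : ∀ i, ‖S.F p (cmapE φ E) yE i‖ ≤ ‖((p : ℕ) : E)‖ * ρ := by
    intro i
    rw [hpE]
    have h1 := coe_F φ E S p yE i
    have h2 : ‖S.F p (cmapE φ E) yE i‖ = ‖((S.F p (cmapE φ E) yE i : E) : Ω)‖ := rfl
    rw [h2, h1]
    exact hF i
  obtain ⟨z, hz1, hz2⟩ := S.exists_sol p (cmapE φ E) (norm_cmapE_le φ hφ E) hp
    (by rw [hpE]; exact hunif.pos) (by rw [hpE]; exact hunif.lt_one) hdetE hκ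
    (y := yE) (fun i => hy i) hρ0 (by rw [hpE]; exact hρp) hFE
  refine ⟨fun i => (z i : Ω), fun i => (z i).2, fun i => hz1 i, ?_⟩
  exact (isSol_coe_iff φ E S p z).2 hz2

end Fermat.Agent.S56lib.Lift
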